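import Fermat.Agent.S55.UnrExt93.Roots

/-!
# S55 moonshot, sub-leaf 13b (helper93): the unramified extension `K_n = K(μ_{Q^n-1})`

Mathlib only.  `K` a finite extension of `ℚ_[q]` inside `Ω := PadicAlgCl q`, `Q := resCard q K`.
`unr q K n := K ⊔ ℚ_q(μ_{Q^n-1})`.  Main results: degree `n` over `K`, stable under `Gal(Ω/K)`,
cyclic with Frobenius generator `ζ ↦ ζ^Q`, value groups of `K_n` and `K` coincide.
-/

namespace Fermat.Agent.S55.UnrExt93

open Polynomial IntermediateField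

variable (q : ℕ) [Fact q.Prime]

/-- The unramified extension of degree `n` of `K` inside `PadicAlgCl q` (for `0 < n`). -/
noncomputable def unr (K : IntermediateField ℚ_[q] (PadicAlgCl q)) (n : ℕ) :
    IntermediateField ℚ_[q] (PadicAlgCl q) :=
  K ⊔ IntermediateField.adjoin ℚ_[q] {z : PadicAlgCl q | z ^ (resCard q K ^ n - 1) = 1}

variable {q}

lemma le_unr (K : IntermediateField ℚ_[q] (PadicAlgCl q)) (n : ℕ) : K ≤ unr q K n := le_sup_left

lemma mem_unr_of_pow_eq_one (K : IntermediateField ℚ_[q] (PadicAlgCl q)) (n : ℕ)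
    {z : PadicAlgCl q} (hz : z ^ (resCard q K ^ n - 1) = 1) : z ∈ unr q K n :=
  (le_sup_right : _ ≤ unr q K n) (IntermediateField.subset_adjoin _ _ hz)

section

variable (K : IntermediateField ℚ_[q] (PadicAlgCl q)) [FiniteDimensional ℚ_[q] K] {n : ℕ}

lemma resCard_pow_sub_one_ne_zero (hn : 0 < n) : resCard q K ^ n - 1 ≠ 0 := by
  intro h0
  exact not_dvd_resCard_pow_sub_one K n hn (by rw [h0]; exact dvd_zero q)

lemma exists_zeta (hn : 0 < n) : ∃ ζ : PadicAlgCl q, IsPrimitiveRoot ζ (resCard q K ^ n - 1) := by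
  have : NeZero (resCard q K ^ n - 1) := ⟨resCard_pow_sub_one_ne_zero K hn⟩
  exact HasEnoughRootsOfUnity.exists_primitiveRoot (PadicAlgCl q) (resCard q K ^ n - 1)

variable {K}

lemma unr_eq_sup_simple (hn : 0 < n) {ζ : PadicAlgCl q}
    (hζ : IsPrimitiveRoot ζ (resCard q K ^ n - 1)) : unr q K n = K ⊔ ℚ_[q]⟮ζ⟯ := by
  have : NeZero (resCard q K ^ n - 1) := ⟨resCard_pow_sub_one_ne_zero K hn⟩
  apply le_antisymm
  · refine sup_le le_sup_left (le_trans ?_ le_sup_right)
    rw [IntermediateField.adjoin_le_iff]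
    intro z hz
    obtain ⟨i, -, rfl⟩ := hζ.eq_pow_of_pow_eq_one hz
    exact pow_mem (IntermediateField.mem_adjoin_simple_self ℚ_[q] ζ) i
  · refine sup_le le_sup_left (le_trans ?_ le_sup_right)
    rw [IntermediateField.adjoin_simple_le_iff]
    exact IntermediateField.subset_adjoin _ _ hζ.pow_eq_one

lemma isIntegral_zeta (hn : 0 < n) {ζ : PadicAlgCl q}
    (hζ : IsPrimitiveRoot ζ (resCard q K ^ n - 1)) (F : Type*) [Field F] [Algebra F (PadicAlgCl q)] :
    IsIntegral F ζ :=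
  (hζ.isIntegral (Nat.pos_of_ne_zero (resCard_pow_sub_one_ne_zero K hn))).tower_top

lemma finiteDimensional_unr (hn : 0 < n) : FiniteDimensional ℚ_[q] (unr q K n) := by
  obtain ⟨ζ, hζ⟩ := exists_zeta K hn
  rw [unr_eq_sup_simple hn hζ]
  have : FiniteDimensional ℚ_[q] ℚ_[q]⟮ζ⟯ :=
    IntermediateField.adjoin.finiteDimensional (isIntegral_zeta hn hζ ℚ_[q])
  exact IntermediateField.finiteDimensional_sup K ℚ_[q]⟮ζ⟯

omit [FiniteDimensional ℚ_[q] K] in
lemma unr_mono {n m : ℕ} (h : n ∣ m) : unr q K n ≤ unr q K m := by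
  refine sup_le le_sup_left (le_trans ?_ le_sup_right)
  apply IntermediateField.adjoin.mono
  intro z hz
  obtain ⟨e, he⟩ := Nat.pow_sub_one_dvd_pow_sub_one (resCard q K) h
  show z ^ (resCard q K ^ m - 1) = 1
  rw [he, pow_mul, hz, one_pow]

end

section degree

variable {K : IntermediateField ℚ_[q] (PadicAlgCl q)} [FiniteDimensional ℚ_[q] K] {n : ℕ}
  {ζ : PadicAlgCl q}

omit [FiniteDimensional ℚ_[q] K] in
/-- An automorphism of `Ω` over `K`, viewed in `Gal(Ω/ℚ_q)`, lies in the fixing subgroup. -/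
lemma restrictScalars_mem_fixingSubgroup (σ : PadicAlgCl q ≃ₐ[K] PadicAlgCl q) :
    σ.restrictScalars ℚ_[q] ∈ K.fixingSubgroup := by
  rw [IntermediateField.mem_fixingSubgroup_iff]
  intro x hx
  exact σ.commutes ⟨x, hx⟩

/-- Every root of the minimal polynomial of `ζ` over `K` is a Frobenius power of `ζ`. -/
lemma root_eq_pow (hn : 0 < n) (hζ : IsPrimitiveRoot ζ (resCard q K ^ n - 1)) {y : PadicAlgCl q}
    (hy : aeval y (minpoly K ζ) = 0) : ∃ i < n, y = ζ ^ resCard q K ^ i := by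
  obtain ⟨σ, hσ⟩ := minpoly.exists_algEquiv_of_root (K := K) (L := PadicAlgCl q) (x := y) (y := ζ)
    (isIntegral_zeta hn hζ K).isAlgebraic hy
  obtain ⟨i, hi, h⟩ := galois_action hn hζ _ (restrictScalars_mem_fixingSubgroup σ.symm)
  refine ⟨i, hi, ?_⟩
  rw [← h]
  show y = σ.symm ζ
  rw [← hσ, AlgEquiv.symm_apply_apply]

lemma natDegree_minpoly_le (hn : 0 < n) (hζ : IsPrimitiveRoot ζ (resCard q K ^ n - 1)) :
    (minpoly K ζ).natDegree ≤ n := by
  classical
  have hint : IsIntegral K ζ := isIntegral_zeta hn hζ K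
  have hsep : (minpoly K ζ).Separable := (minpoly.irreducible hint).separable
  have hsplit : ((minpoly K ζ).map (algebraMap K (PadicAlgCl q))).Splits := IsAlgClosed.splits _
  rw [← Polynomial.card_rootSet_eq_natDegree hsep hsplit]
  have hsub : (minpoly K ζ).rootSet (PadicAlgCl q) ⊆
      ((Finset.range n).image (fun i => ζ ^ resCard q K ^ i) : Finset (PadicAlgCl q)) := by
    intro y hy
    rw [Polynomial.mem_rootSet] at hy
    obtain ⟨i, hi, rfl⟩ := root_eq_pow hn hζ hy.2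
    exact Finset.mem_coe.2 (Finset.mem_image.2 ⟨i, Finset.mem_range.2 hi, rfl⟩)
  calc Fintype.card ((minpoly K ζ).rootSet (PadicAlgCl q))
      = ((minpoly K ζ).rootSet (PadicAlgCl q)).toFinset.card := (Set.toFinset_card _).symm
    _ ≤ ((Finset.range n).image (fun i => ζ ^ resCard q K ^ i)).card :=
        Finset.card_le_card (by intro y hy; exact hsub (Set.mem_toFinset.1 hy))
    _ ≤ n := Finset.card_image_le.trans (by simp)

lemma le_natDegree_minpoly (hn : 0 < n) (hζ : IsPrimitiveRoot ζ (resCard q K ^ n - 1)) :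
    n ≤ (minpoly K ζ).natDegree := by
  by_contra hlt
  rw [not_le] at hlt
  have hint : IsIntegral K ζ := isIntegral_zeta hn hζ K
  have h0 : ∑ i ∈ Finset.range n, (algebraMap K (PadicAlgCl q) ((minpoly K ζ).coeff i)) * ζ ^ i
      = 0 := by
    have h1 := Polynomial.aeval_eq_sum_range' hlt ζ
    rw [minpoly.aeval] at h1
    rw [h1]
    exact Finset.sum_congr rfl (fun i _ => (Algebra.smul_def _ _).symm)
  have h2 := eq_zero_of_sum_eq_zero hn hζ
    (fun i => algebraMap K (PadicAlgCl q) ((minpoly K ζ).coeff i))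
    (fun i => ((minpoly K ζ).coeff i).2) h0 (minpoly K ζ).natDegree hlt
  simp only [coeff_natDegree, (minpoly.monic hint).leadingCoeff, map_one] at h2
  exact one_ne_zero h2

theorem natDegree_minpoly (hn : 0 < n) (hζ : IsPrimitiveRoot ζ (resCard q K ^ n - 1)) :
    (minpoly K ζ).natDegree = n :=
  le_antisymm (natDegree_minpoly_le hn hζ) (le_natDegree_minpoly hn hζ)

/-- `unr q K n`, viewed as an intermediate field over `K`, is `K⟮ζ⟯`. -/
lemma extendScalars_unr (hn : 0 < n) (hζ : IsPrimitiveRoot ζ (resCard q K ^ n - 1)) :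
    IntermediateField.extendScalars (le_unr K n) = K⟮ζ⟯ := by
  apply IntermediateField.restrictScalars_injective ℚ_[q]
  rw [IntermediateField.extendScalars_restrictScalars, IntermediateField.restrictScalars_adjoin,
    IntermediateField.adjoin_union, IntermediateField.adjoin_self, unr_eq_sup_simple hn hζ]

/-- `[K_n : K] = n`. -/
theorem relfinrank_unr (hn : 0 < n) : K.relfinrank (unr q K n) = n := by
  obtain ⟨ζ, hζ⟩ := exists_zeta K hn
  rw [IntermediateField.relfinrank_eq_finrank_of_le (le_unr K n), extendScalars_unr hn hζ,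
    IntermediateField.adjoin.finrank (isIntegral_zeta hn hζ K), natDegree_minpoly hn hζ]

/-- The power basis spans: every element of `K_n` is `∑_{i<n} c_i ζ^i` with `c_i ∈ K`. -/
theorem exists_sum_eq (hn : 0 < n) (hζ : IsPrimitiveRoot ζ (resCard q K ^ n - 1))
    {x : PadicAlgCl q} (hx : x ∈ unr q K n) :
    ∃ c : ℕ → PadicAlgCl q, (∀ i, c i ∈ K) ∧ x = ∑ i ∈ Finset.range n, c i * ζ ^ i := by
  have hint : IsIntegral K ζ := isIntegral_zeta hn hζ K
  have hx' : x ∈ K⟮ζ⟯ := by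
    have h1 : x ∈ IntermediateField.extendScalars (le_unr K n) := hx
    rwa [extendScalars_unr hn hζ] at h1
  have hx'' : x ∈ K⟮ζ⟯.toSubalgebra := hx'
  rw [IntermediateField.adjoin_simple_toSubalgebra_of_isAlgebraic hint.isAlgebraic,
    Algebra.adjoin_singleton_eq_range_aeval] at hx''
  obtain ⟨p, rfl⟩ := hx''
  have hmonic : (minpoly K ζ).Monic := minpoly.monic hint
  have hne1 : minpoly K ζ ≠ 1 := minpoly.ne_one K ζ
  have hdeg : (p %ₘ minpoly K ζ).natDegree < n := by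
    have := natDegree_modByMonic_lt p hmonic hne1
    rwa [natDegree_minpoly hn hζ] at this
  refine ⟨fun i => algebraMap K (PadicAlgCl q) ((p %ₘ minpoly K ζ).coeff i),
    fun i => ((p %ₘ minpoly K ζ).coeff i).2, ?_⟩
  have h2 : (aeval ζ) p = (aeval ζ) (p %ₘ minpoly K ζ) :=
    (Polynomial.aeval_modByMonic_eq_self_of_root (minpoly.aeval K ζ)).symm
  show (aeval ζ) p = _
  rw [h2, Polynomial.aeval_eq_sum_range' hdeg]
  exact Finset.sum_congr rfl (fun i _ => Algebra.smul_def _ _)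

end degree

section galois

variable {K : IntermediateField ℚ_[q] (PadicAlgCl q)} [FiniteDimensional ℚ_[q] K] {n : ℕ}

/-- `K_n` is unramified over `K`: the value groups coincide. -/
theorem unramified (hn : 0 < n) {x : PadicAlgCl q} (hx : x ∈ unr q K n) :
    ∃ y ∈ K, ‖x‖ = ‖y‖ := by
  obtain ⟨ζ, hζ⟩ := exists_zeta K hn
  obtain ⟨c, hcK, rfl⟩ := exists_sum_eq hn hζ hx
  obtain ⟨j, -, hj, -⟩ := ortho hn hζ c hcK
  exact ⟨c j, hcK j, hj⟩

omit [FiniteDimensional ℚ_[q] K] in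
/-- Elements fixed by `Gal(Ω/K)` lie in `K`. -/
theorem mem_of_fixed {x : PadicAlgCl q} (h : ∀ s ∈ K.fixingSubgroup, s x = x) : x ∈ K := by
  rw [← InfiniteGalois.fixedField_fixingSubgroup K, IntermediateField.mem_fixedField_iff]
  exact h

omit [FiniteDimensional ℚ_[q] K] in
/-- `K_n` is stable under `Gal(Ω/K)`. -/
theorem stable (n : ℕ) (s : PadicAlgCl q ≃ₐ[ℚ_[q]] PadicAlgCl q) (hs : s ∈ K.fixingSubgroup)
    {x : PadicAlgCl q} (hx : x ∈ unr q K n) : s x ∈ unr q K n := by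
  have hle : unr q K n ≤ (unr q K n).comap (s : PadicAlgCl q →ₐ[ℚ_[q]] PadicAlgCl q) := by
    refine sup_le ?_ ?_
    · intro y hy
      show s y ∈ unr q K n
      rw [(IntermediateField.mem_fixingSubgroup_iff _ _).1 hs y hy]
      exact le_unr K n hy
    · rw [IntermediateField.adjoin_le_iff]
      intro z hz
      show s z ∈ unr q K n
      apply mem_unr_of_pow_eq_one
      rw [← map_pow, hz, map_one]
  exact hle hx

omit [FiniteDimensional ℚ_[q] K] in
/-- If `φ ∈ Gal(Ω/K)` acts on `μ_{Q^n-1}` by `z ↦ z^Q`, then `φ^i` acts by `z ↦ z^(Q^i)`. -/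
lemma frob_pow_apply {φ : PadicAlgCl q ≃ₐ[ℚ_[q]] PadicAlgCl q}
    (hφ : ∀ z : PadicAlgCl q, z ^ (resCard q K ^ n - 1) = 1 → φ z = z ^ resCard q K)
    {z : PadicAlgCl q} (hz : z ^ (resCard q K ^ n - 1) = 1) (i : ℕ) :
    (φ ^ i) z = z ^ resCard q K ^ i := by
  induction i with
  | zero => simp
  | succ i ih =>
    rw [pow_succ', AlgEquiv.mul_apply, ih, map_pow, hφ z hz, ← pow_mul, ← pow_succ']

omit [FiniteDimensional ℚ_[q] K] in
/-- Two elements of `Gal(Ω/K)` agreeing on a generator `ζ` agree on `K ⊔ ℚ_q(ζ)`. -/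
lemma eq_on_sup_simple {ζ : PadicAlgCl q} {s t : PadicAlgCl q ≃ₐ[ℚ_[q]] PadicAlgCl q}
    (hs : s ∈ K.fixingSubgroup) (ht : t ∈ K.fixingSubgroup) (h : s ζ = t ζ)
    {x : PadicAlgCl q} (hx : x ∈ K ⊔ ℚ_[q]⟮ζ⟯) : s x = t x := by
  have hle : K ⊔ ℚ_[q]⟮ζ⟯ ≤ IntermediateField.fixedField (Subgroup.zpowers (t⁻¹ * s)) := by
    refine sup_le ?_ ?_
    · intro y hy
      rw [IntermediateField.mem_fixedField_iff]
      intro f hf
      have hmem : t⁻¹ * s ∈ K.fixingSubgroup := mul_mem (inv_mem ht) hs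
      exact (IntermediateField.mem_fixingSubgroup_iff _ _).1
        ((Subgroup.zpowers_le.2 hmem) hf) y hy
    · rw [IntermediateField.adjoin_simple_le_iff, IntermediateField.mem_fixedField_iff]
      intro f hf
      obtain ⟨k, rfl⟩ := Subgroup.mem_zpowers_iff.1 hf
      have h1 : (t⁻¹ * s) ζ = ζ := by
        rw [AlgEquiv.mul_apply, h]
        show t⁻¹ (t ζ) = ζ
        exact t.symm_apply_apply ζ
      have h2 : (t⁻¹ * s)⁻¹ ζ = ζ := by
        conv_lhs => rw [← h1]
        exact (t⁻¹ * s).symm_apply_apply ζ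
      clear hf
      induction k using Int.induction_on with
      | zero => simp
      | succ k ih => rw [zpow_add, zpow_one, AlgEquiv.mul_apply, h1, ih]
      | pred k ih => rw [zpow_sub, zpow_one, AlgEquiv.mul_apply, h2, ih]
  have h3 := (IntermediateField.mem_fixedField_iff _ _).1 (hle hx) (t⁻¹ * s)
    (Subgroup.mem_zpowers _)
  rw [AlgEquiv.mul_apply] at h3
  have h4 : t (t⁻¹ (s x)) = t x := congrArg t h3
  rw [← h4]
  exact (t.apply_symm_apply (s x)).symm

/-- Number theory: `Q^n - 1 ∣ Q^i - 1` implies `n ∣ i`. -/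
lemma dvd_of_pow_sub_one_dvd {Q n i : ℕ} (hQ : 2 ≤ Q) (hn : 0 < n)
    (h : Q ^ n - 1 ∣ Q ^ i - 1) : n ∣ i := by
  have hpos : ∀ e : ℕ, 1 ≤ Q ^ e := fun e => Nat.one_le_pow _ _ (by omega)
  have h1 : 1 ≡ Q ^ n [MOD Q ^ n - 1] := (Nat.modEq_iff_dvd' (hpos n)).2 dvd_rfl
  have h2 : 1 ≡ Q ^ i [MOD Q ^ n - 1] := (Nat.modEq_iff_dvd' (hpos i)).2 h
  have h3 : Q ^ i = (Q ^ n) ^ (i / n) * Q ^ (i % n) := by
    rw [← pow_mul, ← pow_add, Nat.div_add_mod]
  have h4 : Q ^ (i % n) ≡ 1 [MOD Q ^ n - 1] := by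
    have h5 : (Q ^ n) ^ (i / n) * Q ^ (i % n) ≡ 1 ^ (i / n) * Q ^ (i % n) [MOD Q ^ n - 1] :=
      Nat.ModEq.mul_right _ (Nat.ModEq.pow _ h1.symm)
    rw [one_pow, one_mul, ← h3] at h5
    exact h5.symm.trans h2.symm
  by_contra hnd
  have hb : 0 < i % n := Nat.pos_of_ne_zero (fun h0 => hnd (Nat.dvd_of_mod_eq_zero h0))
  have hbn : i % n < n := Nat.mod_lt _ hn
  have hn2 : 2 ≤ n := by omega
  -- `Q^(i % n) < Q^n - 1` and `1 < Q^n - 1`
  have h6 : Q ^ (i % n) ≤ Q ^ (n - 1) := Nat.pow_le_pow_right (by omega) (by omega)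
  have h7 : Q ^ n = Q ^ (n - 1) * Q := by rw [← pow_succ]; congr 1; omega
  have h8 : 2 ≤ Q ^ (n - 1) := by
    calc 2 ≤ Q := hQ
      _ = Q ^ 1 := (pow_one _).symm
      _ ≤ Q ^ (n - 1) := Nat.pow_le_pow_right (by omega) (by omega)
  have h9 : Q ^ (n - 1) + 2 ≤ Q ^ n := by rw [h7]; nlinarith
  have h10 : Q ^ (i % n) = 1 := Nat.ModEq.eq_of_lt_of_lt h4 (by omega) (by omega)
  have h11 : 2 ≤ Q ^ (i % n) := by
    calc 2 ≤ Q := hQ
      _ = Q ^ 1 := (pow_one _).symm
      _ ≤ Q ^ (i % n) := Nat.pow_le_pow_right (by omega) hb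
  omega

/-- Frobenius congruence on `K_n`: any `φ ∈ Gal(Ω/K)` acting as `z ↦ z^Q` on `μ_{Q^n-1}`
satisfies `φ x ≡ x^Q` for integral `x ∈ K_n`. -/
theorem frob_congr_unr (hn : 0 < n) {φ : PadicAlgCl q ≃ₐ[ℚ_[q]] PadicAlgCl q}
    (hφK : φ ∈ K.fixingSubgroup)
    (hφ : ∀ z : PadicAlgCl q, z ^ (resCard q K ^ n - 1) = 1 → φ z = z ^ resCard q K)
    {x : PadicAlgCl q} (hx : x ∈ unr q K n) (hx1 : ‖x‖ ≤ 1) :
    ‖φ x - x ^ resCard q K‖ < 1 := by
  obtain ⟨a, ha, hQ⟩ := resCard_pos_pow K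
  obtain ⟨ζ, hζ⟩ := exists_zeta K hn
  have h1 : ‖ζ‖ = 1 := norm_zeta hn hζ
  obtain ⟨c, hcK, rfl⟩ := exists_sum_eq hn hζ hx
  obtain ⟨j, -, hj, hmax⟩ := ortho hn hζ c hcK
  have hc1 : ∀ i ∈ Finset.range n, ‖c i‖ ≤ 1 := fun i hi =>
    (hmax i (Finset.mem_range.1 hi)).trans (hj ▸ hx1)
  have hterm : ∀ i ∈ Finset.range n, ‖c i * ζ ^ i‖ ≤ 1 := fun i hi => by
    rw [norm_mul, norm_pow, h1, one_pow, mul_one]; exact hc1 i hi
  have hterm' : ∀ i ∈ Finset.range n, ‖c i * (ζ ^ resCard q K) ^ i‖ ≤ 1 := fun i hi => by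
    rw [norm_mul, norm_pow, norm_pow, h1, one_pow, one_pow, mul_one]; exact hc1 i hi
  have hφx : φ (∑ i ∈ Finset.range n, c i * ζ ^ i)
      = ∑ i ∈ Finset.range n, c i * (ζ ^ resCard q K) ^ i := by
    rw [map_sum]
    refine Finset.sum_congr rfl (fun i _ => ?_)
    rw [map_mul, map_pow, (IntermediateField.mem_fixingSubgroup_iff _ _).1 hφK _ (hcK i),
      hφ ζ hζ.pow_eq_one]
  have hA := red_sum (Finset.range n) (fun i => c i * ζ ^ i) hterm
  have hB := red_sum (Finset.range n) (fun i => c i * (ζ ^ resCard q K) ^ i) hterm'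
  have hpowle : ‖(∑ i ∈ Finset.range n, c i * ζ ^ i) ^ resCard q K‖ ≤ 1 := by
    rw [norm_pow]; exact pow_le_one₀ (norm_nonneg _) hx1
  rw [hφx, ← red_eq_iff hB.1 hpowle, hB.2, red_pow hx1, hA.2, hQ, sum_pow_char_pow]
  refine Finset.sum_congr rfl (fun i hi => ?_)
  have hζQ : ‖ζ ^ q ^ a‖ ≤ 1 := by rw [norm_pow, h1, one_pow]
  rw [red_mul (hc1 i hi) (by rw [norm_pow]; exact pow_le_one₀ (norm_nonneg _) hζQ),
    red_mul (hc1 i hi) (by rw [norm_pow, h1, one_pow]), red_pow hζQ, red_pow h1.le, red_pow h1.le,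
    mul_pow, ← hQ, pow_resCard_of_mem_resField (red_mem_resField (hcK i) (hc1 i hi)),
    ← pow_mul, ← pow_mul, Nat.mul_comm]

/-- A Frobenius element for `K_n/K` exists. -/
theorem exists_frob (hn : 0 < n) :
    ∃ φ ∈ K.fixingSubgroup,
      (∀ z : PadicAlgCl q, z ^ (resCard q K ^ n - 1) = 1 → φ z = z ^ resCard q K) ∧
      (∀ x ∈ unr q K n, ‖x‖ ≤ 1 → ‖φ x - x ^ resCard q K‖ < 1) := by
  classical
  obtain ⟨ζ, hζ⟩ := exists_zeta K hn
  have hNZ : NeZero (resCard q K ^ n - 1) := ⟨resCard_pow_sub_one_ne_zero K hn⟩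
  -- first find `φ` with `φ ζ = ζ ^ Q`
  have key : ∃ φ ∈ K.fixingSubgroup, φ ζ = ζ ^ resCard q K := by
    rcases Nat.lt_or_ge n 2 with h2 | h2
    · have hn1 : n = 1 := by omega
      refine ⟨1, one_mem _, ?_⟩
      have := zeta_pow_resCard_pow hζ
      rw [hn1, pow_one] at this
      rw [this]; rfl
    · -- counting: the root set of the minimal polynomial is all of `{ζ^(Q^i) : i < n}`
      have hint : IsIntegral K ζ := isIntegral_zeta hn hζ K
      have hsep : (minpoly K ζ).Separable := (minpoly.irreducible hint).separable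
      have hsplit : ((minpoly K ζ).map (algebraMap K (PadicAlgCl q))).Splits :=
        IsAlgClosed.splits _
      have hcard := Polynomial.card_rootSet_eq_natDegree hsep hsplit
      rw [natDegree_minpoly hn hζ] at hcard
      set A : Finset (PadicAlgCl q) := (Finset.range n).image (fun i => ζ ^ resCard q K ^ i)
        with hA
      have hsub : ((minpoly K ζ).rootSet (PadicAlgCl q)).toFinset ⊆ A := by
        intro y hy
        rw [Set.mem_toFinset, Polynomial.mem_rootSet] at hy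
        obtain ⟨i, hi, rfl⟩ := root_eq_pow hn hζ hy.2
        exact Finset.mem_image.2 ⟨i, Finset.mem_range.2 hi, rfl⟩
      have hle : A.card ≤ ((minpoly K ζ).rootSet (PadicAlgCl q)).toFinset.card := by
        rw [Set.toFinset_card, hcard]
        exact Finset.card_image_le.trans (by simp)
      have hEq := Finset.eq_of_subset_of_card_le hsub hle
      have hmem : ζ ^ resCard q K ∈ ((minpoly K ζ).rootSet (PadicAlgCl q)).toFinset := by
        rw [hEq]
        exact Finset.mem_image.2 ⟨1, Finset.mem_range.2 (by omega), by rw [pow_one]⟩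
      rw [Set.mem_toFinset, Polynomial.mem_rootSet] at hmem
      obtain ⟨σ, hσ⟩ := minpoly.exists_algEquiv_of_root (K := K) (L := PadicAlgCl q)
        (x := ζ ^ resCard q K) (y := ζ) hint.isAlgebraic hmem.2
      refine ⟨σ.symm.restrictScalars ℚ_[q], restrictScalars_mem_fixingSubgroup σ.symm, ?_⟩
      show σ.symm ζ = ζ ^ resCard q K
      exact (AlgEquiv.symm_apply_eq σ).2 hσ.symm
  obtain ⟨φ, hφK, hφζ⟩ := key
  have hφ : ∀ z : PadicAlgCl q, z ^ (resCard q K ^ n - 1) = 1 → φ z = z ^ resCard q K := by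
    intro z hz
    obtain ⟨i, -, rfl⟩ := hζ.eq_pow_of_pow_eq_one hz
    rw [map_pow, hφζ, ← pow_mul, ← pow_mul, Nat.mul_comm]
  exact ⟨φ, hφK, hφ, fun x hx hx1 => frob_congr_unr hn hφK hφ hx hx1⟩

/-- `Gal(K_n/K)` is cyclic of order `n`, generated by any Frobenius element. -/
theorem cyclic (hn : 0 < n) {φ : PadicAlgCl q ≃ₐ[ℚ_[q]] PadicAlgCl q}
    (hφK : φ ∈ K.fixingSubgroup)
    (hφ : ∀ z : PadicAlgCl q, z ^ (resCard q K ^ n - 1) = 1 → φ z = z ^ resCard q K) :
    (∀ s ∈ K.fixingSubgroup, ∃ i < n, ∀ x ∈ unr q K n, s x = (φ ^ i) x) ∧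
    (∀ i : ℕ, (∀ x ∈ unr q K n, (φ ^ i) x = x) ↔ n ∣ i) := by
  obtain ⟨ζ, hζ⟩ := exists_zeta K hn
  have hζ0 : ζ ≠ 0 := by
    intro h0
    have := norm_zeta hn hζ
    rw [h0, norm_zero] at this
    exact zero_ne_one this
  have hQ2 : 2 ≤ resCard q K := one_lt_resCard K
  have hpos : ∀ e : ℕ, 1 ≤ resCard q K ^ e := fun e => Nat.one_le_pow _ _ (by omega)
  constructor
  · intro s hs
    obtain ⟨i, hi, h⟩ := galois_action hn hζ s hs
    refine ⟨i, hi, fun x hx => ?_⟩
    rw [unr_eq_sup_simple hn hζ] at hx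
    refine eq_on_sup_simple hs (pow_mem hφK i) ?_ hx
    rw [h, frob_pow_apply hφ hζ.pow_eq_one]
  · intro i
    have hpowζ : (φ ^ i) ζ = ζ ↔ n ∣ i := by
      rw [frob_pow_apply hφ hζ.pow_eq_one]
      have hsplit : ζ ^ resCard q K ^ i = ζ ^ (resCard q K ^ i - 1) * ζ := by
        rw [← pow_succ]; congr 1; have := hpos i; omega
      constructor
      · intro h
        rw [hsplit] at h
        have h1 : ζ ^ (resCard q K ^ i - 1) = 1 := by
          have h2 : ζ ^ (resCard q K ^ i - 1) * ζ = 1 * ζ := by rw [h, one_mul]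
          exact mul_right_cancel₀ hζ0 h2
        exact dvd_of_pow_sub_one_dvd hQ2 hn ((hζ.pow_eq_one_iff_dvd _).1 h1)
      · intro h
        rw [hsplit, (hζ.pow_eq_one_iff_dvd _).2 (Nat.pow_sub_one_dvd_pow_sub_one _ h), one_mul]
    constructor
    · intro h
      exact hpowζ.1 (h ζ (mem_unr_of_pow_eq_one K n hζ.pow_eq_one))
    · intro h x hx
      rw [unr_eq_sup_simple hn hζ] at hx
      have := eq_on_sup_simple (s := φ ^ i) (t := 1) (pow_mem hφK i) (one_mem _)
        (by rw [hpowζ.2 h]; rfl) hx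
      rw [this]; rfl

/-- The residue field of `K_n` has `Q^n` elements. -/
theorem resCard_unr (hn : 0 < n) : resCard q (unr q K n) = resCard q K ^ n := by
  classical
  haveI : FiniteDimensional ℚ_[q] (unr q K n) := finiteDimensional_unr hn
  haveI : Fintype (resField q (unr q K n)) := Fintype.ofFinite _
  obtain ⟨ζ, hζ⟩ := exists_zeta K hn
  obtain ⟨φ, hφK, hφ, hφc⟩ := exists_frob (K := K) hn
  have hQ2 : 2 ≤ resCard q K := one_lt_resCard K
  have hQn2 : 2 ≤ resCard q (unr q K n) := one_lt_resCard _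
  have hQn1 : 1 < resCard q K ^ n := Nat.one_lt_pow hn.ne' hQ2
  -- lower bound
  have hlow : resCard q K ^ n ≤ resCard q (unr q K n) := by
    have h1 := root_of_unity_in_K (unr q K n) (not_dvd_resCard_pow_sub_one K n hn)
      hζ.pow_eq_one (mem_unr_of_pow_eq_one K n hζ.pow_eq_one)
    have h2 := (hζ.pow_eq_one_iff_dvd _).1 h1
    have h3 := Nat.le_of_dvd (by omega) h2
    omega
  -- upper bound: every residue is a root of `X^(Q^n) - X`
  have hiter : ∀ (i : ℕ) (x : PadicAlgCl q), x ∈ unr q K n → ‖x‖ ≤ 1 →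
      red q ((φ ^ i) x) = red q x ^ resCard q K ^ i := by
    intro i
    induction i with
    | zero => intro x _ _; simp
    | succ i ih =>
      intro x hx hx1
      have hmem : (φ ^ i) x ∈ unr q K n := stable n _ (pow_mem hφK i) hx
      have hnorm : ‖(φ ^ i) x‖ ≤ 1 := by rw [norm_map]; exact hx1
      have h1 := hφc _ hmem hnorm
      have hpow1 : ‖((φ ^ i) x) ^ resCard q K‖ ≤ 1 := by
        rw [norm_pow]; exact pow_le_one₀ (norm_nonneg _) hnorm
      rw [← red_eq_iff (by rw [norm_map]; exact hnorm) hpow1, red_pow hnorm, ih x hx hx1,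
        ← pow_mul, ← pow_succ] at h1
      rw [pow_succ', AlgEquiv.mul_apply]
      exact h1
  have hfix : ∀ a ∈ resField q (unr q K n), a ^ resCard q K ^ n = a := by
    intro a ha
    obtain ⟨x, hx, hx1, rfl⟩ := mem_resField.1 ha
    rw [← hiter n x hx hx1, ((cyclic hn hφK hφ).2 n).2 dvd_rfl x hx]
  have hup : resCard q (unr q K n) ≤ resCard q K ^ n := by
    set P : Polynomial (kΩ q) := Polynomial.X ^ (resCard q K ^ n) - Polynomial.X with hP
    have hP0 : P ≠ 0 := FiniteField.X_pow_card_sub_X_ne_zero (kΩ q) hQn1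
    have hdeg : P.natDegree = resCard q K ^ n :=
      FiniteField.X_pow_card_sub_X_natDegree_eq (kΩ q) hQn1
    set T : Finset (kΩ q) :=
      (Finset.univ : Finset (resField q (unr q K n))).image Subtype.val with hT
    have hTcard : T.card = resCard q (unr q K n) := by
      rw [hT, Finset.card_image_of_injective _ Subtype.val_injective, Finset.card_univ, resCard,
        Nat.card_eq_fintype_card]
    have hTsub : T ⊆ P.roots.toFinset := by
      intro b hb
      obtain ⟨c, -, rfl⟩ := Finset.mem_image.1 hb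
      rw [Multiset.mem_toFinset, Polynomial.mem_roots hP0, Polynomial.IsRoot, hP]
      simp only [Polynomial.eval_sub, Polynomial.eval_pow, Polynomial.eval_X]
      rw [hfix _ c.2, sub_self]
    calc resCard q (unr q K n) = T.card := hTcard.symm
      _ ≤ P.roots.toFinset.card := Finset.card_le_card hTsub
      _ ≤ P.natDegree := (Multiset.toFinset_card_le _).trans (Polynomial.card_roots' P)
      _ = resCard q K ^ n := hdeg
  exact le_antisymm hup hlow

end galois

end Fermat.Agent.S55.UnrExt93
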