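import Fermat.Agent.S55.UnrExt93.Unr

/-!
# S55 moonshot, sub-leaf 13b (helper93): base change for the unramified extensions

Mathlib only.  For `K ≤ K'` finite over `ℚ_[q]` inside `PadicAlgCl q`: `resCard K' = resCard K ^ f`
(`f` = residue degree), `K' ⊔ K_{f m} = K'_m`, the Frobenius of `K'` is the `f`-th power of the
Frobenius of `K`, and `K_n ≤ K' ↔ n ∣ f`.  Also the tower law `(K_n)_m = K_{n m}`.
-/

namespace Fermat.Agent.S55.UnrExt93

open IntermediateField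

variable {q : ℕ} [Fact q.Prime]
variable {K K' : IntermediateField ℚ_[q] (PadicAlgCl q)} [FiniteDimensional ℚ_[q] K]
  [FiniteDimensional ℚ_[q] K']

/-- The residue degree: `resCard K' = resCard K ^ f` with `0 < f`. -/
theorem exists_resDeg (h : K ≤ K') : ∃ f, 0 < f ∧ resCard q K' = resCard q K ^ f := by
  obtain ⟨a, ha, hQ⟩ := resCard_pos_pow K
  obtain ⟨a', ha', hQ'⟩ := resCard_pos_pow K'
  obtain ⟨ζ, hζ⟩ := exists_zeta K (n := 1) one_pos
  rw [pow_one] at hζ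
  have hq2 : 2 ≤ q := (Fact.out : q.Prime).two_le
  have hζK : ζ ∈ K := mem_of_pow_resCard_sub_one K hζ.pow_eq_one
  have hnd : ¬ q ∣ resCard q K - 1 := by
    have := not_dvd_resCard_pow_sub_one K 1 one_pos
    rwa [pow_one] at this
  have h1 := root_of_unity_in_K K' hnd hζ.pow_eq_one (h hζK)
  have h2 := (hζ.pow_eq_one_iff_dvd _).1 h1
  rw [hQ, hQ'] at h2
  obtain ⟨f, hf⟩ := dvd_of_pow_sub_one_dvd hq2 ha h2
  refine ⟨f, ?_, ?_⟩
  · rcases Nat.eq_zero_or_pos f with h0 | h0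
    · rw [h0, mul_zero] at hf; omega
    · exact h0
  · rw [hQ, hQ', hf, pow_mul]

omit [FiniteDimensional ℚ_[q] K] [FiniteDimensional ℚ_[q] K'] in
/-- `K' · K_{f m} = K'_m`. -/
theorem sup_unr (h : K ≤ K') {f : ℕ} (hf : resCard q K' = resCard q K ^ f) (m : ℕ) :
    K' ⊔ unr q K (f * m) = unr q K' m := by
  unfold unr
  rw [← sup_assoc, sup_eq_left.2 h, hf, pow_mul]

omit [FiniteDimensional ℚ_[q] K'] in
/-- The Frobenius of `K'` restricts to the `f`-th power of the Frobenius of `K`. -/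
theorem frob_pow (h : K ≤ K') {f m : ℕ} (hfm : 0 < f * m) (hf : resCard q K' = resCard q K ^ f)
    {φ φ' : PadicAlgCl q ≃ₐ[ℚ_[q]] PadicAlgCl q} (hφK : φ ∈ K.fixingSubgroup)
    (hφ : ∀ z : PadicAlgCl q, z ^ (resCard q K ^ (f * m) - 1) = 1 → φ z = z ^ resCard q K)
    (hφK' : φ' ∈ K'.fixingSubgroup)
    (hφ' : ∀ z : PadicAlgCl q, z ^ (resCard q K' ^ m - 1) = 1 → φ' z = z ^ resCard q K')
    {x : PadicAlgCl q} (hx : x ∈ unr q K (f * m)) : φ' x = (φ ^ f) x := by
  obtain ⟨ζ, hζ⟩ := exists_zeta K hfm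
  rw [unr_eq_sup_simple hfm hζ] at hx
  have hφ'K : φ' ∈ K.fixingSubgroup := IntermediateField.fixingSubgroup_antitone h hφK'
  refine eq_on_sup_simple hφ'K (pow_mem hφK f) ?_ hx
  have hz' : ζ ^ (resCard q K' ^ m - 1) = 1 := by
    rw [hf, ← pow_mul]; exact hζ.pow_eq_one
  rw [hφ' ζ hz', frob_pow_apply hφ hζ.pow_eq_one, hf]

/-- `K_n ≤ K'` iff `n` divides the residue degree. -/
theorem unr_le_iff (h : K ≤ K') {f n : ℕ} (hn : 0 < n) (hf : resCard q K' = resCard q K ^ f) :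
    unr q K n ≤ K' ↔ n ∣ f := by
  have hQ2 : 2 ≤ resCard q K := one_lt_resCard K
  constructor
  · intro hle
    obtain ⟨ζ, hζ⟩ := exists_zeta K hn
    have h1 := root_of_unity_in_K K' (not_dvd_resCard_pow_sub_one K n hn) hζ.pow_eq_one
      (hle (mem_unr_of_pow_eq_one K n hζ.pow_eq_one))
    have h2 := (hζ.pow_eq_one_iff_dvd _).1 h1
    rw [hf] at h2
    exact dvd_of_pow_sub_one_dvd hQ2 hn h2
  · intro hd
    refine sup_le h ?_
    rw [IntermediateField.adjoin_le_iff]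
    intro z hz
    apply mem_of_pow_resCard_sub_one K'
    rw [hf]
    obtain ⟨e, he⟩ := Nat.pow_sub_one_dvd_pow_sub_one (resCard q K) hd
    rw [he, pow_mul, hz, one_pow]

/-- Tower law: `(K_n)_m = K_{n m}`. -/
theorem unr_unr {n : ℕ} (hn : 0 < n) (m : ℕ) : unr q (unr q K n) m = unr q K (n * m) := by
  have hcard := resCard_unr (K := K) hn
  have hle : unr q K n ≤ unr q K (n * m) := unr_mono (dvd_mul_right n m)
  have h1 : unr q (unr q K n) m = unr q K n ⊔
      adjoin ℚ_[q] {z : PadicAlgCl q | z ^ (resCard q K ^ (n * m) - 1) = 1} := by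
    have h0 : unr q (unr q K n) m = unr q K n ⊔
        adjoin ℚ_[q] {z : PadicAlgCl q | z ^ (resCard q (unr q K n) ^ m - 1) = 1} := rfl
    rw [h0, hcard, ← pow_mul]
  have h2 : unr q K (n * m) = K ⊔
      adjoin ℚ_[q] {z : PadicAlgCl q | z ^ (resCard q K ^ (n * m) - 1) = 1} := rfl
  rw [h1]
  apply le_antisymm
  · exact sup_le hle (h2 ▸ le_sup_right)
  · rw [h2]
    exact sup_le (le_sup_of_le_left (le_unr K n)) le_sup_right

end Fermat.Agent.S55.UnrExt93
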