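import Fermat.Agent.S55.UnrExt93.Reps
import Fermat.Agent.S55.LocUnr89.PadicInst
import Fermat.Agent.S55.LocField17.Basic

/-!
# S55 moonshot, leaf 21 (helper93): glue `UnrExt93` ⟶ `LocUnr89.PadicUnrHyp`

For `K` finite over `ℚ_[q]` inside `PadicAlgCl q`, `0 < n`, any Frobenius `φ` of `K_n = unr q K n`
and any uniformizer `π` of `K`: `PadicUnrHyp q K (unr q K n) φ n (resCard q K) π`.  Hence the three
unramified theorems of `LocUnr89` (norm on units surjective, `K^×/N K_n^× = ℤ/n` via the valuation,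
Hilbert 90 for units) hold for `K_n/K` unconditionally.
-/

namespace Fermat.Agent.S55.UnrExt93

open Fermat.Agent.S55 Finset

variable {q : ℕ} [Fact q.Prime]
variable {K : IntermediateField ℚ_[q] (PadicAlgCl q)} [FiniteDimensional ℚ_[q] K] {n : ℕ}

/-- The hypotheses of `LocUnr89.PadicUnrHyp` hold for `K_n / K`. -/
theorem padicUnrHyp (hn : 0 < n) {φ : PadicAlgCl q ≃ₐ[ℚ_[q]] PadicAlgCl q}
    (hφK : φ ∈ K.fixingSubgroup)
    (hφ : ∀ z : PadicAlgCl q, z ^ (resCard q K ^ n - 1) = 1 → φ z = z ^ resCard q K)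
    {π : K} (hπ : LocField17.IsUnif K π) :
    LocUnr89.PadicUnrHyp q K (unr q K n) φ n (resCard q K) (π : PadicAlgCl q) where
  le := le_unr K n
  n_pos := hn
  φ_fix := (IntermediateField.mem_fixingSubgroup_iff _ _).1 hφK
  φ_stable := fun _ hx => stable n φ hφK hx
  order := (cyclic hn hφK hφ).2
  two_le := one_lt_resCard K
  frob := fun _ hx hx1 => frob_congr_unr hn hφK hφ hx hx1
  reps := exists_reps hn
  unr := fun _ hx _ => unramified hn hx
  π_mem := π.2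
  π_ne := fun h0 => hπ.1 (Subtype.ext h0)
  π_lt := hπ.2.1
  π_unif := fun x hx hlt => hπ.2.2 ⟨x, hx⟩ hlt

section consequences

variable (hn : 0 < n) {φ : PadicAlgCl q ≃ₐ[ℚ_[q]] PadicAlgCl q} (hφK : φ ∈ K.fixingSubgroup)
  (hφ : ∀ z : PadicAlgCl q, z ^ (resCard q K ^ n - 1) = 1 → φ z = z ^ resCard q K)
  {π : K} (hπ : LocField17.IsUnif K π)

include hn hφK hφ hπ

/-- Units of `K` are norms of units of `K_n`. -/
theorem unr_norm_units_surjective {a : PadicAlgCl q} (haK : a ∈ K) (ha1 : ‖a‖ = 1) :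
    ∃ b ∈ unr q K n, ‖b‖ = 1 ∧ ∏ i ∈ range n, (φ ^ i) b = a := by
  have : FiniteDimensional ℚ_[q] (unr q K n) := finiteDimensional_unr hn
  have H := padicUnrHyp hn hφK hφ hπ
  exact H.norm_units_surjective a (H.le haK) (H.φ_fix a haK) ha1

/-- `a ∈ K^×` is a norm from `K_n` iff `‖a‖ ∈ ‖π‖ ^ (n ℤ)`. -/
theorem unr_mem_norm_iff {a : PadicAlgCl q} (haK : a ∈ K) (ha0 : a ≠ 0) :
    (∃ b ∈ unr q K n, b ≠ 0 ∧ ∏ i ∈ range n, (φ ^ i) b = a) ↔
      ∃ k : ℤ, ‖a‖ = ‖(π : PadicAlgCl q)‖ ^ ((n : ℤ) * k) := by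
  have : FiniteDimensional ℚ_[q] (unr q K n) := finiteDimensional_unr hn
  have H := padicUnrHyp hn hφK hφ hπ
  exact H.mem_norm_iff a (H.le haK) (H.φ_fix a haK) ha0

/-- Hilbert 90 for the units of `K_n`. -/
theorem unr_hilbert90_units {u : PadicAlgCl q} (hu : u ∈ unr q K n) (hu1 : ‖u‖ = 1)
    (hN : ∏ i ∈ range n, (φ ^ i) u = 1) : ∃ w ∈ unr q K n, ‖w‖ = 1 ∧ u = φ w / w := by
  have : FiniteDimensional ℚ_[q] (unr q K n) := finiteDimensional_unr hn
  have H := padicUnrHyp hn hφK hφ hπ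
  exact H.hilbert90_units u hu hu1 hN

end consequences

/-- Existence form: a Frobenius and a uniformizer with all the hypotheses. -/
theorem exists_padicUnrHyp (K : IntermediateField ℚ_[q] (PadicAlgCl q))
    [FiniteDimensional ℚ_[q] K] (hn : 0 < n) :
    ∃ (φ : PadicAlgCl q ≃ₐ[ℚ_[q]] PadicAlgCl q) (π : PadicAlgCl q), φ ∈ K.fixingSubgroup ∧
      (∀ z : PadicAlgCl q, z ^ (resCard q K ^ n - 1) = 1 → φ z = z ^ resCard q K) ∧
      LocUnr89.PadicUnrHyp q K (unr q K n) φ n (resCard q K) π := by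
  obtain ⟨φ, hφK, hφ, -⟩ := exists_frob (K := K) hn
  obtain ⟨π, hπ⟩ := LocField17.exists_isUnif K
  exact ⟨φ, π, hφK, hφ, padicUnrHyp hn hφK hφ hπ⟩

end Fermat.Agent.S55.UnrExt93
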