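import Fermat.Agent.S55.UnrExt93.ResBridge
import Fermat.Agent.S55.UnrExt93.PadicHyp
import Fermat.Agent.S55.GlobalInv91.Carry

/-!
# S55 moonshot, 22b-FROBCHAR (helper93, second seat of 22b): Frobenius characters

For `K` finite over `ℚ_[q]` inside `Ω = PadicAlgCl q` and `n > 0`, the *Frobenius character*
`frobChar K n : Gal(Ω/K) →* Multiplicative (ZMod n)` sends `s` to `i` iff `s` acts on
`μ_{Q^n-1}` (`Q = resCard q K`) as `z ↦ z^(Q^i)`, i.e. iff `s = Frob_K^i` on `K_n = unr q K n`.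
We prove compatibility in `n`, base change `K ≤ L` (factor `resDeg`), conjugation invariance,
and restate the norm criterion of `K_n/K` with `LocField17.ord`.
-/

set_option autoImplicit false
set_option linter.style.haveILetI false
set_option linter.unusedSectionVars false

noncomputable section

namespace Fermat.Agent.S55.UnrExt93

open Module IntermediateField Finset
open Fermat.Agent.S55.LocField17 Fermat.Agent.S55.GlobalInv91

variable {q : ℕ} [Fact q.Prime]

/-- `s` acts on `μ_{Q^n-1}` as the `i`-th power of the Frobenius of `K`. -/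
def ActsAs (K : LF q) (n : ℕ) (s : Gq q) (i : ℕ) : Prop :=
  ∀ z : PadicAlgCl q, z ^ (resCard q K ^ n - 1) = 1 → s z = z ^ (resCard q K ^ i)

section basic

variable {K : LF q} {n : ℕ}

theorem actsAs_one : ActsAs K n 1 0 := by
  intro z _
  simp

theorem ActsAs.mul {s t : Gq q} {i j : ℕ} (hs : ActsAs K n s i) (ht : ActsAs K n t j) :
    ActsAs K n (s * t) (i + j) := by
  intro z hz
  rw [AlgEquiv.mul_apply, ht z hz, map_pow, hs z hz, ← pow_mul, ← pow_add]

theorem actsAs_frob_pow {φ : Gq q}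
    (hφ : ∀ z : PadicAlgCl q, z ^ (resCard q K ^ n - 1) = 1 → φ z = z ^ resCard q K) (i : ℕ) :
    ActsAs K n (φ ^ i) i := fun _ hz => frob_pow_apply hφ hz i

end basic

section finite

variable {K : LF q} [FiniteDimensional ℚ_[q] K] {n : ℕ}

/-- `z ↦ z^(Q^i)` on `μ_{Q^n-1}` only depends on `i` mod `n`. -/
theorem pow_resCard_pow_add_mul {z : PadicAlgCl q} (hn : 0 < n)
    (hz : z ^ (resCard q K ^ n - 1) = 1) (i k : ℕ) :
    z ^ (resCard q K ^ (i + n * k)) = z ^ (resCard q K ^ i) := by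
  have hQ : 1 ≤ resCard q K ^ n := Nat.one_le_pow _ _ (by have := one_lt_resCard K; omega)
  have h1 : z ^ (resCard q K ^ n) = z := by
    have : resCard q K ^ n = (resCard q K ^ n - 1) + 1 := by omega
    rw [this, pow_succ, hz, one_mul]
  have h2 : ∀ k : ℕ, z ^ ((resCard q K ^ n) ^ k) = z := by
    intro k
    induction k with
    | zero => simp
    | succ k ih => rw [pow_succ, pow_mul, ih, h1]
  rw [pow_add, pow_mul (resCard q K) n k, mul_comm, pow_mul z, h2]

theorem ActsAs.congr {s : Gq q} {i j : ℕ} (hn : 0 < n) (hs : ActsAs K n s i)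
    (hij : i ≡ j [MOD n]) : ActsAs K n s j := by
  intro z hz
  rw [hs z hz]
  rcases le_total i j with hle | hle
  · obtain ⟨k, hk⟩ := (Nat.modEq_iff_dvd' hle).1 hij
    have : j = i + n * k := by omega
    rw [this, pow_resCard_pow_add_mul hn hz]
  · obtain ⟨k, hk⟩ := (Nat.modEq_iff_dvd' hle).1 hij.symm
    have : i = j + n * k := by omega
    rw [this, pow_resCard_pow_add_mul hn hz]

/-- (F0) `s` acts as `Frob^i` on roots of unity iff it does so on the whole of `K_n`. -/
theorem actsAs_iff_eq_frob_pow (hn : 0 < n) {φ : Gq q} (hφK : φ ∈ K.fixingSubgroup)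
    (hφ : ∀ z : PadicAlgCl q, z ^ (resCard q K ^ n - 1) = 1 → φ z = z ^ resCard q K)
    {s : Gq q} (hs : s ∈ K.fixingSubgroup) (i : ℕ) :
    ActsAs K n s i ↔ ∀ x ∈ unr q K n, s x = (φ ^ i) x := by
  constructor
  · intro h x hx
    obtain ⟨ζ, hζ⟩ := exists_zeta K hn
    rw [unr_eq_sup_simple hn hζ] at hx
    refine eq_on_sup_simple hs (pow_mem hφK i) ?_ hx
    rw [h ζ hζ.pow_eq_one, frob_pow_apply hφ hζ.pow_eq_one]
  · intro h z hz
    rw [h z (mem_unr_of_pow_eq_one K n hz), frob_pow_apply hφ hz]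

theorem exists_actsAs (hn : 0 < n) {s : Gq q} (hs : s ∈ K.fixingSubgroup) :
    ∃ i < n, ActsAs K n s i := by
  obtain ⟨φ, hφK, hφ, -⟩ := exists_frob (K := K) hn
  obtain ⟨i, hi, h⟩ := (cyclic hn hφK hφ).1 s hs
  exact ⟨i, hi, (actsAs_iff_eq_frob_pow hn hφK hφ hs i).2 h⟩

theorem ActsAs.modEq (hn : 0 < n) {s : Gq q} (hs : s ∈ K.fixingSubgroup) {i j : ℕ}
    (hi : ActsAs K n s i) (hj : ActsAs K n s j) : i ≡ j [MOD n] := by
  obtain ⟨φ, hφK, hφ, -⟩ := exists_frob (K := K) hn
  have h1 := (actsAs_iff_eq_frob_pow hn hφK hφ hs i).1 hi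
  have h2 := (actsAs_iff_eq_frob_pow hn hφK hφ hs j).1 hj
  wlog hle : i ≤ j generalizing i j
  · exact (this hj hi h2 h1 (le_of_not_ge hle)).symm
  have h3 : ∀ x ∈ unr q K n, (φ ^ (j - i)) x = x := by
    intro x hx
    have hx' : (φ ^ i) x ∈ unr q K n := stable n _ (pow_mem hφK i) hx
    have e1 : (φ ^ j) x = (φ ^ (j - i)) ((φ ^ i) x) := by
      rw [← AlgEquiv.mul_apply, ← pow_add, Nat.sub_add_cancel hle]
    -- apply to `y = (φ^i)⁻¹ x`
    have hy : (φ ^ i)⁻¹ x ∈ unr q K n := stable n _ (inv_mem (pow_mem hφK i)) hx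
    have e2 : (φ ^ j) ((φ ^ i)⁻¹ x) = (φ ^ (j - i)) x := by
      have : (φ ^ j) ((φ ^ i)⁻¹ x) = (φ ^ (j - i)) ((φ ^ i) ((φ ^ i)⁻¹ x)) := by
        rw [← AlgEquiv.mul_apply (φ ^ (j - i)), ← pow_add, Nat.sub_add_cancel hle]
      rw [this]
      congr 1
      exact (φ ^ i).apply_symm_apply x
    rw [← e2, ← h2 _ hy, h1 _ hy]
    exact (φ ^ i).apply_symm_apply x
  have h4 := ((cyclic hn hφK hφ).2 (j - i)).1 h3
  exact ((Nat.modEq_iff_dvd' hle).2 h4)

variable (K) (n)

/-- (F1) **the Frobenius character** `χ_{K,n} : Gal(Ω/K) →* ZMod n`. -/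
def frobChar [NeZero n] : ↥K.fixingSubgroup →* Multiplicative (ZMod n) where
  toFun s := Multiplicative.ofAdd
    (((exists_actsAs (K := K) (Nat.pos_of_ne_zero (NeZero.ne n)) s.2).choose : ℕ) : ZMod n)
  map_one' := by
    have hn : 0 < n := Nat.pos_of_ne_zero (NeZero.ne n)
    have h := (exists_actsAs (K := K) hn (1 : ↥K.fixingSubgroup).2).choose_spec.2
    have h0 : ActsAs K n ((1 : ↥K.fixingSubgroup) : Gq q) 0 := actsAs_one
    have := h.modEq hn (1 : ↥K.fixingSubgroup).2 h0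
    rw [← ofAdd_zero]
    congr 1
    rw [(ZMod.natCast_eq_natCast_iff _ _ _).2 this]
    simp
  map_mul' s t := by
    have hn : 0 < n := Nat.pos_of_ne_zero (NeZero.ne n)
    have hs := (exists_actsAs (K := K) hn s.2).choose_spec.2
    have ht := (exists_actsAs (K := K) hn t.2).choose_spec.2
    have hst := (exists_actsAs (K := K) hn (s * t).2).choose_spec.2
    have h2 : ActsAs K n ((s * t : ↥K.fixingSubgroup) : Gq q) _ := hs.mul ht
    have := hst.modEq hn (s * t).2 h2
    rw [← ofAdd_add]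
    congr 1
    rw [(ZMod.natCast_eq_natCast_iff _ _ _).2 this]
    push_cast
    rfl

variable {K} {n}

/-- (F1) characterisation of the Frobenius character. -/
theorem frobChar_apply_iff [NeZero n] (s : ↥K.fixingSubgroup) (i : ℕ) :
    chiVal (frobChar K n) s = (i : ZMod n) ↔ ActsAs K n (s : Gq q) i := by
  have hn : 0 < n := Nat.pos_of_ne_zero (NeZero.ne n)
  have hs := (exists_actsAs (K := K) hn s.2).choose_spec.2
  constructor
  · intro h
    have h1 : (((exists_actsAs (K := K) hn s.2).choose : ℕ) : ZMod n) = (i : ZMod n) := h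
    exact hs.congr hn ((ZMod.natCast_eq_natCast_iff _ _ _).1 h1)
  · intro h
    show (((exists_actsAs (K := K) hn s.2).choose : ℕ) : ZMod n) = (i : ZMod n)
    exact (ZMod.natCast_eq_natCast_iff _ _ _).2 (hs.modEq hn s.2 h)

theorem actsAs_val_frobChar [NeZero n] (s : ↥K.fixingSubgroup) :
    ActsAs K n (s : Gq q) (chiVal (frobChar K n) s).val :=
  (frobChar_apply_iff s _).1 (ZMod.natCast_zmod_val _).symm

/-- (F1) the Frobenius has character value `1`. -/
theorem frobChar_frob [NeZero n] {φ : Gq q} (hφK : φ ∈ K.fixingSubgroup)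
    (hφ : ∀ z : PadicAlgCl q, z ^ (resCard q K ^ n - 1) = 1 → φ z = z ^ resCard q K) :
    chiVal (frobChar K n) ⟨φ, hφK⟩ = 1 := by
  have h := (frobChar_apply_iff (K := K) (n := n) ⟨φ, hφK⟩ 1).2 (by
    intro z hz
    rw [pow_one]
    exact hφ z hz)
  rw [h]
  simp

theorem frobChar_frob_pow [NeZero n] {φ : Gq q} (hφK : φ ∈ K.fixingSubgroup)
    (hφ : ∀ z : PadicAlgCl q, z ^ (resCard q K ^ n - 1) = 1 → φ z = z ^ resCard q K) (i : ℕ) :
    chiVal (frobChar K n) ⟨φ ^ i, pow_mem hφK i⟩ = (i : ZMod n) :=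
  (frobChar_apply_iff (K := K) (n := n) ⟨φ ^ i, pow_mem hφK i⟩ i).2 (actsAs_frob_pow hφ i)

/-- (F1) surjectivity. -/
theorem frobChar_surjective [NeZero n] : Function.Surjective (frobChar K n) := by
  have hn : 0 < n := Nat.pos_of_ne_zero (NeZero.ne n)
  obtain ⟨φ, hφK, hφ, -⟩ := exists_frob (K := K) hn
  intro y
  refine ⟨⟨φ ^ (Multiplicative.toAdd y).val, pow_mem hφK _⟩, ?_⟩
  apply Multiplicative.toAdd.injective
  have := frobChar_frob_pow hφK hφ (Multiplicative.toAdd y).val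
  rw [ZMod.natCast_zmod_val] at this
  exact this

/-- (F1) the kernel of `χ_{K,n}` is the fixing subgroup of `K_n`. -/
theorem frobChar_eq_one_iff [NeZero n] (s : ↥K.fixingSubgroup) :
    frobChar K n s = 1 ↔ ∀ x ∈ unr q K n, (s : Gq q) x = x := by
  have hn : 0 < n := Nat.pos_of_ne_zero (NeZero.ne n)
  obtain ⟨φ, hφK, hφ, -⟩ := exists_frob (K := K) hn
  have h1 : frobChar K n s = 1 ↔ chiVal (frobChar K n) s = ((0 : ℕ) : ZMod n) := by
    rw [Nat.cast_zero]
    exact ⟨fun h => by rw [chiVal, h]; rfl, fun h => Multiplicative.toAdd.injective h⟩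
  rw [h1, frobChar_apply_iff, actsAs_iff_eq_frob_pow hn hφK hφ s.2]
  simp

/-- (F2) compatibility in `n`. -/
theorem frobChar_compat {m : ℕ} [NeZero n] [NeZero m] (h : n ∣ m) (s : ↥K.fixingSubgroup) :
    (chiVal (frobChar K n) s).val = (chiVal (frobChar K m) s).val % n := by
  have hm := actsAs_val_frobChar (K := K) (n := m) s
  have hn' : ActsAs K n (s : Gq q) (chiVal (frobChar K m) s).val := by
    intro z hz
    apply hm z
    obtain ⟨e, he⟩ := Nat.pow_sub_one_dvd_pow_sub_one (resCard q K) h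
    rw [he, pow_mul, hz, one_pow]
  rw [(frobChar_apply_iff s _).2 hn', ZMod.val_natCast]

end finite

section baseChange

variable {K L : LF q} [FiniteDimensional ℚ_[q] K] [FiniteDimensional ℚ_[q] L] {n : ℕ}

/-- (F3) base change: on `Gal(Ω/L)`, `χ_{K,n} = f · χ_{L,n}` with `f = resDeg`. -/
theorem frobChar_inclusion [NeZero n] (h : K ≤ L) (s : ↥L.fixingSubgroup) :
    chiVal (frobChar K n) (Subgroup.inclusion (IntermediateField.fixingSubgroup_antitone h) s) =
      (resDeg h : ZMod n) * chiVal (frobChar L n) s := by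
  have hL := actsAs_val_frobChar (K := L) (n := n) s
  set i := (chiVal (frobChar L n) s).val with hi
  have hK : ActsAs K n ((Subgroup.inclusion (IntermediateField.fixingSubgroup_antitone h) s :
      ↥K.fixingSubgroup) : Gq q) (resDeg h * i) := by
    intro z hz
    have hz' : z ^ (resCard q L ^ n - 1) = 1 := by
      rw [resCard_eq_pow_resDeg h, ← pow_mul]
      obtain ⟨e, he⟩ := Nat.pow_sub_one_dvd_pow_sub_one (resCard q K) (dvd_mul_left n (resDeg h))
      rw [he, pow_mul, hz, one_pow]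
    have := hL z hz'
    rw [resCard_eq_pow_resDeg h, ← pow_mul] at this
    exact this
  rw [(frobChar_apply_iff _ _).2 hK]
  push_cast
  rw [hi, ZMod.natCast_zmod_val]

end baseChange

section normCriterion

variable {K : LF q} [FiniteDimensional ℚ_[q] K] {n : ℕ}

/-- (F5) **norm criterion** for `K_n/K` with the normalised valuation: `a ∈ Kˣ` is a norm from
`K_n` (the norm written with the Frobenius) iff `n ∣ ord_K a`. -/
theorem exists_norm_iff_dvd_ord (hn : 0 < n) {φ : Gq q} (hφK : φ ∈ K.fixingSubgroup)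
    (hφ : ∀ z : PadicAlgCl q, z ^ (resCard q K ^ n - 1) = 1 → φ z = z ^ resCard q K)
    {a : K} (ha : a ≠ 0) :
    (∃ b ∈ unr q K n, b ≠ 0 ∧ ∏ i ∈ range n, (φ ^ i) b = (a : PadicAlgCl q)) ↔
      (n : ℤ) ∣ ord K a := by
  have ha0 : (a : PadicAlgCl q) ≠ 0 := fun h => ha (Subtype.ext h)
  rw [unr_mem_norm_iff hn hφK hφ (isUnif_unif K) a.2 ha0, norm_eq_zpow_ord ha]
  have hu : ‖((unif K : K) : PadicAlgCl q)‖ = unifNorm K := rfl
  rw [hu]
  constructor
  · rintro ⟨k, hk⟩
    exact ⟨k, zpow_unifNorm_injective K hk⟩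
  · rintro ⟨k, hk⟩
    exact ⟨k, by rw [hk]⟩

/-- units are norms (valuation form). -/
theorem exists_unit_norm_of_ord_eq_zero (hn : 0 < n) {φ : Gq q} (hφK : φ ∈ K.fixingSubgroup)
    (hφ : ∀ z : PadicAlgCl q, z ^ (resCard q K ^ n - 1) = 1 → φ z = z ^ resCard q K)
    {a : K} (ha : a ≠ 0) (hord : ord K a = 0) :
    ∃ b ∈ unr q K n, ‖b‖ = 1 ∧ ∏ i ∈ range n, (φ ^ i) b = (a : PadicAlgCl q) :=
  unr_norm_units_surjective hn hφK hφ (isUnif_unif K) a.2 ((ord_eq_zero_iff ha).1 hord)

end normCriterion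

section conj

variable (K : LF q) [FiniteDimensional ℚ_[q] K] {n : ℕ}

/-- the conjugate field `τ K`. -/
abbrev conjField (τ : Gq q) : LF q := K.map (τ : PadicAlgCl q →ₐ[ℚ_[q]] PadicAlgCl q)

variable {K}

theorem mem_conjField {τ : Gq q} {y : PadicAlgCl q} : y ∈ conjField K τ ↔ τ⁻¹ y ∈ K := by
  constructor
  · rintro ⟨x, hx, rfl⟩
    change τ⁻¹ (τ x) ∈ K
    have : τ⁻¹ (τ x) = x := τ.symm_apply_apply x
    rw [this]
    exact hx
  · intro h
    exact ⟨τ⁻¹ y, h, τ.apply_symm_apply y⟩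

theorem apply_mem_conjField {τ : Gq q} {x : PadicAlgCl q} (hx : x ∈ K) : τ x ∈ conjField K τ :=
  ⟨x, hx, rfl⟩

theorem conj_mem_fixingSubgroup {τ s : Gq q} (hs : s ∈ K.fixingSubgroup) :
    τ * s * τ⁻¹ ∈ (conjField K τ).fixingSubgroup := by
  rw [IntermediateField.mem_fixingSubgroup_iff]
  intro y hy
  have h1 := (IntermediateField.mem_fixingSubgroup_iff _ _).1 hs _ (mem_conjField.1 hy)
  rw [AlgEquiv.mul_apply, AlgEquiv.mul_apply, h1]
  exact τ.apply_symm_apply y

/-- the residue fields of `K` and `τ K` have the same cardinality. -/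
theorem resCard_conjField (τ : Gq q) : resCard q (conjField K τ) = resCard q K := by
  unfold resCard
  symm
  have hx : ∀ a : resField q K, ∃ x ∈ K, ‖x‖ ≤ 1 ∧ red q x = a := fun a => mem_resField.1 a.2
  choose x hxK hx1 hxa using hx
  refine Nat.card_eq_of_bijective
    (fun a => (⟨red q (τ (x a)), red_mem_resField (apply_mem_conjField (hxK a))
      (by rw [norm_map]; exact hx1 a)⟩ : resField q (conjField K τ))) ⟨?_, ?_⟩
  · intro a b hab
    have h1 : red q (τ (x a)) = red q (τ (x b)) := congrArg Subtype.val hab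
    rw [red_eq_iff (by rw [norm_map]; exact hx1 a) (by rw [norm_map]; exact hx1 b),
      ← map_sub, norm_map, ← red_eq_iff (hx1 a) (hx1 b), hxa, hxa] at h1
    exact Subtype.ext h1
  · rintro ⟨b, hb⟩
    obtain ⟨y, hy, hy1, rfl⟩ := mem_resField.1 hb
    have hyK := mem_conjField.1 hy
    have hy1' : ‖τ⁻¹ y‖ ≤ 1 := by rw [norm_map]; exact hy1
    refine ⟨⟨red q (τ⁻¹ y), red_mem_resField hyK hy1'⟩, ?_⟩
    apply Subtype.ext
    show red q (τ (x ⟨red q (τ⁻¹ y), _⟩)) = red q y
    have h2 : red q (x ⟨red q (τ⁻¹ y), red_mem_resField hyK hy1'⟩) = red q (τ⁻¹ y) := hxa _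
    rw [red_eq_iff (hx1 _) hy1'] at h2
    rw [red_eq_iff (by rw [norm_map]; exact hx1 _) hy1]
    have h3 : τ (x ⟨red q (τ⁻¹ y), red_mem_resField hyK hy1'⟩) - y =
        τ (x ⟨red q (τ⁻¹ y), red_mem_resField hyK hy1'⟩ - τ⁻¹ y) := by
      rw [map_sub]
      congr 1
      exact (τ.apply_symm_apply y).symm
    rw [h3, norm_map]
    exact h2

theorem actsAs_conj {τ s : Gq q} {i : ℕ} (h : ActsAs K n s i) :
    ActsAs (conjField K τ) n (τ * s * τ⁻¹) i := by
  intro z hz
  rw [resCard_conjField] at hz ⊢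
  have hz' : (τ⁻¹ z) ^ (resCard q K ^ n - 1) = 1 := by rw [← map_pow, hz, map_one]
  rw [AlgEquiv.mul_apply, AlgEquiv.mul_apply, h _ hz', map_pow]
  congr 1
  exact τ.apply_symm_apply z

/-- (F4) **conjugation invariance** of the Frobenius character. -/
theorem frobChar_conj [NeZero n] (τ : Gq q) (s : ↥K.fixingSubgroup) :
    chiVal (frobChar (conjField K τ) n) ⟨τ * s * τ⁻¹, conj_mem_fixingSubgroup s.2⟩ =
      chiVal (frobChar K n) s := by
  have h := actsAs_val_frobChar (K := K) (n := n) s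
  rw [(frobChar_apply_iff _ _).2 (actsAs_conj (τ := τ) h), ZMod.natCast_zmod_val]

/-- (F4) the valuation is conjugation invariant. -/
theorem ord_conjField (τ : Gq q) (a : K) :
    ord (conjField K τ) ⟨τ a, apply_mem_conjField a.2⟩ = ord K a := by
  by_cases ha : a = 0
  · subst ha
    have : (⟨τ ((0 : K) : PadicAlgCl q), apply_mem_conjField (0 : K).2⟩ : conjField K τ) = 0 :=
      Subtype.ext (map_zero τ)
    rw [this]
    simp [ord]
  have ha' : (⟨τ a, apply_mem_conjField a.2⟩ : conjField K τ) ≠ 0 := by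
    intro h0
    apply ha
    apply Subtype.ext
    have : τ (a : PadicAlgCl q) = 0 := congrArg Subtype.val h0
    exact (map_eq_zero τ).1 this
  -- uniformizers correspond
  have hu : unifNorm (conjField K τ) = unifNorm K := by
    have h1 : IsUnif (conjField K τ) ⟨τ (unif K), apply_mem_conjField (unif K).2⟩ := by
      obtain ⟨h0, hlt, hmax⟩ := isUnif_unif K
      refine ⟨?_, ?_, ?_⟩
      · intro h
        apply h0
        apply Subtype.ext
        have : τ ((unif K : K) : PadicAlgCl q) = 0 := congrArg Subtype.val h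
        exact (map_eq_zero τ).1 this
      · show ‖τ ((unif K : K) : PadicAlgCl q)‖ < 1
        rw [norm_map]; exact hlt
      · intro y hy
        show ‖(y : PadicAlgCl q)‖ ≤ ‖τ ((unif K : K) : PadicAlgCl q)‖
        rw [norm_map]
        have := hmax ⟨τ⁻¹ (y : PadicAlgCl q), mem_conjField.1 y.2⟩ (by
          show ‖τ⁻¹ (y : PadicAlgCl q)‖ < 1
          rw [norm_map]; exact hy)
        have h2 : ‖τ⁻¹ (y : PadicAlgCl q)‖ = ‖(y : PadicAlgCl q)‖ := norm_map _ _
        rw [← h2]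
        exact this
    rw [← h1.norm_eq]
    show ‖τ ((unif K : K) : PadicAlgCl q)‖ = _
    rw [norm_map]
    rfl
  rw [ord_eq_iff ha', hu]
  show ‖τ (a : PadicAlgCl q)‖ = _
  rw [norm_map, norm_eq_zpow_ord ha]

end conj

end Fermat.Agent.S55.UnrExt93
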