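import Mathlib

/-!
# S55 moonshot, sub-leaf 13b (helper93): residue calculus in `PadicAlgCl q`

Mathlib only.  `Ω := PadicAlgCl q` with its norm.  We set up the reduction map
`red : Ω → kΩ` (total function; `0` outside the unit ball), the residue field of an intermediate
field `K` as a subfield of `kΩ`, its cardinality `resCard`, and the basic facts on roots of unity
of order prime to `q`.
-/

namespace Fermat.Agent.S55.UnrExt93

open scoped NNReal

variable (q : ℕ) [Fact q.Prime]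

/-- The ring of integers `{‖x‖ ≤ 1}` of `PadicAlgCl q`. -/
noncomputable abbrev OΩ : ValuationSubring (PadicAlgCl q) :=
  (Valued.v : Valuation (PadicAlgCl q) ℝ≥0).valuationSubring

lemma mem_OΩ {x : PadicAlgCl q} : x ∈ OΩ q ↔ ‖x‖ ≤ 1 := by
  rw [Valuation.mem_valuationSubring_iff, PadicAlgCl.valuation_def]
  exact_mod_cast Iff.rfl

/-- The residue field of `PadicAlgCl q`. -/
noncomputable abbrev kΩ : Type := IsLocalRing.ResidueField (OΩ q)

/-- The reduction map, as a total function (`0` outside the unit ball). -/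
noncomputable def red (x : PadicAlgCl q) : kΩ q :=
  if h : ‖x‖ ≤ 1 then IsLocalRing.residue (OΩ q) ⟨x, (mem_OΩ q).2 h⟩ else 0

variable {q}

lemma red_of_le {x : PadicAlgCl q} (h : ‖x‖ ≤ 1) :
    red q x = IsLocalRing.residue (OΩ q) ⟨x, (mem_OΩ q).2 h⟩ := by
  rw [red, dif_pos h]

lemma red_coe (x : OΩ q) : red q (x : PadicAlgCl q) = IsLocalRing.residue (OΩ q) x := by
  rw [red_of_le ((mem_OΩ q).1 x.2)]

lemma red_zero : red q 0 = 0 := by
  have := red_coe (q := q) 0
  simpa using this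

lemma red_one : red q 1 = 1 := by
  have := red_coe (q := q) 1
  simpa using this

lemma red_add {x y : PadicAlgCl q} (hx : ‖x‖ ≤ 1) (hy : ‖y‖ ≤ 1) :
    red q (x + y) = red q x + red q y := by
  have := red_coe (q := q) (⟨x, (mem_OΩ q).2 hx⟩ + ⟨y, (mem_OΩ q).2 hy⟩)
  rw [map_add, ← red_of_le hx, ← red_of_le hy] at this
  exact this

lemma red_mul {x y : PadicAlgCl q} (hx : ‖x‖ ≤ 1) (hy : ‖y‖ ≤ 1) :
    red q (x * y) = red q x * red q y := by
  have := red_coe (q := q) (⟨x, (mem_OΩ q).2 hx⟩ * ⟨y, (mem_OΩ q).2 hy⟩)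
  rw [map_mul, ← red_of_le hx, ← red_of_le hy] at this
  exact this

lemma red_neg {x : PadicAlgCl q} (hx : ‖x‖ ≤ 1) : red q (-x) = - red q x := by
  have := red_coe (q := q) (-⟨x, (mem_OΩ q).2 hx⟩)
  rw [map_neg, ← red_of_le hx] at this
  exact this

lemma red_sub {x y : PadicAlgCl q} (hx : ‖x‖ ≤ 1) (hy : ‖y‖ ≤ 1) :
    red q (x - y) = red q x - red q y := by
  rw [sub_eq_add_neg, red_add hx (by rwa [norm_neg]), red_neg hy, sub_eq_add_neg]

lemma red_pow {x : PadicAlgCl q} (hx : ‖x‖ ≤ 1) (n : ℕ) : red q (x ^ n) = red q x ^ n := by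
  have := red_coe (q := q) (⟨x, (mem_OΩ q).2 hx⟩ ^ n)
  rw [map_pow, ← red_of_le hx] at this
  exact this

lemma red_eq_zero_iff {x : PadicAlgCl q} (hx : ‖x‖ ≤ 1) : red q x = 0 ↔ ‖x‖ < 1 := by
  rw [red_of_le hx, IsLocalRing.residue_eq_zero_iff, Valuation.mem_maximalIdeal_iff,
    PadicAlgCl.valuation_def]
  exact_mod_cast Iff.rfl

lemma red_eq_iff {x y : PadicAlgCl q} (hx : ‖x‖ ≤ 1) (hy : ‖y‖ ≤ 1) :
    red q x = red q y ↔ ‖x - y‖ < 1 := by
  have hxy : ‖x - y‖ ≤ 1 := by
    rw [sub_eq_add_neg]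
    exact (IsUltrametricDist.norm_add_le_max x (-y)).trans (max_le hx (by rwa [norm_neg]))
  rw [← red_eq_zero_iff hxy, red_sub hx hy, sub_eq_zero]

lemma red_sum {ι : Type*} (s : Finset ι) (f : ι → PadicAlgCl q) (hf : ∀ i ∈ s, ‖f i‖ ≤ 1) :
    ‖∑ i ∈ s, f i‖ ≤ 1 ∧ red q (∑ i ∈ s, f i) = ∑ i ∈ s, red q (f i) := by
  classical
  induction s using Finset.induction_on with
  | empty => simp [red_zero]
  | insert a s ha ih =>
    have h1 := ih (fun i hi => hf i (Finset.mem_insert_of_mem hi))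
    have h2 := hf a (Finset.mem_insert_self a s)
    rw [Finset.sum_insert ha, Finset.sum_insert ha]
    refine ⟨(IsUltrametricDist.norm_add_le_max _ _).trans (max_le h2 h1.1), ?_⟩
    rw [red_add h2 h1.1, h1.2]

lemma red_prod {ι : Type*} (s : Finset ι) (f : ι → PadicAlgCl q) (hf : ∀ i ∈ s, ‖f i‖ ≤ 1) :
    ‖∏ i ∈ s, f i‖ ≤ 1 ∧ red q (∏ i ∈ s, f i) = ∏ i ∈ s, red q (f i) := by
  classical
  induction s using Finset.induction_on with
  | empty => simp [red_one]
  | insert a s ha ih =>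
    have h1 := ih (fun i hi => hf i (Finset.mem_insert_of_mem hi))
    have h2 := hf a (Finset.mem_insert_self a s)
    rw [Finset.prod_insert ha, Finset.prod_insert ha]
    refine ⟨?_, ?_⟩
    · rw [norm_mul]; exact mul_le_one₀ h2 (norm_nonneg _) h1.1
    · rw [red_mul h2 h1.1, h1.2]

lemma norm_natCast_le_one (n : ℕ) : ‖(n : PadicAlgCl q)‖ ≤ 1 :=
  IsUltrametricDist.norm_natCast_le_one _ n

lemma norm_natCast_eq_one {m : ℕ} (hm : ¬ q ∣ m) : ‖(m : PadicAlgCl q)‖ = 1 := by
  have h1 : (m : PadicAlgCl q) = algebraMap ℚ_[q] (PadicAlgCl q) (m : ℚ_[q]) := by simp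
  rw [h1, PadicAlgCl.norm_extends, Padic.norm_natCast_eq_one_iff]
  exact (Nat.Prime.coprime_iff_not_dvd (Fact.out : q.Prime)).2 hm

lemma norm_prime_lt_one : ‖(q : PadicAlgCl q)‖ < 1 := by
  have h1 : (q : PadicAlgCl q) = algebraMap ℚ_[q] (PadicAlgCl q) (q : ℚ_[q]) := by simp
  rw [h1, PadicAlgCl.norm_extends]
  exact Padic.norm_p_lt_one

lemma red_natCast (n : ℕ) : red q (n : PadicAlgCl q) = (n : kΩ q) := by
  have := red_coe (q := q) (n : OΩ q)
  simpa using this

instance charP_kΩ : CharP (kΩ q) q := by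
  have h0 : ((q : ℕ) : kΩ q) = 0 := by
    rw [← red_natCast, red_eq_zero_iff (norm_natCast_le_one q)]
    exact norm_prime_lt_one
  exact (CharP.charP_iff_prime_eq_zero (Fact.out : q.Prime)).2 h0

/-- Automorphisms of `PadicAlgCl q` over `ℚ_[q]` are isometries. -/
lemma norm_map (σ : PadicAlgCl q ≃ₐ[ℚ_[q]] PadicAlgCl q) (x : PadicAlgCl q) : ‖σ x‖ = ‖x‖ :=
  (spectralNorm_eq_of_equiv σ x).symm

lemma norm_eq_one_of_pow_eq_one {z : PadicAlgCl q} {m : ℕ} (hm : m ≠ 0) (hz : z ^ m = 1) :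
    ‖z‖ = 1 := by
  have h1 : ‖z‖ ^ m = 1 := by rw [← norm_pow, hz, norm_one]
  exact (pow_eq_one_iff_of_nonneg (norm_nonneg z) hm).1 h1

/-- Reduction is injective on roots of unity of order prime to `q`. -/
theorem eq_of_pow_eq_one_of_norm_sub_lt {m : ℕ} (hm : ¬ q ∣ m) {z w : PadicAlgCl q}
    (hz : z ^ m = 1) (hw : w ^ m = 1) (h : ‖z - w‖ < 1) : z = w := by
  have hm0 : m ≠ 0 := by rintro rfl; exact hm (dvd_zero q)
  have hz1 : ‖z‖ = 1 := norm_eq_one_of_pow_eq_one hm0 hz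
  have hz0 : z ≠ 0 := by rintro rfl; simp at hz1
  set η := w / z with hη
  have hηm : η ^ m = 1 := by rw [hη, div_pow, hz, hw, div_one]
  have hη1 : ‖η - 1‖ < 1 := by
    have : η - 1 = (w - z) / z := by rw [hη]; field_simp
    rw [this, norm_div, hz1, div_one, norm_sub_rev]; exact h
  have hηn : ‖η‖ = 1 := norm_eq_one_of_pow_eq_one hm0 hηm
  by_contra hne
  have hη_ne : η ≠ 1 := by
    intro h1
    apply hne
    have : w = z := by rw [hη] at h1; field_simp at h1; exact h1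
    exact this.symm
  have hsum : ∑ i ∈ Finset.range m, η ^ i = 0 := by
    have := mul_geom_sum η m
    rw [hηm, sub_self] at this
    rcases mul_eq_zero.1 this with h0 | h0
    · exact absurd (sub_eq_zero.1 h0) hη_ne
    · exact h0
  -- each `η^i - 1` has norm `< 1`
  have hpow : ∀ i : ℕ, ‖η ^ i - 1‖ < 1 := by
    intro i
    have h2 : η ^ i - 1 = (η - 1) * ∑ j ∈ Finset.range i, η ^ j := (mul_geom_sum η i).symm
    rw [h2, norm_mul]
    have h3 : ‖∑ j ∈ Finset.range i, η ^ j‖ ≤ 1 :=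
      IsUltrametricDist.norm_sum_le_of_forall_le_of_nonneg zero_le_one
        (fun j _ => by rw [norm_pow, hηn, one_pow])
    calc ‖η - 1‖ * ‖∑ j ∈ Finset.range i, η ^ j‖ ≤ ‖η - 1‖ * 1 :=
          mul_le_mul_of_nonneg_left h3 (norm_nonneg _)
      _ < 1 := by rw [mul_one]; exact hη1
  have hm1 : ‖(m : PadicAlgCl q)‖ < 1 := by
    have h4 : (m : PadicAlgCl q) = - ∑ i ∈ Finset.range m, (η ^ i - 1) := by
      rw [Finset.sum_sub_distrib, hsum]; simp
    rw [h4, norm_neg]
    rcases Nat.eq_zero_or_pos m with h0 | hpos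
    · exact absurd h0 hm0
    · obtain ⟨i, hi, hle⟩ := IsUltrametricDist.exists_norm_finsetSum_le_of_nonempty
        (Finset.nonempty_range_iff.2 hm0) (fun i => η ^ i - 1)
      exact lt_of_le_of_lt hle (hpow i)
  rw [norm_natCast_eq_one hm] at hm1
  exact lt_irrefl _ hm1

/-! ### The residue field of an intermediate field -/

variable (q)

/-- The integral elements of `K`, as a subset of `PadicAlgCl q`. -/
def intSet (K : IntermediateField ℚ_[q] (PadicAlgCl q)) : Set (PadicAlgCl q) :=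
  {x | x ∈ K ∧ ‖x‖ ≤ 1}

/-- The residue field of `K`, as a subfield of the residue field of `PadicAlgCl q`. -/
noncomputable def resField (K : IntermediateField ℚ_[q] (PadicAlgCl q)) : Subfield (kΩ q) where
  carrier := red q '' intSet q K
  mul_mem' := by
    rintro _ _ ⟨x, ⟨hxK, hx⟩, rfl⟩ ⟨y, ⟨hyK, hy⟩, rfl⟩
    exact ⟨x * y, ⟨K.mul_mem hxK hyK, by rw [norm_mul]; exact mul_le_one₀ hx (norm_nonneg _) hy⟩,
      red_mul hx hy⟩
  one_mem' := ⟨1, ⟨K.one_mem, by simp⟩, red_one⟩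
  add_mem' := by
    rintro _ _ ⟨x, ⟨hxK, hx⟩, rfl⟩ ⟨y, ⟨hyK, hy⟩, rfl⟩
    exact ⟨x + y, ⟨K.add_mem hxK hyK,
      (IsUltrametricDist.norm_add_le_max x y).trans (max_le hx hy)⟩, red_add hx hy⟩
  zero_mem' := ⟨0, ⟨K.zero_mem, by simp⟩, red_zero⟩
  neg_mem' := by
    rintro _ ⟨x, ⟨hxK, hx⟩, rfl⟩
    exact ⟨-x, ⟨K.neg_mem hxK, by rwa [norm_neg]⟩, red_neg hx⟩
  inv_mem' := by
    rintro _ ⟨x, ⟨hxK, hx⟩, rfl⟩
    by_cases h0 : red q x = 0
    · rw [h0, inv_zero]; exact ⟨0, ⟨K.zero_mem, by simp⟩, red_zero⟩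
    · have h1 : ‖x‖ = 1 := by
        rcases lt_or_eq_of_le hx with h | h
        · exact absurd ((red_eq_zero_iff hx).2 h) h0
        · exact h
      have hx0 : x ≠ 0 := by rintro rfl; simp at h1
      have h2 : ‖x⁻¹‖ ≤ 1 := by rw [norm_inv, h1, inv_one]
      refine ⟨x⁻¹, ⟨K.inv_mem hxK, h2⟩, ?_⟩
      have h3 : red q x⁻¹ * red q x = 1 := by
        rw [← red_mul h2 hx, inv_mul_cancel₀ hx0, red_one]
      exact eq_inv_of_mul_eq_one_left h3

variable {q}

lemma mem_resField {K : IntermediateField ℚ_[q] (PadicAlgCl q)} {a : kΩ q} :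
    a ∈ resField q K ↔ ∃ x ∈ K, ‖x‖ ≤ 1 ∧ red q x = a :=
  ⟨fun ⟨x, ⟨h1, h2⟩, h3⟩ => ⟨x, h1, h2, h3⟩, fun ⟨x, h1, h2, h3⟩ => ⟨x, ⟨h1, h2⟩, h3⟩⟩

lemma red_mem_resField {K : IntermediateField ℚ_[q] (PadicAlgCl q)} {x : PadicAlgCl q}
    (hxK : x ∈ K) (hx : ‖x‖ ≤ 1) : red q x ∈ resField q K :=
  mem_resField.2 ⟨x, hxK, hx, rfl⟩

lemma resField_mono {K K' : IntermediateField ℚ_[q] (PadicAlgCl q)} (h : K ≤ K') :
    resField q K ≤ resField q K' := by
  intro a ha
  obtain ⟨x, hxK, hx, rfl⟩ := mem_resField.1 ha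
  exact red_mem_resField (h hxK) hx

/-- The unit ball of a finite extension of `ℚ_[q]` is compact. -/
lemma isCompact_intSet (K : IntermediateField ℚ_[q] (PadicAlgCl q)) [FiniteDimensional ℚ_[q] K] :
    IsCompact (intSet q K) := by
  have : FiniteDimensional ℚ_[q] (K.toSubalgebra.toSubmodule) :=
    inferInstanceAs (FiniteDimensional ℚ_[q] K)
  have : ProperSpace (K.toSubalgebra.toSubmodule) :=
    FiniteDimensional.proper ℚ_[q] (K.toSubalgebra.toSubmodule)
  have h1 : IsCompact (Metric.closedBall (0 : K.toSubalgebra.toSubmodule) 1) :=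
    isCompact_closedBall _ _
  have h2 := h1.image (continuous_subtype_val)
  convert h2 using 1
  ext x
  constructor
  · rintro ⟨hxK, hx⟩
    exact ⟨⟨x, hxK⟩, by simpa using hx, rfl⟩
  · rintro ⟨⟨y, hyK⟩, hy, rfl⟩
    exact ⟨hyK, by simpa using hy⟩

instance finite_resField (K : IntermediateField ℚ_[q] (PadicAlgCl q))
    [FiniteDimensional ℚ_[q] K] : Finite (resField q K) := by
  obtain ⟨t, -, ht⟩ := (isCompact_intSet K).elim_nhds_subcover (fun x => Metric.ball x 1)
    (fun x _ => Metric.ball_mem_nhds x zero_lt_one)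
  have hsub : (resField q K : Set (kΩ q)) ⊆ red q '' (t : Set (PadicAlgCl q)) ∪ {0} := by
    rintro a ha
    obtain ⟨x, hxK, hx, rfl⟩ := mem_resField.1 ha
    obtain ⟨y, hyt, hxy⟩ := Set.mem_iUnion₂.1 (ht ⟨hxK, hx⟩)
    rw [Metric.mem_ball, dist_eq_norm] at hxy
    by_cases hy : ‖y‖ ≤ 1
    · left
      exact ⟨y, hyt, ((red_eq_iff hx hy).2 hxy).symm⟩
    · exfalso
      have h3 : ‖y‖ ≤ max ‖x - y‖ ‖x‖ := by
        have : y = -(x - y) + x := by ring
        calc ‖y‖ = ‖-(x - y) + x‖ := by rw [← this]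
          _ ≤ max ‖-(x - y)‖ ‖x‖ := IsUltrametricDist.norm_add_le_max _ _
          _ = max ‖x - y‖ ‖x‖ := by rw [norm_neg]
      exact hy (h3.trans (max_le hxy.le hx))
  exact Set.Finite.subset ((t.finite_toSet.image _).union (Set.finite_singleton 0)) hsub

variable (q)

/-- The cardinality of the residue field of `K`. -/
noncomputable def resCard (K : IntermediateField ℚ_[q] (PadicAlgCl q)) : ℕ :=
  Nat.card (resField q K)

variable {q}

instance charP_resField (K : IntermediateField ℚ_[q] (PadicAlgCl q)) : CharP (resField q K) q :=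
  inferInstance

theorem resCard_pos_pow (K : IntermediateField ℚ_[q] (PadicAlgCl q))
    [FiniteDimensional ℚ_[q] K] : ∃ a, 0 < a ∧ resCard q K = q ^ a := by
  haveI : Fintype (resField q K) := Fintype.ofFinite _
  obtain ⟨n, hn⟩ := FiniteField.card (resField q K) q
  refine ⟨n, n.pos, ?_⟩
  rw [resCard, Nat.card_eq_fintype_card, hn.2]

lemma one_lt_resCard (K : IntermediateField ℚ_[q] (PadicAlgCl q))
    [FiniteDimensional ℚ_[q] K] : 1 < resCard q K := by
  obtain ⟨a, ha, h⟩ := resCard_pos_pow K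
  rw [h]
  exact Nat.one_lt_pow ha.ne' (Fact.out : q.Prime).one_lt

lemma not_dvd_resCard_pow_sub_one (K : IntermediateField ℚ_[q] (PadicAlgCl q))
    [FiniteDimensional ℚ_[q] K] (n : ℕ) (hn : 0 < n) : ¬ q ∣ resCard q K ^ n - 1 := by
  obtain ⟨a, ha, h⟩ := resCard_pos_pow K
  intro hd
  have h1 : q ∣ resCard q K ^ n := by
    rw [h, ← pow_mul]
    exact dvd_pow_self q (Nat.mul_ne_zero ha.ne' hn.ne')
  have h2 : 0 < resCard q K ^ n := pow_pos (by have := one_lt_resCard K; omega) n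
  have h3 : q ∣ 1 := by
    have : resCard q K ^ n = (resCard q K ^ n - 1) + 1 := by omega
    rw [this] at h1
    exact (Nat.dvd_add_right hd).1 h1
  exact (Fact.out : q.Prime).one_lt.ne' (Nat.dvd_one.1 h3)

/-- Elements of the residue field of `K` are fixed by the `Q`-power map. -/
lemma pow_resCard_of_mem_resField {K : IntermediateField ℚ_[q] (PadicAlgCl q)}
    [FiniteDimensional ℚ_[q] K] {a : kΩ q} (ha : a ∈ resField q K) : a ^ resCard q K = a := by
  haveI : Fintype (resField q K) := Fintype.ofFinite _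
  have h := FiniteField.pow_card (⟨a, ha⟩ : resField q K)
  rw [← Nat.card_eq_fintype_card] at h
  have := congrArg (Subtype.val) h
  simpa [resCard] using this

/-- `x ^ Q ≡ x` for integral `x ∈ K`. -/
theorem frob_congr {K : IntermediateField ℚ_[q] (PadicAlgCl q)} [FiniteDimensional ℚ_[q] K]
    {x : PadicAlgCl q} (hxK : x ∈ K) (hx : ‖x‖ ≤ 1) : ‖x ^ resCard q K - x‖ < 1 := by
  have h1 : ‖x ^ resCard q K‖ ≤ 1 := by rw [norm_pow]; exact pow_le_one₀ (norm_nonneg _) hx
  rw [← red_eq_iff h1 hx, red_pow hx]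
  exact pow_resCard_of_mem_resField (red_mem_resField hxK hx)

/-- The residue field of `K` is exactly the set of fixed points of the `Q`-power map. -/
theorem mem_resField_of_pow_resCard {K : IntermediateField ℚ_[q] (PadicAlgCl q)}
    [FiniteDimensional ℚ_[q] K] {a : kΩ q} (ha : a ^ resCard q K = a) : a ∈ resField q K := by
  classical
  haveI : Fintype (resField q K) := Fintype.ofFinite _
  set Q := resCard q K with hQ
  have hQ1 : 1 < Q := one_lt_resCard K
  set P : Polynomial (kΩ q) := Polynomial.X ^ Q - Polynomial.X with hP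
  have hP0 : P ≠ 0 := FiniteField.X_pow_card_sub_X_ne_zero (kΩ q) hQ1
  have hdeg : P.natDegree = Q := FiniteField.X_pow_card_sub_X_natDegree_eq (kΩ q) hQ1
  -- the image of the residue field inside the roots
  set T : Finset (kΩ q) := (Finset.univ : Finset (resField q K)).image Subtype.val with hT
  have hTcard : T.card = Q := by
    rw [hT, Finset.card_image_of_injective _ Subtype.val_injective, Finset.card_univ, hQ, resCard,
      Nat.card_eq_fintype_card]
  have hTsub : T ⊆ P.roots.toFinset := by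
    intro b hb
    obtain ⟨c, -, rfl⟩ := Finset.mem_image.1 hb
    rw [Multiset.mem_toFinset, Polynomial.mem_roots hP0, Polynomial.IsRoot, hP]
    simp only [Polynomial.eval_sub, Polynomial.eval_pow, Polynomial.eval_X]
    rw [pow_resCard_of_mem_resField c.2, sub_self]
  have hcard : P.roots.toFinset.card ≤ T.card := by
    rw [hTcard, ← hdeg]
    exact (Multiset.toFinset_card_le _).trans (Polynomial.card_roots' P)
  have hEq : T = P.roots.toFinset := Finset.eq_of_subset_of_card_le hTsub hcard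
  have haR : a ∈ P.roots.toFinset := by
    rw [Multiset.mem_toFinset, Polynomial.mem_roots hP0, Polynomial.IsRoot, hP]
    simp only [Polynomial.eval_sub, Polynomial.eval_pow, Polynomial.eval_X]
    rw [ha, sub_self]
  rw [← hEq] at haR
  obtain ⟨c, -, rfl⟩ := Finset.mem_image.1 haR
  exact c.2

/-- An integral `y` with `y ^ Q ≡ y` is congruent to an integral element of `K`. -/
theorem exists_of_frob {K : IntermediateField ℚ_[q] (PadicAlgCl q)} [FiniteDimensional ℚ_[q] K]
    {y : PadicAlgCl q} (hy : ‖y‖ ≤ 1) (h : ‖y ^ resCard q K - y‖ < 1) :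
    ∃ x ∈ K, ‖x‖ ≤ 1 ∧ ‖y - x‖ < 1 := by
  have h1 : ‖y ^ resCard q K‖ ≤ 1 := by rw [norm_pow]; exact pow_le_one₀ (norm_nonneg _) hy
  have h2 : red q y ^ resCard q K = red q y := by
    rw [← red_pow hy]; exact (red_eq_iff h1 hy).2 h
  obtain ⟨x, hxK, hx, hxy⟩ := mem_resField.1 (mem_resField_of_pow_resCard h2)
  exact ⟨x, hxK, hx, (red_eq_iff hy hx).1 hxy.symm⟩

/-- `μ_{Q-1} ⊆ K`. -/
theorem mem_of_pow_resCard_sub_one (K : IntermediateField ℚ_[q] (PadicAlgCl q))
    [FiniteDimensional ℚ_[q] K] {z : PadicAlgCl q} (hz : z ^ (resCard q K - 1) = 1) : z ∈ K := by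
  have hQ1 : 1 < resCard q K := one_lt_resCard K
  have hm : ¬ q ∣ resCard q K - 1 := by
    have := not_dvd_resCard_pow_sub_one K 1 one_pos
    rwa [pow_one] at this
  have hm0 : resCard q K - 1 ≠ 0 := by omega
  have hz1 : ‖z‖ = 1 := norm_eq_one_of_pow_eq_one hm0 hz
  have hzQ : z ^ resCard q K = z := by
    have : resCard q K = (resCard q K - 1) + 1 := by omega
    rw [this, pow_succ, hz, one_mul]
  obtain ⟨x, hxK, hx, hzx⟩ := exists_of_frob (K := K) hz1.le (by rw [hzQ, sub_self]; simp)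
  rw [← InfiniteGalois.fixedField_fixingSubgroup K, IntermediateField.mem_fixedField_iff]
  intro σ hσ
  have hσx : σ x = x := (IntermediateField.mem_fixingSubgroup_iff _ _).1 hσ x hxK
  apply eq_of_pow_eq_one_of_norm_sub_lt hm (by rw [← map_pow, hz, map_one]) hz
  have h1 : σ z - z = σ (z - x) + (x - z) := by rw [map_sub, hσx]; ring
  rw [h1]
  refine lt_of_le_of_lt (IsUltrametricDist.norm_add_le_max _ _) (max_lt ?_ ?_)
  · rw [norm_map]; exact hzx
  · rw [norm_sub_rev]; exact hzx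

/-- The roots of unity of order prime to `q` in `K` are exactly `μ_{Q-1}`. -/
theorem root_of_unity_in_K (K : IntermediateField ℚ_[q] (PadicAlgCl q))
    [FiniteDimensional ℚ_[q] K] {m : ℕ} (hm : ¬ q ∣ m) {z : PadicAlgCl q} (hz : z ^ m = 1)
    (hzK : z ∈ K) : z ^ (resCard q K - 1) = 1 := by
  haveI : Fintype (resField q K) := Fintype.ofFinite _
  have hm0 : m ≠ 0 := by rintro rfl; exact hm (dvd_zero q)
  have hz1 : ‖z‖ = 1 := norm_eq_one_of_pow_eq_one hm0 hz
  have hne : (⟨red q z, red_mem_resField hzK hz1.le⟩ : resField q K) ≠ 0 := by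
    intro h0
    have h1 : red q z = 0 := congrArg Subtype.val h0
    rw [red_eq_zero_iff hz1.le, hz1] at h1
    exact lt_irrefl _ h1
  have h2 := FiniteField.pow_card_sub_one_eq_one _ hne
  rw [← Nat.card_eq_fintype_card] at h2
  have h3 : red q z ^ (resCard q K - 1) = 1 := by
    have := congrArg Subtype.val h2
    simpa [resCard] using this
  have h4 : ‖z ^ (resCard q K - 1)‖ ≤ 1 := by rw [norm_pow, hz1, one_pow]
  apply eq_of_pow_eq_one_of_norm_sub_lt hm (by rw [← pow_mul, mul_comm, pow_mul, hz, one_pow])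
    (one_pow m)
  rw [← red_eq_iff h4 (by simp), red_pow hz1.le, h3, red_one]

end Fermat.Agent.S55.UnrExt93
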