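import Fermat.Agent.S55.UnrExt93.LocSysEval
import Fermat.Agent.S55.KummerBr95.BrBound28
import Fermat.Agent.S55.Idele73.Local
import Fermat.Agent.S55.QZ33

/-!
# S55 / 22b-SYS (helper93): the instance of `locSysE` for the Krull levels and for `Elev q L`

* `invFamilyOfPres q (h : KummerBr95.LocalPres q) : InvFamily q` on helper28/helper95's carrier
  `levelsK28 q K` (Krull levels of `G_{ℚ_q}` restricted to `G_K`).
* **`locSys q h L : GSys.Sys (Idele73.Local.EUnits q L) QZ33.QZ`** (helper37's REQUEST 22b-SYS).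
-/

set_option autoImplicit false
set_option linter.unusedSectionVars false

namespace Fermat.Agent.S55.UnrExt93

open Module IntermediateField
open Fermat.Agent.S55.LocField17 Fermat.Agent.S55.Profin15
open Fermat.Agent.S55.LocInv28.Abstract Fermat.Agent.S55.LocInv28.Padic
open Fermat.Agent.S55.CycloRecip37.GSys Fermat.Agent.S55.KummerBr95

attribute [local instance] Fermat.Agent.S55.KummerBr95.fact_prime

variable (q : Nat.Primes)

theorem cont_incl_levelsK28 {K L : LF (q : ℕ)} (h : K ≤ L) :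
    LevelStr.IsContinuous (levelsK28 q L) (levelsK28 q K) (inclG h) := by
  rintro W ⟨U, hU, rfl⟩
  exact ⟨U.comap L.fixingSubgroup.subtype, ⟨U, hU, rfl⟩, fun s hs => hs⟩

theorem cont_conj_levelsK28 {K K' : LF (q : ℕ)} (τ : Gq (q : ℕ)) (hτ : ∀ x ∈ K, τ x ∈ K') :
    LevelStr.IsContinuous (levelsK28 q K') (levelsK28 q K) (conjHom τ hτ) := by
  rintro W ⟨U, hU, rfl⟩
  refine ⟨U.comap K'.fixingSubgroup.subtype, ⟨U, hU, rfl⟩, fun s hs => ?_⟩
  have hn : U.Normal := hU.1
  have h1 : (s : Gq (q : ℕ)) ∈ U := hs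
  show τ⁻¹ * (s : Gq (q : ℕ)) * τ ∈ U
  have := hn.conj_mem _ h1 τ⁻¹
  rwa [inv_inv] at this

/-- the family of local invariants on the restricted Krull levels, from `pres`. -/
noncomputable def invFamilyOfPres (h : LocalPres q) : InvFamily (q : ℕ) where
  lev K := levelsK28 q K
  good K _ := goodLevels_levelsK28 q K
  isInv K _ := isLocalInv_of_pres K (levelsK28 q K) (goodLevels_levelsK28 q K) (h K)
  cont_incl h' := cont_incl_levelsK28 q h'
  cont_conj τ hτ := cont_conj_levelsK28 q τ hτ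

section Global

open Fermat.Agent.S55.Idele73.Basic Fermat.Agent.S55.Idele73.Local

variable (L : IntermediateField ℚ Qbar) [Normal ℚ L] [FiniteDimensional ℚ L]

/-- **22b-SYS**: the local system of invariants at `q` for the finite Galois level `L / ℚ`. -/
noncomputable def locSys (h : LocalPres q) :
    Sys (EUnits (q : ℕ) L) Fermat.Agent.S55.QZ33.QZ :=
  locSysE (invFamilyOfPres q h) (Elev (q : ℕ) L)

theorem locSys_S (h : LocalPres q) (D' : Subgroup (DE (q : ℕ) L))
    (f : DE (q : ℕ) L × DE (q : ℕ) L → EUnits (q : ℕ) L) :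
    (locSys q L h).S D' f = locS (invFamilyOfPres q h) (Elev (q : ℕ) L) D' f := rfl

/-- by definition: the value on a cocycle is the invariant of the inflated class. -/
theorem locSys_S_of_isCocOn (h : LocalPres q) {D' : Subgroup (DE (q : ℕ) L)}
    {f : DE (q : ℕ) L × DE (q : ℕ) L → EUnits (q : ℕ) L} (hf : IsCocOn (EUnits (q : ℕ) L) D' f) :
    (locSys q L h).S D' f =
      ((invFamilyOfPres q h).isInv (fixK (Elev (q : ℕ) L) D')).inv
        (inflClass (invFamilyOfPres q h) (Elev (q : ℕ) L) D' f hf) :=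
  locS_of_isCocOn _ _ hf

/-- helper28's `frac` is helper33's `QZ.frac`. -/
theorem frac_eq_QZ_frac (k : ℤ) (n : ℕ+) :
    frac k n = Fermat.Agent.S55.QZ33.QZ.frac k (n : ℕ) := rfl

open Fermat.Agent.S55.GlobalInv91 in
/-- (L1) the unramified formula for `locSys`. -/
theorem locSys_S_carry (h : LocalPres q) (D' : Subgroup (DE (q : ℕ) L)) (K : LF (q : ℕ))
    [FiniteDimensional ℚ_[(q : ℕ)] K] (hK : fixK (Elev (q : ℕ) L) D' = K) (n : ℕ+)
    (χ : DE (q : ℕ) L →* Multiplicative (ZMod n)) (c : ℕ)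
    (hχ : ∀ g : GK K, chiVal χ (UnrExt93.resE (Elev (q : ℕ) L) (g : LocField17.Gq (q : ℕ))) =
      (c : ZMod n) * chiVal (LocInv28.FrobChar.chi K n) g)
    (b : EUnits (q : ℕ) L) (hb : ∀ σ ∈ D', (EUnits (q : ℕ) L).ρ σ b = b)
    (hbK : (((Additive.toMul (b : Additive (↥(Elev (q : ℕ) L))ˣ) : (↥(Elev (q : ℕ) L))ˣ) :
      Elev (q : ℕ) L) : PadicAlgCl (q : ℕ)) ∈ K) :
    (locSys q L h).S D' (carry (EUnits (q : ℕ) L) χ b) =
      Fermat.Agent.S55.QZ33.QZ.frac ((c : ℤ) * ord K ⟨_, hbK⟩) (n : ℕ) :=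
  locS_carry_of_eq (invFamilyOfPres q h) (Elev (q : ℕ) L) D' K hK n χ c hχ b hb hbK

/-- (L4) injectivity on inflated classes. -/
theorem inflClass_eq_zero_of_locSys_S_eq_zero (h : LocalPres q) {D' : Subgroup (DE (q : ℕ) L)}
    {f : DE (q : ℕ) L × DE (q : ℕ) L → EUnits (q : ℕ) L} (hf : IsCocOn (EUnits (q : ℕ) L) D' f)
    (h0 : (locSys q L h).S D' f = 0) :
    inflClass (invFamilyOfPres q h) (Elev (q : ℕ) L) D' f hf = 0 :=
  inflClass_eq_zero_of_locS_eq_zero _ _ hf h0

/-- the restriction map of `locSys` is helper73's `Idele73.Local.resE`. -/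
theorem resE_eq (τ : LocField17.Gq (q : ℕ)) :
    UnrExt93.resE (Elev (q : ℕ) L) τ = Fermat.Agent.S55.Idele73.Local.resE (q : ℕ) L τ := rfl

end Global

end Fermat.Agent.S55.UnrExt93
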