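import Fermat.Agent.S55.UnrExt93.LocSys
import Fermat.Agent.S55.KummerBr86.Hilbert90Lim

/-!
# S55 / 22b → 34 seam (helper93): `Br(E/K) ↪ Br(K)` in cochain form

`E / ℚ_q` finite normal, `D' ≤ Gal(E/ℚ_q)`, `K = E^{D'}`.  If the inflation to `G_K` of a cocycle
`f` on `D'` is a level coboundary, then `f` is a coboundary on `D'` (explicit
inflation–restriction: Hilbert 90 for level cocycles on `G_E ≤ G_K`, then descent of the
`1`-cochain through `(Ωˣ)^{G_E} = Eˣ`).  Consequence: `locSysE I E` detects coboundaries.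
-/

set_option autoImplicit false
set_option linter.unusedSectionVars false

namespace Fermat.Agent.S55.UnrExt93

open Module IntermediateField Finset groupCohomology
open Fermat.Agent.S55.LocField17 Fermat.Agent.S55.GlobalInv91 Fermat.Agent.S55.Profin15
open Fermat.Agent.S55.LocInv28.Abstract Fermat.Agent.S55.LocInv28.Padic
open Fermat.Agent.S55.CycloRecip37.GSys

variable {q : ℕ} [Fact q.Prime]

section

variable {E : LF q} [FiniteDimensional ℚ_[q] E] [Normal ℚ_[q] E]

theorem inclE_injective (K : LF q) : Function.Injective (inclE E K) := by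
  intro u v h
  have h1 := congrArg (valΩ K) h
  rw [valΩ_inclE, valΩ_inclE] at h1
  apply Additive.toMul.injective
  apply Units.ext
  exact Subtype.ext h1

/-- multiplicative reading of `A_K`. -/
def tUx {K : LF q} (x : AK K) : (PadicAlgCl q)ˣ :=
  Additive.toMul (x : Additive (PadicAlgCl q)ˣ)

/-- additive reading of a unit. -/
def oUx (K : LF q) (u : (PadicAlgCl q)ˣ) : AK K :=
  (Additive.ofMul u : Additive (PadicAlgCl q)ˣ)

/-- **`Br(E/K) ↪ Br(K)`, cochain form**, for any `K ≤ E` with `G_K = res⁻¹ D'`. -/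
theorem isCobOn_of_infl₂_mem_B₂_aux {K : LF q} {D' : Subgroup (E ≃ₐ[ℚ_[q]] E)} (hKE : K ≤ E)
    (hK : ∀ g : Gq q, g ∈ K.fixingSubgroup ↔ resE E g ∈ D')
    {𝒰 : LevelStr (GK K)} (h𝒰 : GoodLevels K 𝒰)
    {f : (E ≃ₐ[ℚ_[q]] E) × (E ≃ₐ[ℚ_[q]] E) → unitsE E} (hf : IsCocOn (unitsE E) D' f)
    (hB : infl₂ E K f ∈ 𝒰.B₂ (AK K)) : IsCobOn (unitsE E) D' f := by
  classical
  obtain ⟨y, ⟨U, hU, hyU⟩, hdy⟩ := (𝒰.mem_B₂_iff _ _).1 hB
  let π : GK K →* (E ≃ₐ[ℚ_[q]] E) := (resE E).comp K.fixingSubgroup.subtype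
  have hπ : ∀ g : GK K, π g = resE E (g : Gq q) := fun _ => rfl
  have hπD : ∀ g : GK K, π g ∈ D' := fun g => (hK _).1 g.2
  have hy : ∀ g h : GK K, (AK K).ρ g (y h) - y (g * h) + y g = inclE E K (f (π g, π h)) := by
    intro g h
    have := congrFun hdy (g, h)
    rw [d₁₂_hom_apply] at this
    exact this
  -- consequences of the cocycle identity
  have hf1 : ∀ σ ∈ D', f (σ, 1) = (unitsE E).ρ σ (f (1, 1)) := by
    intro σ hσ
    have := hf σ hσ 1 D'.one_mem 1 D'.one_mem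
    rw [mul_one, mul_one, sub_add_cancel, sub_eq_zero] at this
    exact this.symm
  have hf2 : ∀ σ ∈ D', f (1, σ) = f (1, 1) := by
    intro σ hσ
    have := hf 1 D'.one_mem 1 D'.one_mem σ hσ
    rw [mul_one, one_mul, map_one, Module.End.one_apply, sub_self, zero_add, sub_eq_zero] at this
    exact this
  have ha₀ : ∀ g : GK K, (AK K).ρ g (inclE E K (f (1, 1))) = inclE E K (f (π g, 1)) := by
    intro g
    rw [rho_inclE, ← hπ, hf1 _ (hπD g)]
  have ha₀N : ∀ z : GK K, π z = 1 →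
      (AK K).ρ z (inclE E K (f (1, 1))) = inclE E K (f (1, 1)) := by
    intro z hz
    rw [ha₀ z, hz]
  -- Hilbert 90 on `N = ker π`
  obtain ⟨B, hBy⟩ : ∃ B : AK K, ∀ z : GK K, π z = 1 →
      y z - inclE E K (f (1, 1)) = (AK K).ρ z B - B := by
    let N : Subgroup (GK K) := π.ker
    let fN : ↥N →* (PadicAlgCl q ≃ₐ[ℚ_[q]] PadicAlgCl q) :=
      K.fixingSubgroup.subtype.comp N.subtype
    obtain ⟨T, hT⟩ := h𝒰.closed U hU
    haveI := 𝒰.finiteIndex U hU
    obtain ⟨b, hb⟩ := KummerBr86.Hilbert90Lim.exists_units_of_cocycle (K₀ := ℚ_[q]) fN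
      (U.subgroupOf N) (fun z : ↥N => tUx (y (z : GK K) - inclE E K (f (1, 1)))) T
      (fun z => by
        rw [Subgroup.mem_subgroupOf]
        exact hT (z : GK K))
      (fun z w => by
        have hz : π (z : GK K) = 1 := z.2
        have hw : π (w : GK K) = 1 := w.2
        have h1 := hy (z : GK K) (w : GK K)
        rw [hz, hw] at h1
        have h2 : y ((z : GK K) * (w : GK K)) - inclE E K (f (1, 1)) =
            (y (z : GK K) - inclE E K (f (1, 1))) +
              (AK K).ρ (z : GK K) (y (w : GK K) - inclE E K (f (1, 1))) := by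
          rw [map_sub, ha₀N _ hz]
          have h3 : y ((z : GK K) * (w : GK K)) =
              (AK K).ρ (z : GK K) (y (w : GK K)) + y (z : GK K) - inclE E K (f (1, 1)) := by
            rw [← h1]; abel
          rw [h3]; abel
        exact congrArg tUx h2)
      (fun g s hs => by
        have := hyU (g : GK K) (s : GK K) (Subgroup.mem_subgroupOf.1 hs)
        show tUx (y ((g : GK K) * (s : GK K)) - _) = tUx (y (g : GK K) - _)
        rw [this])
    refine ⟨oUx K b, fun z hz => ?_⟩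
    have := hb ⟨z, hz⟩
    exact congrArg (oUx K) this
  -- the corrected cochain
  set Y : GK K → AK K := fun g => y g - ((AK K).ρ g B - B) with hYdef
  have hY : ∀ g h : GK K, (AK K).ρ g (Y h) - Y (g * h) + Y g = inclE E K (f (π g, π h)) := by
    intro g h
    rw [← hy g h]
    simp only [hYdef, map_sub, map_mul, Module.End.mul_apply]
    abel
  have hYN : ∀ z : GK K, π z = 1 → Y z = inclE E K (f (1, 1)) := by
    intro z hz
    have := hBy z hz
    simp only [hYdef]
    rw [← this]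
    abel
  have hYr : ∀ g z : GK K, π z = 1 → Y (g * z) = Y g := by
    intro g z hz
    have := hY g z
    rw [hz, ← ha₀ g, hYN z hz] at this
    have h3 : (AK K).ρ g (inclE E K (f (1, 1))) - Y (g * z) + Y g -
        (AK K).ρ g (inclE E K (f (1, 1))) = 0 := by rw [this, sub_self]
    have h4 : Y g - Y (g * z) = 0 := by rw [← h3]; abel
    exact (sub_eq_zero.1 h4).symm
  have hYl : ∀ z h : GK K, π z = 1 → Y (z * h) = (AK K).ρ z (Y h) := by
    intro z h hz
    have := hY z h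
    rw [hz, hf2 _ (hπD h), hYN z hz] at this
    have h3 : (AK K).ρ z (Y h) - Y (z * h) = 0 := by
      have h4 : (AK K).ρ z (Y h) - Y (z * h) + inclE E K (f (1, 1)) - inclE E K (f (1, 1)) = 0 := by
        rw [this, sub_self]
      rw [← h4]; abel
    exact (sub_eq_zero.1 h3).symm
  have hYfix : ∀ z h : GK K, π z = 1 → (AK K).ρ z (Y h) = Y h := by
    intro z h hz
    rw [← hYl z h hz]
    have hconj : π (h⁻¹ * z * h) = 1 := by
      rw [map_mul, map_mul, hz, mul_one, map_inv, inv_mul_cancel]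
    have : z * h = h * (h⁻¹ * z * h) := by group
    rw [this, hYr h _ hconj]
  have hYE : ∀ h : GK K, valΩ K (Y h) ∈ E := by
    intro h
    apply mem_of_fixed
    intro s hs
    have hsK : s ∈ K.fixingSubgroup := IntermediateField.fixingSubgroup_antitone hKE hs
    have h1 : π ⟨s, hsK⟩ = 1 :=
      resE_eq_one_of_fixes E fun x hx => (IntermediateField.mem_fixingSubgroup_iff _ _).1 hs x hx
    have := congrArg (valΩ K) (hYfix ⟨s, hsK⟩ h h1)
    rw [valΩ_ρ] at this
    exact this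
  -- descent
  have hlift : ∀ σ : E ≃ₐ[ℚ_[q]] E, σ ∈ D' → ∃ g : GK K, π g = σ := by
    intro σ hσ
    obtain ⟨τ, rfl⟩ := resE_surjective E σ
    exact ⟨⟨τ, (hK τ).2 hσ⟩, rfl⟩
  let cE : (E ≃ₐ[ℚ_[q]] E) → unitsE E := fun σ =>
    if hσ : σ ∈ D' then
      (Additive.ofMul (Units.mk0 (⟨valΩ K (Y (hlift σ hσ).choose), hYE _⟩ : E)
        (fun h0 => valΩ_ne_zero K (Y (hlift σ hσ).choose) (congrArg Subtype.val h0))) :
        Additive (↥E)ˣ)
    else 0
  have hcE : ∀ (σ : E ≃ₐ[ℚ_[q]] E) (_ : σ ∈ D') (g : GK K), π g = σ → inclE E K (cE σ) = Y g := by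
    intro σ hσ g hg
    have hg₀ := (hlift σ hσ).choose_spec
    have h1 : Y g = Y (hlift σ hσ).choose := by
      have hz : π ((hlift σ hσ).choose⁻¹ * g) = 1 := by
        rw [map_mul, map_inv, hg₀, hg, inv_mul_cancel]
      have : g = (hlift σ hσ).choose * ((hlift σ hσ).choose⁻¹ * g) := by group
      rw [this, hYr _ _ hz]
    rw [h1]
    apply valΩ_injective K
    rw [valΩ_inclE]
    simp only [cE, dif_pos hσ]
    rfl
  refine ⟨cE, fun σ hσ ρ' hρ => ?_⟩
  obtain ⟨g, hg⟩ := hlift σ hσ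
  obtain ⟨h, hh⟩ := hlift ρ' hρ
  apply inclE_injective (E := E) K
  have hgh : π (g * h) = σ * ρ' := by rw [map_mul, hg, hh]
  have key := hY g h
  rw [hg, hh] at key
  rw [map_add, map_sub, hcE σ hσ g hg, hcE (σ * ρ') (D'.mul_mem hσ hρ) (g * h) hgh, ← key]
  congr 2
  rw [← hcE ρ' hρ h hh, rho_inclE, ← hπ, hg]

/-- **`Br(E/K) ↪ Br(K)`, cochain form.** -/
theorem isCobOn_of_infl₂_mem_B₂ {D' : Subgroup (E ≃ₐ[ℚ_[q]] E)}
    {𝒰 : LevelStr (GK (fixK E D'))} (h𝒰 : GoodLevels (fixK E D') 𝒰)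
    {f : (E ≃ₐ[ℚ_[q]] E) × (E ≃ₐ[ℚ_[q]] E) → unitsE E} (hf : IsCocOn (unitsE E) D' f)
    (hB : infl₂ E (fixK E D') f ∈ 𝒰.B₂ (AK (fixK E D'))) : IsCobOn (unitsE E) D' f :=
  isCobOn_of_infl₂_mem_B₂_aux (fixK_le D') (fun _ => mem_fixingSubgroup_fixK_iff) h𝒰 hf hB

/-- the local system detects coboundaries. -/
theorem locSysE_inj (I : InvFamily q) {D' : Subgroup (E ≃ₐ[ℚ_[q]] E)}
    {f : (E ≃ₐ[ℚ_[q]] E) × (E ≃ₐ[ℚ_[q]] E) → unitsE E} (hf : IsCocOn (unitsE E) D' f)
    (h0 : (locSysE I E).S D' f = 0) : IsCobOn (unitsE E) D' f := by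
  rw [locSysE_S, locS_of_isCocOn I E hf] at h0
  have h1 : inflClass I E D' f hf = 0 :=
    (I.isInv (fixK E D')).inv_injective (by rw [h0, map_zero])
  unfold inflClass at h1
  rw [LevelStr.H2π_eq_zero_iff] at h1
  exact isCobOn_of_infl₂_mem_B₂ (I.good (fixK E D')) hf h1

end

end Fermat.Agent.S55.UnrExt93
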