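import Fermat.Agent.S55.UnrExt93.LocSysInst
import Fermat.Agent.S55.RecipLocal85Final

/-!
# S55 / P3P4 REQUEST (B) of helper15 (helper93): the finite-level local system at the top is the
limit local invariant of the inflation

`(locSys q L h).S ⊤ g = localInv15 q hP [z]` whenever `z` is the inflation of the cocycle `g` of
`Gal(E/ℚ_q)` (`E = Elev q L`) to `G_{ℚ_q}`.
-/

set_option autoImplicit false
set_option linter.unusedSectionVars false

namespace Fermat.Agent.S55.UnrExt93

open Module IntermediateField ExtCitation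
open Fermat.Agent.S55.LocField17 Fermat.Agent.S55.Profin15
open Fermat.Agent.S55.LocInv28.Abstract Fermat.Agent.S55.LocInv28.Padic
open Fermat.Agent.S55.LocInv28.Main
open Fermat.Agent.S55.CycloRecip37.GSys Fermat.Agent.S55.KummerBr95

attribute [local instance] Fermat.Agent.S55.KummerBr95.fact_prime

section General

variable {q : ℕ} [Fact q.Prime]

/-- the invariant of the inflated class at the top, read on any field `K = fixK E ⊤`. -/
theorem inv_inflClass_top_eq (I : InvFamily q) (E : LF q) [FiniteDimensional ℚ_[q] E]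
    [Normal ℚ_[q] E] (K : LF q) [FiniteDimensional ℚ_[q] K]
    (hK : fixK E (⊤ : Subgroup (E ≃ₐ[ℚ_[q]] E)) = K)
    {f : (E ≃ₐ[ℚ_[q]] E) × (E ≃ₐ[ℚ_[q]] E) → unitsE E} (hf : IsCocOn (unitsE E) ⊤ f) :
    (I.isInv (fixK E ⊤)).inv (inflClass I E ⊤ f hf) =
      (I.isInv K).inv ((I.lev K).H2π (AK K)
        ⟨infl₂ E K f, infl₂_mem_Z₂ (I.good K) (fun _ => Subgroup.mem_top _) hf⟩) := by
  subst hK
  rfl

end General

section Top

open Fermat.Agent.S55.Idele73.Basic Fermat.Agent.S55.Idele73.Local
open Fermat.Agent.S55.RecipLocal85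

variable (q : Nat.Primes) (L : IntermediateField ℚ Qbar) [Normal ℚ L] [FiniteDimensional ℚ L]

/-- **REQUEST (B)**: the finite-level local system at the top is the limit local invariant of the
inflation. -/
theorem locSys_top_eq_localInv15 (h : LocalPres q) (hP : PresCochain (K0 q))
    (g : DE (q : ℕ) L × DE (q : ℕ) L → EUnits (q : ℕ) L)
    (hg : IsCocOn (EUnits (q : ℕ) L) ⊤ g)
    (z : ↥((pullLevels (primeLocalToGlobal q)).Z₂ (RecipGlobal20.Om q)))
    (hz : ∀ x : primeLocalGaloisGroup q × primeLocalGaloisGroup q,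
      (z : primeLocalGaloisGroup q × primeLocalGaloisGroup q → RecipGlobal20.Om q) x =
        eLin (q : ℕ) L (g (Idele73.Local.resE (q : ℕ) L x.1, Idele73.Local.resE (q : ℕ) L x.2))) :
    (locSys q L h).S ⊤ g =
      localInv15 q hP ((pullLevels (primeLocalToGlobal q)).H2π (RecipGlobal20.Om q) z) := by
  rw [locSys_S_of_isCocOn q L h hg,
    inv_inflClass_top_eq (invFamilyOfPres q h) (Elev (q : ℕ) L) (K0 q) (fixK_top (Elev (q : ℕ) L)) hg]
  show _ = (isLocalInv_of_presCochain (K0 q) hP).inv
    ((levelsK (K0 q)).H2π _ (transportZ₂ (botEquiv q) (pullLevels (primeLocalToGlobal q))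
      (levelsK (K0 q)) (hlev q) (RecipGlobal20.Om q) z))
  congr 2
  apply Subtype.ext
  funext x
  rw [coe_transportZ₂, hz]
  rfl

/-- the same with helper85's unconditional `omInv q`. -/
theorem locSys_top_eq_omInv (h : LocalPres q)
    (g : DE (q : ℕ) L × DE (q : ℕ) L → EUnits (q : ℕ) L)
    (hg : IsCocOn (EUnits (q : ℕ) L) ⊤ g)
    (z : ↥((pullLevels (primeLocalToGlobal q)).Z₂ (RecipGlobal20.Om q)))
    (hz : ∀ x : primeLocalGaloisGroup q × primeLocalGaloisGroup q,
      (z : primeLocalGaloisGroup q × primeLocalGaloisGroup q → RecipGlobal20.Om q) x =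
        eLin (q : ℕ) L (g (Idele73.Local.resE (q : ℕ) L x.1, Idele73.Local.resE (q : ℕ) L x.2))) :
    (locSys q L h).S ⊤ g =
      omInv q ((pullLevels (primeLocalToGlobal q)).H2π (RecipGlobal20.Om q) z) :=
  locSys_top_eq_localInv15 q L h (presCochain0 q) g hg z hz

end Top

end Fermat.Agent.S55.UnrExt93
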