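import Fermat.Agent.S55.UnrExt93.LocSysPrep
import Fermat.Agent.S55.CycloRecip37.GSys

/-!
# S55 / 22b-SYS (helper93): the local system of invariants of a finite Galois extension `E / ℚ_q`

Given a family `I : InvFamily q` of local invariants (level structures on all `G_K`, good,
`IsLocalInv`, continuous for inclusions and conjugations), and `E / ℚ_q` finite normal with
`D = Gal(E/ℚ_q)`, we build

  `locSysE I E : GSys.Sys (Rep.ofAlgebraAutOnUnits ℚ_[q] E) (AddCircle (1 : ℚ))`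

with `S D' f = inv_{E^{D'}} [inflation of f to G_{E^{D'}}]` for `f` a cocycle on `D'`
(`0` otherwise).  `Sys.res` is `Padic.inv_res` (`e f = [D' : D'']`), `Sys.conj` is the transport
`Transport.inv_pull₂` along conjugation.
-/

set_option autoImplicit false
set_option linter.unusedSectionVars false

namespace Fermat.Agent.S55.UnrExt93

open Module IntermediateField Finset groupCohomology
open Fermat.Agent.S55.LocField17 Fermat.Agent.S55.GlobalInv91 Fermat.Agent.S55.Profin15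
open Fermat.Agent.S55.LocInv28.Abstract Fermat.Agent.S55.LocInv28.Padic
open Fermat.Agent.S55.LocInv28.FrobChar (chi)
open Fermat.Agent.S55.CycloRecip37.GSys

variable {q : ℕ} [Fact q.Prime]

/-- A family of local invariants for all finite extensions of `ℚ_q` inside `Ω`. -/
structure InvFamily (q : ℕ) [Fact q.Prime] where
  /-- the level structure of `G_K` -/
  lev : ∀ K : LF q, LevelStr (GK K)
  good : ∀ (K : LF q) [FiniteDimensional ℚ_[q] K], GoodLevels K (lev K)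
  isInv : ∀ (K : LF q) [FiniteDimensional ℚ_[q] K],
    IsLocalInv (lev K) (AK K) (padicDatum K (lev K) (good K))
  cont_incl : ∀ {K L : LF q} (h : K ≤ L), LevelStr.IsContinuous (lev L) (lev K) (inclG h)
  cont_conj : ∀ {K K' : LF q} (τ : Gq q) (hτ : ∀ x ∈ K, τ x ∈ K'),
    LevelStr.IsContinuous (lev K') (lev K) (conjHom τ hτ)

/-! ## Levels fixing a finite extension -/

section Levels

theorem exists_level_finset {G : Type} [Group G] (𝒰 : LevelStr G) {X : Type*} (P : G → X → Prop)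
    (hP : ∀ x, ∃ U ∈ 𝒰.levels, ∀ s ∈ U, P s x) (S : Finset X) :
    ∃ U ∈ 𝒰.levels, ∀ s ∈ U, ∀ x ∈ S, P s x := by
  classical
  induction S using Finset.induction_on with
  | empty =>
    obtain ⟨U, hU⟩ := 𝒰.nonempty
    exact ⟨U, hU, fun s _ x hx => absurd hx (Finset.notMem_empty x)⟩
  | insert a S _ ih =>
    obtain ⟨U, hU, h1⟩ := ih
    obtain ⟨V, hV, h2⟩ := hP a
    obtain ⟨W, hW, hle⟩ := 𝒰.directed U hU V hV
    refine ⟨W, hW, fun s hs x hx => ?_⟩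
    rcases Finset.mem_insert.1 hx with rfl | hx
    · exact h2 s (hle hs).2
    · exact h1 s (hle hs).1 x hx

/-- a good level structure has a level fixing any given finite extension pointwise. -/
theorem exists_level_fixing {K : LF q} {𝒰 : LevelStr (GK K)} (h𝒰 : GoodLevels K 𝒰) (M : LF q)
    [FiniteDimensional ℚ_[q] M] :
    ∃ U ∈ 𝒰.levels, ∀ s ∈ U, ∀ x ∈ M, (s : Gq q) x = x := by
  classical
  let b := Module.finBasis ℚ_[q] M
  obtain ⟨U, hU, h⟩ := exists_level_finset 𝒰 (fun (s : GK K) (x : PadicAlgCl q) => (s : Gq q) x = x)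
    h𝒰.smooth (Finset.univ.image fun i => ((b i : M) : PadicAlgCl q))
  refine ⟨U, hU, fun s hs x hx => ?_⟩
  have key : ((s : Gq q) : PadicAlgCl q →ₐ[ℚ_[q]] PadicAlgCl q).toLinearMap ∘ₗ M.val.toLinearMap =
      M.val.toLinearMap := by
    apply b.ext
    intro i
    exact h s hs _ (Finset.mem_image.2 ⟨i, Finset.mem_univ i, rfl⟩)
  exact LinearMap.congr_fun key ⟨x, hx⟩

end Levels

/-! ## Inflation of cochains from `Gal(E/ℚ_q)` -/

section Infl

variable (E : LF q) [FiniteDimensional ℚ_[q] E] [Normal ℚ_[q] E]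

/-- `Eˣ` as a `Gal(E/ℚ_q)`-module. -/
noncomputable abbrev unitsE : Rep.{0, 0, 0} ℤ (E ≃ₐ[ℚ_[q]] E) := Rep.ofAlgebraAutOnUnits ℚ_[q] E

/-- the inclusion `Eˣ → Ωˣ`, additively, with values in `A_K`. -/
noncomputable def inclE (K : LF q) : unitsE E →+ AK K :=
  (MonoidHom.toAdditive (Units.map ((E.val : E →ₐ[ℚ_[q]] PadicAlgCl q) : E →* PadicAlgCl q)) :
    Additive (↥E)ˣ →+ Additive (PadicAlgCl q)ˣ)

theorem valΩ_inclE (K : LF q) (u : unitsE E) :
    valΩ K (inclE E K u) = (((Additive.toMul (u : Additive (↥E)ˣ) : (↥E)ˣ) : E) : PadicAlgCl q) :=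
  rfl

theorem tauAct_inclE (K K' : LF q) (τ : Gq q) (u : unitsE E) :
    tauAct K K' τ (inclE E K u) = inclE E K' ((unitsE E).ρ (resE E τ) u) := by
  apply valΩ_injective K'
  rw [valΩ_tauAct, valΩ_inclE, valΩ_inclE]
  exact (resE_apply E τ _).symm

theorem rho_inclE (K : LF q) (g : GK K) (u : unitsE E) :
    (AK K).ρ g (inclE E K u) = inclE E K ((unitsE E).ρ (resE E (g : Gq q)) u) := by
  apply valΩ_injective K
  rw [valΩ_ρ, valΩ_inclE, valΩ_inclE]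
  exact (resE_apply E (g : Gq q) _).symm

/-- inflation of `1`-cochains. -/
noncomputable def infl₁ (K : LF q) (c : (E ≃ₐ[ℚ_[q]] E) → unitsE E) : GK K → AK K :=
  fun g => inclE E K (c (resE E (g : Gq q)))

/-- inflation of `2`-cochains. -/
noncomputable def infl₂ (K : LF q) (f : (E ≃ₐ[ℚ_[q]] E) × (E ≃ₐ[ℚ_[q]] E) → unitsE E) :
    GK K × GK K → AK K :=
  fun p => inclE E K (f (resE E (p.1 : Gq q), resE E (p.2 : Gq q)))

theorem infl₂_apply (K : LF q) (f : (E ≃ₐ[ℚ_[q]] E) × (E ≃ₐ[ℚ_[q]] E) → unitsE E) (g h : GK K) :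
    infl₂ E K f (g, h) = inclE E K (f (resE E (g : Gq q), resE E (h : Gq q))) := rfl

theorem infl₂_add (K : LF q) (f f' : (E ≃ₐ[ℚ_[q]] E) × (E ≃ₐ[ℚ_[q]] E) → unitsE E) :
    infl₂ E K (f + f') = infl₂ E K f + infl₂ E K f' := by
  funext p
  show inclE E K (f _ + f' _) = inclE E K (f _) + inclE E K (f' _)
  rw [map_add]

theorem resE_eq_one_of_fixes {s : Gq q} (hs : ∀ x ∈ E, s x = x) : resE E s = 1 := by
  ext y
  rw [resE_apply]
  exact hs _ y.2

variable {E}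

theorem isConst₁_infl₁ {K : LF q} {𝒰 : LevelStr (GK K)} (h𝒰 : GoodLevels K 𝒰)
    (c : (E ≃ₐ[ℚ_[q]] E) → unitsE E) : 𝒰.IsConst₁ (infl₁ E K c) := by
  obtain ⟨U, hU, h⟩ := exists_level_fixing h𝒰 E
  refine ⟨U, hU, fun g s hs => ?_⟩
  show inclE E K (c (resE E ((g * s : GK K) : Gq q))) = _
  rw [Subgroup.coe_mul, map_mul, resE_eq_one_of_fixes E (h s hs), mul_one]
  rfl

theorem isConst₂_infl₂ {K : LF q} {𝒰 : LevelStr (GK K)} (h𝒰 : GoodLevels K 𝒰)
    (f : (E ≃ₐ[ℚ_[q]] E) × (E ≃ₐ[ℚ_[q]] E) → unitsE E) : 𝒰.IsConst₂ (infl₂ E K f) := by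
  obtain ⟨U, hU, h⟩ := exists_level_fixing h𝒰 E
  refine ⟨U, hU, fun g g' s s' hs hs' => ?_⟩
  show inclE E K (f (resE E ((g * s : GK K) : Gq q), resE E ((g' * s' : GK K) : Gq q))) = _
  rw [Subgroup.coe_mul, Subgroup.coe_mul, map_mul, map_mul, resE_eq_one_of_fixes E (h s hs),
    resE_eq_one_of_fixes E (h s' hs'), mul_one, mul_one]
  rfl

theorem infl₂_mem_cocycles₂ {K : LF q} {D' : Subgroup (E ≃ₐ[ℚ_[q]] E)}
    (hK : ∀ g : GK K, resE E (g : Gq q) ∈ D')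
    {f : (E ≃ₐ[ℚ_[q]] E) × (E ≃ₐ[ℚ_[q]] E) → unitsE E} (hf : IsCocOn (unitsE E) D' f) :
    infl₂ E K f ∈ cocycles₂ (AK K) := by
  rw [mem_cocycles₂_def]
  intro g h j
  have := congrArg (inclE E K) (hf _ (hK g) _ (hK h) _ (hK j))
  rw [map_zero, map_sub, map_add, map_sub, ← rho_inclE] at this
  rw [← this]
  simp only [infl₂_apply, Subgroup.coe_mul, map_mul]

theorem infl₂_mem_Z₂ {K : LF q} {𝒰 : LevelStr (GK K)} (h𝒰 : GoodLevels K 𝒰)
    {D' : Subgroup (E ≃ₐ[ℚ_[q]] E)} (hK : ∀ g : GK K, resE E (g : Gq q) ∈ D')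
    {f : (E ≃ₐ[ℚ_[q]] E) × (E ≃ₐ[ℚ_[q]] E) → unitsE E} (hf : IsCocOn (unitsE E) D' f) :
    infl₂ E K f ∈ 𝒰.Z₂ (AK K) :=
  ⟨infl₂_mem_cocycles₂ hK hf, isConst₂_infl₂ h𝒰 f⟩

theorem infl₂_mem_B₂ {K : LF q} {𝒰 : LevelStr (GK K)} (h𝒰 : GoodLevels K 𝒰)
    {D' : Subgroup (E ≃ₐ[ℚ_[q]] E)} (hK : ∀ g : GK K, resE E (g : Gq q) ∈ D')
    {f : (E ≃ₐ[ℚ_[q]] E) × (E ≃ₐ[ℚ_[q]] E) → unitsE E} (hf : IsCobOn (unitsE E) D' f) :
    infl₂ E K f ∈ 𝒰.B₂ (AK K) := by
  obtain ⟨c, hc⟩ := hf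
  rw [LevelStr.mem_B₂_iff]
  refine ⟨infl₁ E K c, isConst₁_infl₁ h𝒰 c, ?_⟩
  funext p
  rw [d₁₂_hom_apply]
  have := congrArg (inclE E K) (hc _ (hK p.1) _ (hK p.2))
  rw [map_add, map_sub, ← rho_inclE] at this
  rw [infl₂, ← this]
  simp only [infl₁, Subgroup.coe_mul, map_mul]

theorem infl₂_congr {K : LF q} {D' : Subgroup (E ≃ₐ[ℚ_[q]] E)}
    (hK : ∀ g : GK K, resE E (g : Gq q) ∈ D')
    {f f' : (E ≃ₐ[ℚ_[q]] E) × (E ≃ₐ[ℚ_[q]] E) → unitsE E}
    (h : ∀ g ∈ D', ∀ a ∈ D', f (g, a) = f' (g, a)) : infl₂ E K f = infl₂ E K f' := by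
  funext p
  rw [infl₂, infl₂, h _ (hK p.1) _ (hK p.2)]

end Infl

/-! ## The system -/

section Sys

variable (I : InvFamily q) (E : LF q) [FiniteDimensional ℚ_[q] E] [Normal ℚ_[q] E]

/-- the class of the inflation of a cocycle on `D'` in `H²(G_{E^{D'}}, Ωˣ)`. -/
noncomputable def inflClass (D' : Subgroup (E ≃ₐ[ℚ_[q]] E))
    (f : (E ≃ₐ[ℚ_[q]] E) × (E ≃ₐ[ℚ_[q]] E) → unitsE E) (hf : IsCocOn (unitsE E) D' f) :
    (I.lev (fixK E D')).H2 (AK (fixK E D')) :=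
  (I.lev (fixK E D')).H2π (AK (fixK E D'))
    ⟨infl₂ E (fixK E D') f, infl₂_mem_Z₂ (I.good (fixK E D')) (resE_mem D') hf⟩

open Classical in
/-- the functional `S D' f = inv_{E^{D'}} [infl f]`. -/
noncomputable def locS (D' : Subgroup (E ≃ₐ[ℚ_[q]] E))
    (f : (E ≃ₐ[ℚ_[q]] E) × (E ≃ₐ[ℚ_[q]] E) → unitsE E) : AddCircle (1 : ℚ) :=
  if hf : IsCocOn (unitsE E) D' f then (I.isInv (fixK E D')).inv (inflClass I E D' f hf) else 0

theorem locS_of_isCocOn {D' : Subgroup (E ≃ₐ[ℚ_[q]] E)}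
    {f : (E ≃ₐ[ℚ_[q]] E) × (E ≃ₐ[ℚ_[q]] E) → unitsE E} (hf : IsCocOn (unitsE E) D' f) :
    locS I E D' f = (I.isInv (fixK E D')).inv (inflClass I E D' f hf) := by
  rw [locS, dif_pos hf]

theorem locS_of_not_isCocOn {D' : Subgroup (E ≃ₐ[ℚ_[q]] E)}
    {f : (E ≃ₐ[ℚ_[q]] E) × (E ≃ₐ[ℚ_[q]] E) → unitsE E} (hf : ¬ IsCocOn (unitsE E) D' f) :
    locS I E D' f = 0 := by
  rw [locS, dif_neg hf]

theorem inflClass_congr {D' : Subgroup (E ≃ₐ[ℚ_[q]] E)}
    {f f' : (E ≃ₐ[ℚ_[q]] E) × (E ≃ₐ[ℚ_[q]] E) → unitsE E} (hf : IsCocOn (unitsE E) D' f)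
    (hf' : IsCocOn (unitsE E) D' f') (h : ∀ g ∈ D', ∀ a ∈ D', f (g, a) = f' (g, a)) :
    inflClass I E D' f hf = inflClass I E D' f' hf' := by
  unfold inflClass
  congr 1
  exact Subtype.ext (infl₂_congr (resE_mem D') h)

theorem inflClass_add {D' : Subgroup (E ≃ₐ[ℚ_[q]] E)}
    {f f' : (E ≃ₐ[ℚ_[q]] E) × (E ≃ₐ[ℚ_[q]] E) → unitsE E} (hf : IsCocOn (unitsE E) D' f)
    (hf' : IsCocOn (unitsE E) D' f') :
    inflClass I E D' (f + f') (hf.add hf') = inflClass I E D' f hf + inflClass I E D' f' hf' := by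
  unfold inflClass
  rw [← map_add]
  congr 1

theorem inflClass_eq_zero_of_isCobOn {D' : Subgroup (E ≃ₐ[ℚ_[q]] E)}
    {f : (E ≃ₐ[ℚ_[q]] E) × (E ≃ₐ[ℚ_[q]] E) → unitsE E} (hf : IsCobOn (unitsE E) D' f) :
    inflClass I E D' f hf.isCocOn = 0 := by
  unfold inflClass
  rw [LevelStr.H2π_eq_zero_iff]
  exact infl₂_mem_B₂ (I.good (fixK E D')) (resE_mem D') hf

/-- restriction: `inv_{K''} [infl f] = [D' : D''] • inv_{K'} [infl f]`. -/
theorem inv_inflClass_res {D' D'' : Subgroup (E ≃ₐ[ℚ_[q]] E)} (hle : D'' ≤ D')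
    {f : (E ≃ₐ[ℚ_[q]] E) × (E ≃ₐ[ℚ_[q]] E) → unitsE E} (hf : IsCocOn (unitsE E) D' f) :
    (I.isInv (fixK E D'')).inv (inflClass I E D'' f (hf.mono hle)) =
      D''.relIndex D' • (I.isInv (fixK E D')).inv (inflClass I E D' f hf) := by
  have h := fixK_mono hle
  have key := inv_res h (I.lev (fixK E D')) (I.lev (fixK E D'')) (I.good _) (I.good _)
    (I.cont_incl h) (I.isInv _) (I.isInv _) (inflClass I E D' f hf)
  rw [ramIdx_mul_resDeg_fixK hle] at key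
  rw [← key]
  rfl

/-- conjugation: `inv_{τK'} [infl (σ_* f)] = inv_{K'} [infl f]`. -/
theorem inv_inflClass_conj {D' D'' : Subgroup (E ≃ₐ[ℚ_[q]] E)} (σ : E ≃ₐ[ℚ_[q]] E)
    (hD : ∀ g, g ∈ D'' ↔ σ⁻¹ * g * σ ∈ D')
    {f : (E ≃ₐ[ℚ_[q]] E) × (E ≃ₐ[ℚ_[q]] E) → unitsE E} (hf : IsCocOn (unitsE E) D' f) :
    (I.isInv (fixK E D'')).inv (inflClass I E D'' (conjC (unitsE E) σ f) (hf.conjC hD)) =
      (I.isInv (fixK E D')).inv (inflClass I E D' f hf) := by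
  obtain ⟨τ, rfl⟩ := resE_surjective E σ
  have hK : fixK E D'' = conjField (fixK E D') τ := fixK_conj τ hD
  have hτ : ∀ x ∈ fixK E D', τ x ∈ fixK E D'' := fun x hx => by
    rw [hK]; exact apply_mem_conjField hx
  have key := Transport.inv_pull₂ (I.cont_conj τ hτ) (isEquivar_conj τ hτ)
    (I.isInv (fixK E D')) (I.isInv (fixK E D''))
    (fun n t => chi_conjHom τ hK hτ n t) (fun a => vK_mapInvts_conj τ hK hτ a)
    ⟨infl₂ E (fixK E D') f, infl₂_mem_Z₂ (I.good (fixK E D')) (resE_mem D') hf⟩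
  refine Eq.trans ?_ key
  unfold inflClass
  congr 2
  apply Subtype.ext
  funext p
  show inclE E _ (conjC (unitsE E) (resE E τ) f (resE E (p.1 : Gq q), resE E (p.2 : Gq q))) =
    tauAct _ _ τ (inclE E _ (f (resE E ((conjHom τ hτ p.1 : GK _) : Gq q),
      resE E ((conjHom τ hτ p.2 : GK _) : Gq q))))
  rw [tauAct_inclE, conjC_apply, coe_conjHom, coe_conjHom]
  simp only [map_mul, map_inv]

/-- **the local system of invariants** of `E / ℚ_q`. -/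
noncomputable def locSysE : Sys (unitsE E) (AddCircle (1 : ℚ)) where
  S := locS I E
  congr D' f f' h := by
    by_cases hf : IsCocOn (unitsE E) D' f
    · have hf' : IsCocOn (unitsE E) D' f' := hf.congr h
      rw [locS_of_isCocOn I E hf, locS_of_isCocOn I E hf', inflClass_congr I E hf hf' h]
    · have hf' : ¬ IsCocOn (unitsE E) D' f' := fun h' =>
        hf (h'.congr fun g hg a ha => (h g hg a ha).symm)
      rw [locS_of_not_isCocOn I E hf, locS_of_not_isCocOn I E hf']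
  add D' f f' hf hf' := by
    rw [locS_of_isCocOn I E hf, locS_of_isCocOn I E hf', locS_of_isCocOn I E (hf.add hf'),
      inflClass_add I E hf hf', map_add]
  cob D' f hf := by
    rw [locS_of_isCocOn I E hf.isCocOn, inflClass_eq_zero_of_isCobOn I E hf, map_zero]
  res D'' D' hle f hf := by
    rw [locS_of_isCocOn I E hf, locS_of_isCocOn I E (hf.mono hle)]
    exact inv_inflClass_res I E hle hf
  conj D'' D' σ hD f hf := by
    rw [locS_of_isCocOn I E hf, locS_of_isCocOn I E (hf.conjC hD)]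
    exact inv_inflClass_conj I E σ hD hf

@[simp] theorem locSysE_S (D' : Subgroup (E ≃ₐ[ℚ_[q]] E))
    (f : (E ≃ₐ[ℚ_[q]] E) × (E ≃ₐ[ℚ_[q]] E) → unitsE E) :
    (locSysE I E).S D' f = locS I E D' f := rfl

end Sys

end Fermat.Agent.S55.UnrExt93
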