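import Fermat.Agent.S55.UnrExt93.BaseChange
import Fermat.Agent.S55.LocField17.Ord

/-!
# S55 moonshot, adapter 21c-RES-BRIDGE (helper93)

Bridge between the residue calculus of `UnrExt93` (`resCard q K` = cardinality of the image of
the unit ball of `K` in the residue field of `PadicAlgCl q`) and the local-field API of
`LocField17` (`intRing K`, `ramIdx h`, `resDeg h`).
-/

set_option autoImplicit false
set_option linter.style.haveILetI false
set_option linter.unusedSectionVars false

noncomputable section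

namespace Fermat.Agent.S55.UnrExt93

open Module IsLocalRing IntermediateField
open Fermat.Agent.S55.LocField17

variable {q : ℕ} [Fact q.Prime]

/-- reduction `𝒪_K → k_K ⊆ k_Ω`. -/
def redInt (K : LF q) : intRing K →+* resField q K where
  toFun x := ⟨red q ((x : K) : PadicAlgCl q), red_mem_resField (x : K).2 (norm_le_one x)⟩
  map_one' := Subtype.ext red_one
  map_mul' x y := Subtype.ext (red_mul (norm_le_one x) (norm_le_one y))
  map_zero' := Subtype.ext red_zero
  map_add' x y := Subtype.ext (red_add (norm_le_one x) (norm_le_one y))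

theorem redInt_surjective (K : LF q) : Function.Surjective (redInt K) := by
  rintro ⟨a, ha⟩
  obtain ⟨x, hxK, hx, rfl⟩ := mem_resField.1 ha
  exact ⟨⟨⟨x, hxK⟩, mem_intRing.2 hx⟩, rfl⟩

theorem ker_redInt (K : LF q) : RingHom.ker (redInt K) = maximalIdeal (intRing K) := by
  ext x
  rw [RingHom.mem_ker, LocField17.mem_maximalIdeal_iff, ← red_eq_zero_iff (norm_le_one x)]
  exact ⟨fun h => congrArg Subtype.val h, fun h => Subtype.ext h⟩

/-- (B1) `resCard` is the cardinality of the residue field of `LocField17.intRing`. -/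
theorem resCard_eq_card_residueField (K : LF q) :
    resCard q K = Nat.card (ResidueField (intRing K)) := by
  have e1 : (intRing K ⧸ RingHom.ker (redInt K)) ≃+* resField q K :=
    RingHom.quotientKerEquivOfSurjective (redInt_surjective K)
  have e2 : (intRing K ⧸ RingHom.ker (redInt K)) ≃+* ResidueField (intRing K) :=
    Ideal.quotEquivOfEq (ker_redInt K)
  unfold resCard
  exact Nat.card_congr (e1.symm.trans e2).toEquiv

variable {K L M : LF q} [FiniteDimensional ℚ_[q] K] [FiniteDimensional ℚ_[q] L]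
  [FiniteDimensional ℚ_[q] M]

/-- (B2) -/
theorem resCard_eq_pow_resDeg (h : K ≤ L) : resCard q L = resCard q K ^ resDeg h := by
  rw [resCard_eq_card_residueField, resCard_eq_card_residueField, card_residueField_eq_pow h]

/-- (B3) base change of the unramified tower, with `f = resDeg`. -/
theorem sup_unr_resDeg_mul (h : K ≤ L) (m : ℕ) : L ⊔ unr q K (resDeg h * m) = unr q L m :=
  sup_unr h (resCard_eq_pow_resDeg h) m

/-- (B3') `L · K_[L:K] = L_e` with `e = ramIdx`. -/
theorem sup_unr_finrank (h : K ≤ L) :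
    letI := relAlgebra h
    L ⊔ unr q K (finrank K L) = unr q L (ramIdx h) := by
  letI := relAlgebra h
  rw [finrank_rel_eq h, mul_comm]
  exact sup_unr_resDeg_mul h (ramIdx h)

/-- (B4) -/
theorem unr_le_iff_dvd_resDeg (h : K ≤ L) {n : ℕ} (hn : 0 < n) :
    unr q K n ≤ L ↔ n ∣ resDeg h :=
  unr_le_iff h hn (resCard_eq_pow_resDeg h)

/-! ### Tower multiplicativity of `ramIdx`, `resDeg` -/

/-- (B6) -/
theorem ramIdx_trans (h : K ≤ L) (h' : L ≤ M) :
    ramIdx (h.trans h') = ramIdx h * ramIdx h' := by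
  have h1 := unifNorm_eq_pow h
  have h2 := unifNorm_eq_pow h'
  have h3 := unifNorm_eq_pow (h.trans h')
  rw [h2, ← pow_mul] at h1
  rw [h1] at h3
  have hinj := pow_right_injective₀ (unifNorm_pos M) (unifNorm_lt_one M).ne
  rw [mul_comm]
  exact (hinj h3).symm

/-- (B6) -/
theorem resDeg_trans (h : K ≤ L) (h' : L ≤ M) :
    resDeg (h.trans h') = resDeg h * resDeg h' := by
  have h1 := resCard_eq_pow_resDeg h
  have h2 := resCard_eq_pow_resDeg h'
  have h3 := resCard_eq_pow_resDeg (h.trans h')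
  rw [h1, ← pow_mul] at h2
  rw [h2] at h3
  exact (Nat.pow_right_injective (one_lt_resCard K) h3).symm

/-- `finrank` for `relAlgebra` is `relfinrank`. -/
theorem finrank_rel_eq_relfinrank (h : K ≤ L) :
    letI := relAlgebra h
    finrank K L = K.relfinrank L := by
  letI := relAlgebra h
  haveI t3 : IsScalarTower ℚ_[q] K L := IsScalarTower.of_algebraMap_eq (fun _ => rfl)
  have h1 := Module.finrank_mul_finrank ℚ_[q] K L
  have h2 := IntermediateField.finrank_bot_mul_relfinrank h
  have h3 : 0 < finrank ℚ_[q] K := finrank_pos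
  exact Nat.eq_of_mul_eq_mul_left h3 (h1.trans h2.symm)

/-! ### `e` and `f` of the unramified layers -/

/-- (B5), flexible form: `L = K_n` has `f = n`, `e = 1`, `[L:K] = n`. -/
theorem ef_of_eq_unr (h : K ≤ L) {n : ℕ} (hn : 0 < n) (hL : L = unr q K n) :
    resDeg h = n ∧ ramIdx h = 1 ∧ (letI := relAlgebra h; finrank K L = n) := by
  letI := relAlgebra h
  have hf : resDeg h = n := by
    have h1 := resCard_eq_pow_resDeg h
    have h2 : resCard q L = resCard q K ^ n := by rw [hL]; exact resCard_unr hn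
    rw [h2] at h1
    exact (Nat.pow_right_injective (one_lt_resCard K) h1).symm
  have hd : finrank K L = n := by
    rw [finrank_rel_eq_relfinrank h, hL]
    exact relfinrank_unr hn
  refine ⟨hf, ?_, hd⟩
  have h3 := finrank_rel_eq h
  rw [hd, hf] at h3
  have : ramIdx h * n = 1 * n := by rw [one_mul]; exact h3.symm
  exact Nat.eq_of_mul_eq_mul_right hn this

/-- (B5) `f(K_n/K) = n`. -/
theorem resDeg_unr {n : ℕ} (hn : 0 < n) :
    haveI := finiteDimensional_unr (K := K) hn
    resDeg (le_unr K n) = n := by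
  haveI := finiteDimensional_unr (K := K) hn
  exact (ef_of_eq_unr (le_unr K n) hn rfl).1

/-- (B5) `e(K_n/K) = 1`. -/
theorem ramIdx_unr {n : ℕ} (hn : 0 < n) :
    haveI := finiteDimensional_unr (K := K) hn
    ramIdx (le_unr K n) = 1 := by
  haveI := finiteDimensional_unr (K := K) hn
  exact (ef_of_eq_unr (le_unr K n) hn rfl).2.1

/-- (B5) `[K_n:K] = n` for `relAlgebra`. -/
theorem finrank_rel_unr {n : ℕ} (hn : 0 < n) :
    haveI := finiteDimensional_unr (K := K) hn
    letI := relAlgebra (le_unr K n)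
    finrank K (unr q K n) = n := by
  haveI := finiteDimensional_unr (K := K) hn
  exact (ef_of_eq_unr (le_unr K n) hn rfl).2.2

/-- any subextension of an unramified layer is unramified. -/
theorem ramIdx_eq_one_of_le_unr (h : K ≤ L) {n : ℕ} (hn : 0 < n) (hL : L ≤ unr q K n) :
    ramIdx h = 1 := by
  haveI := finiteDimensional_unr (K := K) hn
  have h1 := ramIdx_trans h hL
  have h2 : ramIdx (h.trans hL) = 1 := (ef_of_eq_unr (h.trans hL) hn rfl).2.1
  rw [h2] at h1
  exact Nat.eq_one_of_mul_eq_one_right h1.symm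

/-- (B5) `L · K_n / L` is unramified (`M` is any name for `L ⊔ K_n`). -/
theorem ramIdx_sup_unr (h : K ≤ L) {n : ℕ} (hn : 0 < n) (h' : L ≤ M) (hM : M = L ⊔ unr q K n) :
    ramIdx h' = 1 := by
  have hfn : 0 < resDeg h * n := Nat.mul_pos (resDeg_pos h) hn
  have h1 : M ≤ unr q L n := by
    rw [hM, ← sup_unr_resDeg_mul h n]
    exact sup_le_sup_left (unr_mono (dvd_mul_left n (resDeg h))) L
  exact ramIdx_eq_one_of_le_unr h' hn h1

/-- (B6) `e(L·K_n / K_n) = e(L/K)`. -/
theorem ramIdx_unr_le_sup (h : K ≤ L) {n : ℕ} (hn : 0 < n) (h' : L ≤ M) (hM : M = L ⊔ unr q K n)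
    (h'' : unr q K n ≤ M) :
    haveI := finiteDimensional_unr (K := K) hn
    ramIdx h'' = ramIdx h := by
  haveI := finiteDimensional_unr (K := K) hn
  have h1 := ramIdx_trans h h'
  have h2 := ramIdx_trans (le_unr K n) h''
  rw [ramIdx_sup_unr h hn h' hM, mul_one] at h1
  rw [ramIdx_unr hn, one_mul] at h2
  rw [← h2, ← h1]

/-- (B8) for `n = [L:K]` and `M = L · K_n`: `[M:L] = e(L/K)`, `f(M/L) = e(L/K)`. -/
theorem ef_sup_unr_finrank (h : K ≤ L) (h' : L ≤ M)
    (hM : letI := relAlgebra h; M = L ⊔ unr q K (finrank K L)) :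
    resDeg h' = ramIdx h ∧ ramIdx h' = 1 ∧ (letI := relAlgebra h'; finrank L M = ramIdx h) := by
  have hM' : M = unr q L (ramIdx h) := by rw [hM]; exact sup_unr_finrank h
  exact ef_of_eq_unr h' (ramIdx_pos h) hM'

/-- (B7) the Frobenius of `L` restricted to `K_{f m}` is the `f`-th power of the Frobenius of `K`,
`f = resDeg`. -/
theorem frob_pow_resDeg (h : K ≤ L) {m : ℕ} (hm : 0 < m)
    {φ φ' : PadicAlgCl q ≃ₐ[ℚ_[q]] PadicAlgCl q} (hφK : φ ∈ K.fixingSubgroup)
    (hφ : ∀ z : PadicAlgCl q, z ^ (resCard q K ^ (resDeg h * m) - 1) = 1 → φ z = z ^ resCard q K)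
    (hφL : φ' ∈ L.fixingSubgroup)
    (hφ' : ∀ z : PadicAlgCl q, z ^ (resCard q L ^ m - 1) = 1 → φ' z = z ^ resCard q L)
    {x : PadicAlgCl q} (hx : x ∈ unr q K (resDeg h * m)) : φ' x = (φ ^ resDeg h) x :=
  frob_pow h (Nat.mul_pos (resDeg_pos h) hm) (resCard_eq_pow_resDeg h) hφK hφ hφL hφ' hx

end Fermat.Agent.S55.UnrExt93
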