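import Fermat.Agent.S55.LocField17.Ord

/-!
# S55 / 22b (helper93): the normalised valuation of `ℚ_q = ⊥` is the `q`-adic valuation

* `isUnif_bot_q`: `q` is a uniformizer of `⊥`; `unifNorm_bot : unifNorm ⊥ = q⁻¹`.
* `ord_bot_algebraMap (x : ℚ_[q]) : ord ⊥ (algebraMap x) = x.valuation`.
* `ord_bot_ratCast (b : ℚ) : ord ⊥ b = padicValRat q b`, and the same for any `K = ⊥`
  (`ord_ratCast_of_eq_bot`).
-/

set_option autoImplicit false
set_option linter.unusedSectionVars false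

namespace Fermat.Agent.S55.UnrExt93

open Fermat.Agent.S55.LocField17 IntermediateField

variable {q : ℕ} [Fact q.Prime]

/-- `q` as an element of `⊥ = ℚ_q ⊆ Ω`. -/
noncomputable def qBot : (⊥ : LF q) := algebraMap ℚ_[q] (⊥ : LF q) (q : ℚ_[q])

theorem coe_qBot : ((qBot : (⊥ : LF q)) : PadicAlgCl q) = ((q : ℚ_[q]) : PadicAlgCl q) := rfl

theorem norm_qBot : ‖((qBot : (⊥ : LF q)) : PadicAlgCl q)‖ = (q : ℝ)⁻¹ := by
  rw [coe_qBot, PadicAlgCl.norm_extends]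
  exact Padic.norm_p

theorem norm_le_inv_of_lt_one (x : ℚ_[q]) (hx : ‖x‖ < 1) : ‖x‖ ≤ (q : ℝ)⁻¹ := by
  by_cases h0 : x = 0
  · subst h0
    rw [norm_zero]
    positivity
  have hq1 : (1 : ℝ) < q := by exact_mod_cast (Fact.out : q.Prime).one_lt
  rw [Padic.norm_eq_zpow_neg_valuation h0] at hx ⊢
  have hv : 0 < x.valuation := by
    by_contra hcon
    have h1 : (1 : ℝ) ≤ (q : ℝ) ^ (-x.valuation) :=
      one_le_zpow₀ hq1.le (by omega)
    exact absurd hx (not_lt.2 h1)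
  rw [← zpow_neg_one]
  exact zpow_le_zpow_right₀ hq1.le (by omega)

/-- `q` is a uniformizer of `ℚ_q`. -/
theorem isUnif_bot_q : IsUnif (⊥ : LF q) qBot := by
  have hq0 : (0 : ℝ) < q := by exact_mod_cast (Fact.out : q.Prime).pos
  refine ⟨?_, ?_, ?_⟩
  · intro h
    have := congrArg (fun z : (⊥ : LF q) => ‖(z : PadicAlgCl q)‖) h
    simp only [norm_qBot] at this
    rw [ZeroMemClass.coe_zero, norm_zero] at this
    exact (inv_pos.2 hq0).ne' this
  · rw [norm_qBot]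
    have hq1 : (1 : ℝ) < q := by exact_mod_cast (Fact.out : q.Prime).one_lt
    exact inv_lt_one_of_one_lt₀ hq1
  · intro y hy
    obtain ⟨x, hx⟩ := IntermediateField.mem_bot.1 y.2
    rw [norm_qBot]
    rw [← hx, PadicAlgCl.norm_extends] at hy ⊢
    exact norm_le_inv_of_lt_one x hy

theorem unifNorm_bot : unifNorm (⊥ : LF q) = (q : ℝ)⁻¹ := by
  rw [← isUnif_bot_q.norm_eq, norm_qBot]

/-- `ord_{ℚ_q}` is the `q`-adic valuation. -/
theorem ord_bot_algebraMap (x : ℚ_[q]) :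
    ord (⊥ : LF q) (algebraMap ℚ_[q] (⊥ : LF q) x) = x.valuation := by
  by_cases h0 : x = 0
  · subst h0
    rw [map_zero, Padic.valuation_zero]
    simp [ord]
  have hne : algebraMap ℚ_[q] (⊥ : LF q) x ≠ 0 := by
    rw [Ne, map_eq_zero]
    exact h0
  rw [ord_eq_iff hne, unifNorm_bot]
  show ‖algebraMap ℚ_[q] (PadicAlgCl q) x‖ = _
  rw [PadicAlgCl.norm_extends, Padic.norm_eq_zpow_neg_valuation h0, inv_zpow', ]

/-- `ord_{ℚ_q}` of an element of `⊥` given by its value in `Ω`. -/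
theorem ord_bot_of_coe (y : (⊥ : LF q)) (x : ℚ_[q])
    (h : (y : PadicAlgCl q) = algebraMap ℚ_[q] (PadicAlgCl q) x) :
    ord (⊥ : LF q) y = x.valuation := by
  have : y = algebraMap ℚ_[q] (⊥ : LF q) x := Subtype.ext h
  rw [this, ord_bot_algebraMap]

/-- `ord_{ℚ_q} b = v_q(b)` for a rational number `b`. -/
theorem ord_bot_ratCast (b : ℚ) (hb : ((b : ℚ) : PadicAlgCl q) ∈ (⊥ : LF q)) :
    ord (⊥ : LF q) ⟨((b : ℚ) : PadicAlgCl q), hb⟩ = padicValRat q b := by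
  have h1 : ((b : ℚ) : PadicAlgCl q) = algebraMap ℚ_[q] (PadicAlgCl q) (b : ℚ_[q]) :=
    (map_ratCast (algebraMap ℚ_[q] (PadicAlgCl q)) b).symm
  rw [ord_bot_of_coe _ (b : ℚ_[q]) h1]
  exact Padic.valuation_ratCast b

/-- the same for any field `K` equal to `⊥` (e.g. `K = fixK E ⊤`). -/
theorem ord_ratCast_of_eq_bot {K : LF q} [FiniteDimensional ℚ_[q] K] (hK : K = ⊥) (b : ℚ)
    (hb : ((b : ℚ) : PadicAlgCl q) ∈ K) :
    ord K ⟨((b : ℚ) : PadicAlgCl q), hb⟩ = padicValRat q b := by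
  subst hK
  exact ord_bot_ratCast b hb

theorem ratCast_mem (K : LF q) (b : ℚ) : ((b : ℚ) : PadicAlgCl q) ∈ K := by
  have h1 : ((b : ℚ) : PadicAlgCl q) = algebraMap ℚ_[q] (PadicAlgCl q) (b : ℚ_[q]) :=
    (map_ratCast (algebraMap ℚ_[q] (PadicAlgCl q)) b).symm
  rw [h1]
  exact K.algebraMap_mem _

end Fermat.Agent.S55.UnrExt93
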