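import Fermat.Agent.S55.UnrExt93.FrobChar
import Fermat.Agent.S55.KummerBr86.Hilbert90Lim

/-!
# S55 / 22b-KER (helper93): the kernel criterion for the unramified classes

`K` a finite extension of `ℚ_q` inside `Ω = PadicAlgCl q`, `G_K = Gal(Ω/K)`, `A = Ωˣ` as a
`G_K`-module, `χ = frobChar K n` the Frobenius character of the unramified layer `K_n / K` and
`a ∈ Kˣ`.  The carry cocycle `δχ ∪ a` is the coboundary of a cochain which is constant modulo a
finite-index pointwise stabiliser **iff** `n ∣ ord_K a`.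

* `d_partialNorm_eq_carry`, `exists_norm_of_carry_eq_d`: abstract algebra (explicit forms of
  helper91's `carry_isCob₂_of_norm` / `exists_norm_of_carry_isCob₂`).
* `carry_eq_d_of_dvd_ord` (K1), `dvd_ord_of_carry_eq_d` (K2): the two directions.
* `H2π_carry_eq_zero_iff` (K3): packaged for any `Profin15.LevelStr` on `G_K` whose levels are
  pointwise stabilisers.
-/

set_option autoImplicit false
set_option linter.unusedSectionVars false

namespace Fermat.Agent.S55.UnrExt93

open Module IntermediateField Finset groupCohomology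
open Fermat.Agent.S55.LocField17 Fermat.Agent.S55.GlobalInv91

/-! ## Abstract algebra: explicit primitives -/

section Abstract

universe u

variable {k Γ : Type u} [CommRing k] [Group Γ] {C : Rep k Γ} {n : ℕ} [NeZero n]
  {χ : Γ →* Multiplicative (ZMod n)} {s : Γ}

/-- explicit form of `GlobalInv91.carry_isCob₂_of_norm`: the primitive is
`g ↦ ∑_{i < (χ g).val} s^i b`. -/
theorem rho_partialNorm_sub_add {b : C} (hs : chiVal χ s = 1)
    (hb : ∀ z : Γ, χ z = 1 → C.ρ z b = b) (g h : Γ) :
    C.ρ g (partialNorm C s b (chiVal χ h).val) - partialNorm C s b (chiVal χ (g * h)).val +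
      partialNorm C s b (chiVal χ g).val = carry C χ (partialNorm C s b n) (g, h) := by
  rw [carry_apply]
  have h1 := rho_partialNorm hs hb g (chiVal χ h).val
  have h2 := val_add_val n (chiVal χ g) (chiVal χ h)
  have h3 := partialNorm_add_mul hs hb (chiVal χ g + chiVal χ h).val
    (carryNat n (chiVal χ g) (chiVal χ h))
  rw [← h2] at h3
  rw [h3] at h1
  rw [chiVal_mul, sub_add_eq_add_sub, h1]
  abel

theorem d_partialNorm_eq_carry {b : C} (hs : chiVal χ s = 1)
    (hb : ∀ z : Γ, χ z = 1 → C.ρ z b = b) :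
    (d₁₂ C).hom (fun g => partialNorm C s b (chiVal χ g).val) =
      carry C χ (partialNorm C s b n) := by
  funext p
  rw [d₁₂_hom_apply]
  exact rho_partialNorm_sub_add hs hb p.1 p.2

/-- explicit form of `GlobalInv91.exists_norm_of_carry_isCob₂`: only the given primitive `x` has
to be a coboundary on `ker χ`. -/
theorem exists_norm_of_carry_eq_d {a : C} {x : Γ → C} (hs : chiVal χ s = 1)
    (ha : ∀ g : Γ, C.ρ g a = a)
    (hx : ∀ g h : Γ, C.ρ g (x h) - x (g * h) + x g = carry C χ a (g, h))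
    (hy : ∃ y : C, ∀ z : Γ, χ z = 1 → x z = C.ρ z y - y) :
    ∃ b : C, (∀ z : Γ, χ z = 1 → C.ρ z b = b) ∧ a = partialNorm C s b n := by
  by_cases hn : n = 1
  · subst hn
    refine ⟨a, fun z _ => ha z, ?_⟩
    simp [partialNorm]
  simp only [carry_apply] at hx
  have hker : ∀ z : Γ, χ z = 1 → chiVal χ z = 0 := fun z hz => by
    show Multiplicative.toAdd (χ z) = 0
    rw [hz]; rfl
  obtain ⟨y, hy⟩ := hy
  set x' : Γ → C := fun g => x g - (C.ρ g y - y) with hx'def
  have hx' : ∀ g h : Γ, C.ρ g (x' h) - x' (g * h) + x' g =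
      carryNat n (chiVal χ g) (chiVal χ h) • a := by
    intro g h
    rw [← hx g h]
    simp only [hx'def, map_sub, map_mul, Module.End.mul_apply]
    abel
  have hx'Z : ∀ z : Γ, χ z = 1 → x' z = 0 := by
    intro z hz
    have := hy z hz
    simp only [hx'def]
    rw [sub_eq_zero]
    exact this
  have h3a : ∀ g z : Γ, χ z = 1 → x' (g * z) = x' g := by
    intro g z hz
    have := hx' g z
    rw [hker z hz, carryNat_zero_right, zero_smul, hx'Z z hz, map_zero, zero_sub,
      neg_add_eq_zero] at this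
    exact this
  have h3b : ∀ z g : Γ, χ z = 1 → x' (z * g) = C.ρ z (x' g) := by
    intro z g hz
    have := hx' z g
    rw [hker z hz, carryNat_zero_left, zero_smul, hx'Z z hz, add_zero, sub_eq_zero] at this
    exact this.symm
  have h4 : ∀ z g : Γ, χ z = 1 → C.ρ z (x' g) = x' g := by
    intro z g hz
    rw [← h3b z g hz]
    have hconj : χ (g⁻¹ * z * g) = 1 := by
      rw [map_mul, map_mul, hz, mul_one, map_inv, inv_mul_cancel]
    have : z * g = g * (g⁻¹ * z * g) := by group
    rw [this, h3a g _ hconj]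
  refine ⟨x' s, fun z hz => h4 z s hz, ?_⟩
  have hsum : ∑ i ∈ Finset.range n, (C.ρ (s ^ i) (x' s) - x' (s ^ i * s) + x' (s ^ i)) =
      ∑ i ∈ Finset.range n, carryNat n ((i : ℕ) : ZMod n) 1 • a := by
    refine Finset.sum_congr rfl fun i _ => ?_
    rw [hx' (s ^ i) s, chiVal_pow hs, hs]
  rw [← Finset.sum_smul, sum_carryNat_natCast_one hn, one_smul] at hsum
  rw [← hsum]
  have htel : ∑ i ∈ Finset.range n, (x' (s ^ i) - x' (s ^ i * s)) = x' (s ^ 0) - x' (s ^ n) := by
    have := Finset.sum_range_sub' (fun i => x' (s ^ i)) n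
    simp only [pow_succ] at this
    exact this
  have hsn : χ (s ^ n) = 1 := by
    have : chiVal χ (s ^ n) = 0 := by rw [chiVal_pow hs]; exact ZMod.natCast_self n
    exact this
  have e1 : ∑ i ∈ Finset.range n, (C.ρ (s ^ i) (x' s) - x' (s ^ i * s) + x' (s ^ i)) =
      partialNorm C s (x' s) n + ∑ i ∈ Finset.range n, (x' (s ^ i) - x' (s ^ i * s)) := by
    unfold partialNorm
    rw [← Finset.sum_add_distrib]
    refine Finset.sum_congr rfl fun i _ => ?_
    abel
  rw [e1, htel, pow_zero, hx'Z 1 (map_one χ), hx'Z _ hsn, sub_zero, add_zero]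

end Abstract

/-! ## The module `Ωˣ` of `Gal(Ω/K)` -/

variable {q : ℕ} [Fact q.Prime]

/-- `Ωˣ` as a representation of `Gal(Ω/K)`. -/
noncomputable abbrev unitsRepK (K : LF q) : Rep ℤ ↥K.fixingSubgroup :=
  Rep.res K.fixingSubgroup.subtype (Rep.ofAlgebraAutOnUnits ℚ_[q] (PadicAlgCl q))

section Dict

variable {K : LF q}

/-- multiplicative reading of an element of the module. -/
def toU (x : unitsRepK K) : (PadicAlgCl q)ˣ := Additive.toMul (x : Additive (PadicAlgCl q)ˣ)

/-- additive reading of a unit. -/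
def ofU (K : LF q) (u : (PadicAlgCl q)ˣ) : unitsRepK K :=
  (Additive.ofMul u : Additive (PadicAlgCl q)ˣ)

@[simp] theorem toU_ofU (u : (PadicAlgCl q)ˣ) : toU (ofU K u) = u := rfl

@[simp] theorem ofU_toU (x : unitsRepK K) : ofU K (toU x) = x := rfl

theorem toU_injective : Function.Injective (toU (K := K)) := fun _ _ h => h

theorem toU_add (x y : unitsRepK K) : toU (x + y) = toU x * toU y := rfl

theorem toU_zero : toU (0 : unitsRepK K) = 1 := rfl

theorem toU_sub (x y : unitsRepK K) : toU (x - y) = toU x / toU y := rfl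

theorem toU_rho (g : ↥K.fixingSubgroup) (x : unitsRepK K) :
    toU ((unitsRepK K).ρ g x) = Units.map ((g : Gq q) : PadicAlgCl q →* PadicAlgCl q) (toU x) :=
  rfl

theorem coe_toU_rho (g : ↥K.fixingSubgroup) (x : unitsRepK K) :
    ((toU ((unitsRepK K).ρ g x) : (PadicAlgCl q)ˣ) : PadicAlgCl q) =
      (g : Gq q) ((toU x : (PadicAlgCl q)ˣ) : PadicAlgCl q) := rfl

theorem toU_sum {ι : Type*} (s : Finset ι) (f : ι → unitsRepK K) :
    toU (∑ i ∈ s, f i) = ∏ i ∈ s, toU (f i) := by
  classical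
  induction s using Finset.induction_on with
  | empty => rfl
  | insert i s hi ih => rw [Finset.sum_insert hi, Finset.prod_insert hi, toU_add, ih]

/-- the class of `a ∈ Kˣ` in the module. -/
noncomputable def unitK {a : K} (ha : a ≠ 0) : unitsRepK K :=
  ofU K (Units.mk0 (a : PadicAlgCl q) (fun h => ha (Subtype.ext h)))

@[simp] theorem coe_toU_unitK {a : K} (ha : a ≠ 0) :
    ((toU (unitK ha) : (PadicAlgCl q)ˣ) : PadicAlgCl q) = (a : PadicAlgCl q) := rfl

theorem rho_unitK {a : K} (ha : a ≠ 0) (g : ↥K.fixingSubgroup) :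
    (unitsRepK K).ρ g (unitK ha) = unitK ha := by
  apply toU_injective
  apply Units.ext
  rw [coe_toU_rho, coe_toU_unitK]
  exact (IntermediateField.mem_fixingSubgroup_iff _ _).1 g.2 _ a.2

theorem coe_toU_partialNorm (s : ↥K.fixingSubgroup) (b : unitsRepK K) (m : ℕ) :
    ((toU (partialNorm (unitsRepK K) s b m) : (PadicAlgCl q)ˣ) : PadicAlgCl q) =
      ∏ i ∈ range m, ((s : Gq q) ^ i) ((toU b : (PadicAlgCl q)ˣ) : PadicAlgCl q) := by
  unfold partialNorm
  rw [toU_sum, Units.coe_prod]
  refine Finset.prod_congr rfl fun i _ => ?_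
  rw [coe_toU_rho]
  rfl

end Dict

/-! ## The kernel criterion -/

section Criterion

variable {K : LF q} [FiniteDimensional ℚ_[q] K] {n : ℕ} [NeZero n]

/-- an element of the module fixed by `ker χ_{K,n}` lies in `K_n`. -/
theorem coe_toU_mem_unr {b : unitsRepK K}
    (hb : ∀ z : ↥K.fixingSubgroup, frobChar K n z = 1 → (unitsRepK K).ρ z b = b) :
    ((toU b : (PadicAlgCl q)ˣ) : PadicAlgCl q) ∈ unr q K n := by
  apply mem_of_fixed
  intro s hs
  have hsK : s ∈ K.fixingSubgroup :=
    IntermediateField.fixingSubgroup_antitone (le_unr K n) hs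
  have h1 : frobChar K n ⟨s, hsK⟩ = 1 :=
    (frobChar_eq_one_iff _).2 fun x hx => (IntermediateField.mem_fixingSubgroup_iff _ _).1 hs x hx
  have := congrArg (fun y => ((toU y : (PadicAlgCl q)ˣ) : PadicAlgCl q)) (hb ⟨s, hsK⟩ h1)
  exact this

theorem rho_eq_of_mem_unr {b : unitsRepK K}
    (hb : ((toU b : (PadicAlgCl q)ˣ) : PadicAlgCl q) ∈ unr q K n)
    (z : ↥K.fixingSubgroup) (hz : frobChar K n z = 1) : (unitsRepK K).ρ z b = b := by
  apply toU_injective
  apply Units.ext
  rw [coe_toU_rho]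
  exact (frobChar_eq_one_iff z).1 hz _ hb

/-- (K1) if `n ∣ ord_K a`, the carry cocycle `δχ_{K,n} ∪ a` is the coboundary of a cochain that
factors through `χ_{K,n}`. -/
theorem carry_eq_d_of_dvd_ord {a : K} (ha : a ≠ 0) (h : (n : ℤ) ∣ ord K a) :
    ∃ F : ZMod n → unitsRepK K,
      (d₁₂ (unitsRepK K)).hom (fun g => F (chiVal (frobChar K n) g)) =
        carry (unitsRepK K) (frobChar K n) (unitK ha) := by
  have hn : 0 < n := Nat.pos_of_ne_zero (NeZero.ne n)
  obtain ⟨φ, hφK, hφ, -⟩ := exists_frob (K := K) hn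
  obtain ⟨b, hbK, hb0, hprod⟩ := (exists_norm_iff_dvd_ord hn hφK hφ ha).2 h
  set bU : unitsRepK K := ofU K (Units.mk0 b hb0) with hbU
  have hs : chiVal (frobChar K n) ⟨φ, hφK⟩ = 1 := frobChar_frob hφK hφ
  have hfix : ∀ z : ↥K.fixingSubgroup, frobChar K n z = 1 → (unitsRepK K).ρ z bU = bU :=
    fun z hz => rho_eq_of_mem_unr (b := bU) hbK z hz
  have hnorm : partialNorm (unitsRepK K) ⟨φ, hφK⟩ bU n = unitK ha := by
    apply toU_injective
    apply Units.ext
    rw [coe_toU_partialNorm, coe_toU_unitK, ← hprod]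
    rfl
  refine ⟨fun v => partialNorm (unitsRepK K) ⟨φ, hφK⟩ bU v.val, ?_⟩
  rw [← hnorm]
  exact d_partialNorm_eq_carry hs hfix

/-- (K2) if the carry cocycle `δχ_{K,n} ∪ a` is the coboundary of a cochain which is constant
modulo a finite-index subgroup that is a pointwise stabiliser, then `n ∣ ord_K a`. -/
theorem dvd_ord_of_carry_eq_d {a : K} (ha : a ≠ 0) (x : ↥K.fixingSubgroup → unitsRepK K)
    (hx : (d₁₂ (unitsRepK K)).hom x = carry (unitsRepK K) (frobChar K n) (unitK ha))
    (V : Subgroup ↥K.fixingSubgroup) [V.FiniteIndex] (T : Set (PadicAlgCl q))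
    (hT : ∀ s : ↥K.fixingSubgroup, s ∈ V ↔ ∀ t ∈ T, (s : Gq q) t = t)
    (hconst : ∀ g s, s ∈ V → x (g * s) = x g) : (n : ℤ) ∣ ord K a := by
  have hn : 0 < n := Nat.pos_of_ne_zero (NeZero.ne n)
  obtain ⟨φ, hφK, hφ, -⟩ := exists_frob (K := K) hn
  have hs : chiVal (frobChar K n) ⟨φ, hφK⟩ = 1 := frobChar_frob hφK hφ
  have hx' : ∀ g h : ↥K.fixingSubgroup, (unitsRepK K).ρ g (x h) - x (g * h) + x g =
      carry (unitsRepK K) (frobChar K n) (unitK ha) (g, h) := by
    intro g h
    have := congrFun hx (g, h)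
    rw [d₁₂_hom_apply] at this
    exact this
  -- Hilbert 90 on `ker χ`
  have hy : ∃ y : unitsRepK K, ∀ z : ↥K.fixingSubgroup, frobChar K n z = 1 →
      x z = (unitsRepK K).ρ z y - y := by
    set N : Subgroup ↥K.fixingSubgroup := (frobChar K n).ker with hN
    let f : ↥N →* (PadicAlgCl q ≃ₐ[ℚ_[q]] PadicAlgCl q) :=
      K.fixingSubgroup.subtype.comp N.subtype
    have hker : ∀ z : ↥K.fixingSubgroup, frobChar K n z = 1 → chiVal (frobChar K n) z = 0 :=
      fun z hz => by
        show Multiplicative.toAdd (frobChar K n z) = 0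
        rw [hz]; rfl
    obtain ⟨b, hb⟩ := KummerBr86.Hilbert90Lim.exists_units_of_cocycle (K₀ := ℚ_[q]) f
      (V.subgroupOf N) (fun z : ↥N => toU (x (z : ↥K.fixingSubgroup))) T
      (fun z => by
        rw [Subgroup.mem_subgroupOf, hT]
        rfl)
      (fun z w => by
        have := hx' (z : ↥K.fixingSubgroup) (w : ↥K.fixingSubgroup)
        rw [carry_apply, hker _ z.2, carryNat_zero_left, zero_smul, sub_add_eq_add_sub,
          sub_eq_zero] at this
        have h2 := congrArg toU this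
        rw [toU_add, toU_rho] at h2
        rw [mul_comm]
        exact h2.symm)
      (fun g z hz => by
        have := hconst (g : ↥K.fixingSubgroup) (z : ↥K.fixingSubgroup) hz
        exact congrArg toU this)
    refine ⟨ofU K b, fun z hz => ?_⟩
    apply toU_injective
    rw [toU_sub, toU_rho, toU_ofU]
    exact hb ⟨z, hz⟩
  obtain ⟨b, hbfix, hab⟩ := exists_norm_of_carry_eq_d (s := ⟨φ, hφK⟩) hs
    (fun g => rho_unitK ha g) hx' hy
  refine (exists_norm_iff_dvd_ord hn hφK hφ ha).1
    ⟨((toU b : (PadicAlgCl q)ˣ) : PadicAlgCl q), coe_toU_mem_unr hbfix, (toU b).ne_zero, ?_⟩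
  have := congrArg (fun y => ((toU y : (PadicAlgCl q)ˣ) : PadicAlgCl q)) hab
  simp only [coe_toU_unitK, coe_toU_partialNorm] at this
  exact this.symm

end Criterion

end Fermat.Agent.S55.UnrExt93
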