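import Fermat.Agent.S55.UnrExt93.KerCrit
import Fermat.Agent.S55.LocInv28.Abstract
import Fermat.Agent.S55.Profin15.Global

/-!
# S55 / 22b-KER (helper93): the `ker` field of helper28's `IsLocalInv` for the `LF q` model

* `LevelsAreStabilisers 𝒰`: every level of `𝒰 : LevelStr Gal(Ω/K)` is a pointwise stabiliser.
* `H2π_carry_eq_zero_iff` (K3): `[δχ_{K,n} ∪ a] = 0` in `𝒰.H2 Ωˣ` iff `n ∣ ord_K a`.
* `ordInv K : (Ωˣ)^{G_K} →+ ℤ`, `frobDatum 𝒰 hχ : InvDatum 𝒰 (unitsRepK K)` and `frobDatum_ker`.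
* `galLevels K`: the level structure of fixing subgroups of finite `G_K`-stable `M ≥ K`, with
  `levelsAreStabilisers_galLevels` and `frobChar_level_galLevels`; `galDatum K`, `galDatum_ker`.
-/

set_option autoImplicit false
set_option linter.unusedSectionVars false

namespace Fermat.Agent.S55.UnrExt93

open Module IntermediateField Finset groupCohomology
open Fermat.Agent.S55.LocField17 Fermat.Agent.S55.GlobalInv91 Fermat.Agent.S55.Profin15
open Fermat.Agent.S55.LocInv28.Abstract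

variable {q : ℕ} [Fact q.Prime]

/-- every level is a pointwise stabiliser. -/
def LevelsAreStabilisers {K : LF q} (𝒰 : LevelStr ↥K.fixingSubgroup) : Prop :=
  ∀ U ∈ 𝒰.levels, ∃ T : Set (PadicAlgCl q),
    ∀ s : ↥K.fixingSubgroup, s ∈ U ↔ ∀ t ∈ T, (s : Gq q) t = t

section K3

variable {K : LF q} [FiniteDimensional ℚ_[q] K] {n : ℕ} [NeZero n]

/-- (K3) **the kernel criterion**: the class of `δχ_{K,n} ∪ a` vanishes iff `n ∣ ord_K a`. -/
theorem H2π_carry_eq_zero_iff (𝒰 : LevelStr ↥K.fixingSubgroup) (hlev : LevelsAreStabilisers 𝒰)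
    (hχ : ∃ U ∈ 𝒰.levels, ∀ s ∈ U, frobChar K n s = 1) {a : K} (ha : a ≠ 0)
    (hmem : carry (unitsRepK K) (frobChar K n) (unitK ha) ∈ 𝒰.Z₂ (unitsRepK K)) :
    𝒰.H2π (unitsRepK K) ⟨carry (unitsRepK K) (frobChar K n) (unitK ha), hmem⟩ = 0 ↔
      (n : ℤ) ∣ ord K a := by
  rw [LevelStr.H2π_eq_zero_iff, LevelStr.mem_B₂_iff]
  constructor
  · rintro ⟨x, ⟨U, hU, hconst⟩, hd⟩
    obtain ⟨T, hT⟩ := hlev U hU
    haveI := 𝒰.finiteIndex U hU
    exact dvd_ord_of_carry_eq_d ha x hd U T hT hconst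
  · intro h
    obtain ⟨F, hF⟩ := carry_eq_d_of_dvd_ord (n := n) ha h
    exact ⟨_, isConst₁_of_char 𝒰 (frobChar K n) hχ F, hF⟩

end K3

/-! ## The valuation on the invariants and the Frobenius datum -/

section Datum

variable (K : LF q) [FiniteDimensional ℚ_[q] K]

theorem coe_toU_mem_of_invts (b : invts (unitsRepK K)) :
    ((toU (b : unitsRepK K) : (PadicAlgCl q)ˣ) : PadicAlgCl q) ∈ K := by
  apply mem_of_fixed
  intro s hs
  have := congrArg (fun y => ((toU y : (PadicAlgCl q)ˣ) : PadicAlgCl q)) (b.2 ⟨s, hs⟩)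
  exact this

/-- the element of `K` underlying an invariant. -/
noncomputable def invtsElt (b : invts (unitsRepK K)) : K :=
  ⟨((toU (b : unitsRepK K) : (PadicAlgCl q)ˣ) : PadicAlgCl q), coe_toU_mem_of_invts K b⟩

theorem invtsElt_ne_zero (b : invts (unitsRepK K)) : invtsElt K b ≠ 0 := fun h =>
  (toU (b : unitsRepK K)).ne_zero (congrArg Subtype.val h)

theorem unitK_invtsElt (b : invts (unitsRepK K)) :
    unitK (invtsElt_ne_zero K b) = (b : unitsRepK K) := by
  apply toU_injective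
  apply Units.ext
  rfl

/-- `a ∈ Kˣ` as an invariant. -/
noncomputable def unitInv {a : K} (ha : a ≠ 0) : invts (unitsRepK K) :=
  ⟨unitK ha, fun g => rho_unitK ha g⟩

@[simp] theorem coe_unitInv {a : K} (ha : a ≠ 0) :
    ((unitInv K ha : invts (unitsRepK K)) : unitsRepK K) = unitK ha := rfl

@[simp] theorem invtsElt_unitInv {a : K} (ha : a ≠ 0) : invtsElt K (unitInv K ha) = a :=
  Subtype.ext rfl

/-- the normalised valuation on `(Ωˣ)^{G_K} = Kˣ`. -/
noncomputable def ordInv : invts (unitsRepK K) →+ ℤ where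
  toFun b := ord K (invtsElt K b)
  map_zero' := by
    have : invtsElt K 0 = 1 := Subtype.ext rfl
    rw [this, ord_one]
  map_add' b c := by
    have : invtsElt K (b + c) = invtsElt K b * invtsElt K c := Subtype.ext rfl
    rw [this, ord_mul (invtsElt_ne_zero K b) (invtsElt_ne_zero K c)]

theorem ordInv_apply (b : invts (unitsRepK K)) : ordInv K b = ord K (invtsElt K b) := rfl

@[simp] theorem ordInv_unitInv {a : K} (ha : a ≠ 0) : ordInv K (unitInv K ha) = ord K a := by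
  rw [ordInv_apply, invtsElt_unitInv]

theorem ordInv_surjective : Function.Surjective (ordInv K) := by
  intro m
  have h0 : (unif K) ^ m ≠ 0 := zpow_ne_zero m (isUnif_unif K).1
  exact ⟨unitInv K h0, by rw [ordInv_unitInv, ord_unif_zpow]⟩

variable {K}

/-- **the Frobenius datum** of `K`: `χ_n = frobChar K n`, `v = ord_K`. -/
noncomputable def frobDatum (𝒰 : LevelStr ↥K.fixingSubgroup)
    (hχ : ∀ n : ℕ+, ∃ U ∈ 𝒰.levels, ∀ s ∈ U, frobChar K n s = 1) :
    InvDatum 𝒰 (unitsRepK K) where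
  chi n := frobChar K n
  v := ordInv K
  chi_level := hχ
  chi_compat n m g h := frobChar_compat h g

@[simp] theorem frobDatum_chi (𝒰 : LevelStr ↥K.fixingSubgroup)
    (hχ : ∀ n : ℕ+, ∃ U ∈ 𝒰.levels, ∀ s ∈ U, frobChar K n s = 1) (n : ℕ+) :
    (frobDatum 𝒰 hχ).chi n = frobChar K n := rfl

@[simp] theorem frobDatum_v (𝒰 : LevelStr ↥K.fixingSubgroup)
    (hχ : ∀ n : ℕ+, ∃ U ∈ 𝒰.levels, ∀ s ∈ U, frobChar K n s = 1) :
    (frobDatum 𝒰 hχ).v = ordInv K := rfl

/-- **the `ker` field of `IsLocalInv`** for the Frobenius datum. -/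
theorem frobDatum_ker (𝒰 : LevelStr ↥K.fixingSubgroup) (hlev : LevelsAreStabilisers 𝒰)
    (hχ : ∀ n : ℕ+, ∃ U ∈ 𝒰.levels, ∀ s ∈ U, frobChar K n s = 1)
    (n : ℕ+) (a : invts (unitsRepK K)) :
    (frobDatum 𝒰 hχ).cls n a = 0 ↔ ((n : ℕ) : ℤ) ∣ (frobDatum 𝒰 hχ).v a := by
  have ha := invtsElt_ne_zero K a
  have e : (a : unitsRepK K) = unitK ha := (unitK_invtsElt K a).symm
  have hmem : carry (unitsRepK K) (frobChar K n) (unitK ha) ∈ 𝒰.Z₂ (unitsRepK K) := by
    rw [← e]
    exact ((frobDatum 𝒰 hχ).carryZ n a).2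
  have h1 : (frobDatum 𝒰 hχ).cls n a =
      𝒰.H2π (unitsRepK K) ⟨carry (unitsRepK K) (frobChar K n) (unitK ha), hmem⟩ := by
    rw [InvDatum.cls_apply]
    congr 1
    apply Subtype.ext
    show carry (unitsRepK K) (frobChar K n) (a : unitsRepK K) = _
    rw [e]
  rw [h1, H2π_carry_eq_zero_iff 𝒰 hlev (hχ n) ha hmem]
  rfl

end Datum

/-! ## The level structure of finite stable extensions -/

section Levels

variable (K : LF q) [FiniteDimensional ℚ_[q] K]

/-- `M` is a finite extension of `K` stable under `Gal(Ω/K)`. -/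
def IsGalLevel (M : LF q) : Prop :=
  FiniteDimensional ℚ_[q] M ∧ K ≤ M ∧ ∀ σ ∈ K.fixingSubgroup, ∀ x ∈ M, σ x ∈ M

/-- the open normal subgroup `Gal(Ω/M) ≤ Gal(Ω/K)`. -/
noncomputable def galLevel (M : LF q) : Subgroup ↥K.fixingSubgroup := M.fixingSubgroup.subgroupOf K.fixingSubgroup

variable {K}

theorem mem_galLevel {M : LF q} {s : ↥K.fixingSubgroup} :
    s ∈ galLevel K M ↔ ∀ x ∈ M, (s : Gq q) x = x := by
  rw [galLevel, Subgroup.mem_subgroupOf, IntermediateField.mem_fixingSubgroup_iff]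

theorem isGalLevel_self : IsGalLevel K K := ⟨inferInstance, le_rfl, fun σ hσ x hx => by
  rw [(IntermediateField.mem_fixingSubgroup_iff _ _).1 hσ x hx]; exact hx⟩

theorem isGalLevel_unr {n : ℕ} (hn : 0 < n) : IsGalLevel K (unr q K n) :=
  ⟨finiteDimensional_unr hn, le_unr K n, fun σ hσ _ hx => stable (K := K) n σ hσ hx⟩

theorem IsGalLevel.sup {M M' : LF q} (h : IsGalLevel K M) (h' : IsGalLevel K M') :
    IsGalLevel K (M ⊔ M') := by
  obtain ⟨hf, hle, hst⟩ := h
  obtain ⟨hf', -, hst'⟩ := h'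
  refine ⟨IntermediateField.finiteDimensional_sup M M', hle.trans le_sup_left, fun σ hσ => ?_⟩
  have hle2 : M ⊔ M' ≤ (M ⊔ M').comap (σ : PadicAlgCl q →ₐ[ℚ_[q]] PadicAlgCl q) := by
    refine sup_le ?_ ?_
    · intro y hy
      show σ y ∈ M ⊔ M'
      exact (le_sup_left : M ≤ M ⊔ M') (hst σ hσ y hy)
    · intro y hy
      show σ y ∈ M ⊔ M'
      exact (le_sup_right : M' ≤ M ⊔ M') (hst' σ hσ y hy)
  exact fun x hx => hle2 hx

theorem galLevel_normal {M : LF q} (h : IsGalLevel K M) : (galLevel K M).Normal := by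
  refine ⟨fun s hs g => ?_⟩
  rw [mem_galLevel] at hs ⊢
  intro x hx
  have hx' : ((g⁻¹ : ↥K.fixingSubgroup) : Gq q) x ∈ M := h.2.2 _ (g⁻¹).2 x hx
  show (g : Gq q) ((s : Gq q) (((g⁻¹ : ↥K.fixingSubgroup) : Gq q) x)) = x
  rw [hs _ hx']
  show ((g : Gq q) * ((g⁻¹ : ↥K.fixingSubgroup) : Gq q)) x = x
  rw [← Subgroup.coe_mul, mul_inv_cancel]
  rfl

theorem galLevel_finiteIndex {M : LF q} (h : IsGalLevel K M) : (galLevel K M).FiniteIndex := by
  haveI := h.1
  haveI : M.fixingSubgroup.FiniteIndex := fixingSubgroup_finiteIndex M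
  exact Subgroup.instFiniteIndex_subgroupOf _ _

theorem galLevel_sup (M M' : LF q) : galLevel K (M ⊔ M') = galLevel K M ⊓ galLevel K M' := by
  ext s
  simp only [Subgroup.mem_inf, mem_galLevel]
  constructor
  · intro h
    exact ⟨fun x hx => h x ((le_sup_left : M ≤ M ⊔ M') hx),
      fun x hx => h x ((le_sup_right : M' ≤ M ⊔ M') hx)⟩
  · rintro ⟨h1, h2⟩
    have : s.1 ∈ (M ⊔ M').fixingSubgroup := by
      rw [IntermediateField.fixingSubgroup_sup]
      exact ⟨(IntermediateField.mem_fixingSubgroup_iff _ _).2 h1,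
        (IntermediateField.mem_fixingSubgroup_iff _ _).2 h2⟩
    exact (IntermediateField.mem_fixingSubgroup_iff _ _).1 this

variable (K)

/-- **the level structure of `Gal(Ω/K)`**: fixing subgroups of the finite `G_K`-stable `M ≥ K`. -/
noncomputable def galLevels : LevelStr ↥K.fixingSubgroup where
  levels := {U | ∃ M : LF q, IsGalLevel K M ∧ U = galLevel K M}
  nonempty := ⟨galLevel K K, K, isGalLevel_self, rfl⟩
  normal := by
    rintro U ⟨M, hM, rfl⟩
    exact galLevel_normal hM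
  finiteIndex := by
    rintro U ⟨M, hM, rfl⟩
    exact galLevel_finiteIndex hM
  directed := by
    rintro U ⟨M, hM, rfl⟩ V ⟨M', hM', rfl⟩
    exact ⟨galLevel K (M ⊔ M'), ⟨M ⊔ M', hM.sup hM', rfl⟩, (galLevel_sup M M').le⟩

variable {K}

theorem mem_galLevels_iff {U : Subgroup ↥K.fixingSubgroup} :
    U ∈ (galLevels K).levels ↔ ∃ M : LF q, IsGalLevel K M ∧ U = galLevel K M := Iff.rfl

theorem galLevel_mem_galLevels {M : LF q} (h : IsGalLevel K M) :
    galLevel K M ∈ (galLevels K).levels := ⟨M, h, rfl⟩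

theorem levelsAreStabilisers_galLevels : LevelsAreStabilisers (galLevels K) := by
  rintro U ⟨M, -, rfl⟩
  exact ⟨(M : Set (PadicAlgCl q)), fun s => mem_galLevel⟩

theorem frobChar_level_galLevels (n : ℕ+) :
    ∃ U ∈ (galLevels K).levels, ∀ s ∈ U, frobChar K n s = 1 :=
  ⟨galLevel K (unr q K n), galLevel_mem_galLevels (isGalLevel_unr n.pos), fun s hs =>
    (frobChar_eq_one_iff s).2 (mem_galLevel.1 hs)⟩

variable (K)

/-- the Frobenius datum of `K` for `galLevels K`. -/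
noncomputable def galDatum : InvDatum (galLevels K) (unitsRepK K) :=
  frobDatum (galLevels K) frobChar_level_galLevels

/-- the `ker` field of `IsLocalInv (galDatum K)`. -/
theorem galDatum_ker (n : ℕ+) (a : invts (unitsRepK K)) :
    (galDatum K).cls n a = 0 ↔ ((n : ℕ) : ℤ) ∣ (galDatum K).v a :=
  frobDatum_ker (galLevels K) levelsAreStabilisers_galLevels frobChar_level_galLevels n a

/-- `IsLocalInv (galDatum K)` from `pres` alone. -/
theorem isLocalInv_galDatum_of_pres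
    (pres : ∀ x : (galLevels K).H2 (unitsRepK K), ∃ (n : ℕ+) (a : invts (unitsRepK K)),
      x = (galDatum K).cls n a) : IsLocalInv (galLevels K) (unitsRepK K) (galDatum K) :=
  ⟨pres, galDatum_ker K⟩

end Levels

end Fermat.Agent.S55.UnrExt93
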