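import Fermat.Agent.S55.UnrExt93.LocSys

/-!
# S55 / 22b-SYS (helper93): evaluation of the local system on carry cocycles, injectivity

* `isCocOn_carry`: the carry cochain of a character of `D` and a `D'`-invariant element is a
  cocycle on `D'`.
* `locS_carry` (L1): `S D' (carry χ b) = c * ord_{K'} b / n` if `χ ∘ res = c · χ_{K',n}` on `G_{K'}`,
  `K' = E^{D'}`; `locS_carry_of_eq` the same with `K'` replaced by any `K = E^{D'}`;
  `fixK_top : fixK E ⊤ = ⊥`.
* `inflClass_eq_zero_of_locS_eq_zero` (L4).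
-/

set_option autoImplicit false
set_option linter.unusedSectionVars false

namespace Fermat.Agent.S55.UnrExt93

open Module IntermediateField Finset groupCohomology
open Fermat.Agent.S55.LocField17 Fermat.Agent.S55.GlobalInv91 Fermat.Agent.S55.Profin15
open Fermat.Agent.S55.LocInv28.Abstract Fermat.Agent.S55.LocInv28.Padic
open Fermat.Agent.S55.LocInv28.FrobChar (chi)
open Fermat.Agent.S55.CycloRecip37.GSys

/-- the carry cochain of an `H`-invariant element is a cocycle on `H`. -/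
theorem isCocOn_carry {k G : Type} [CommRing k] [Group G] (C : Rep k G) {n : ℕ} [NeZero n]
    (χ : G →* Multiplicative (ZMod n)) (H : Subgroup G) (a : C) (ha : ∀ g ∈ H, C.ρ g a = a) :
    IsCocOn C H (carry C χ a) := by
  intro g hg h _ l _
  simp only [carry_apply, chiVal_mul, map_nsmul, ha g hg]
  have e := carryNat_assoc n (chiVal χ g) (chiVal χ h) (chiVal χ l)
  rw [sub_eq_zero, sub_add_eq_add_sub, sub_eq_iff_eq_add, ← add_nsmul, ← add_nsmul]
  congr 1
  omega

variable {q : ℕ} [Fact q.Prime]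

section Eval

variable (I : InvFamily q) (E : LF q) [FiniteDimensional ℚ_[q] E] [Normal ℚ_[q] E]

/-- a `D'`-invariant unit of `E`, as an invariant of `A_{K'}`, `K' = E^{D'}`. -/
noncomputable def inclInv (D' : Subgroup (E ≃ₐ[ℚ_[q]] E)) (b : unitsE E)
    (hb : ∀ σ ∈ D', (unitsE E).ρ σ b = b) : invts (AK (fixK E D')) :=
  ⟨inclE E (fixK E D') b, fun g => by rw [rho_inclE, hb _ (resE_mem D' g)]⟩

theorem coe_inclInv (D' : Subgroup (E ≃ₐ[ℚ_[q]] E)) (b : unitsE E)
    (hb : ∀ σ ∈ D', (unitsE E).ρ σ b = b) :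
    ((inclInv E D' b hb : invts (AK (fixK E D'))) : AK (fixK E D')) = inclE E (fixK E D') b := rfl

theorem coe_toK_inclInv (D' : Subgroup (E ≃ₐ[ℚ_[q]] E)) (b : unitsE E)
    (hb : ∀ σ ∈ D', (unitsE E).ρ σ b = b) :
    ((toK (fixK E D') (inclInv E D' b hb) : fixK E D') : PadicAlgCl q) =
      (((Additive.toMul (b : Additive (↥E)ˣ) : (↥E)ˣ) : E) : PadicAlgCl q) := rfl

theorem infl₂_carry (K : LF q) {n : ℕ} [NeZero n]
    (χ : (E ≃ₐ[ℚ_[q]] E) →* Multiplicative (ZMod n)) (b : unitsE E) :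
    infl₂ E K (carry (unitsE E) χ b) =
      carry (AK K) (χ.comp ((resE E).comp K.fixingSubgroup.subtype)) (inclE E K b) := by
  funext p
  simp only [infl₂, carry_apply, map_nsmul]
  rfl

/-- (L1) **the unramified formula** in `GSys` vocabulary. -/
theorem locS_carry (D' : Subgroup (E ≃ₐ[ℚ_[q]] E)) (n : ℕ+)
    (χ : (E ≃ₐ[ℚ_[q]] E) →* Multiplicative (ZMod n)) (c : ℕ)
    (hχ : ∀ g : GK (fixK E D'),
      chiVal χ (resE E (g : Gq q)) = (c : ZMod n) * chiVal (chi (fixK E D') n) g)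
    (b : unitsE E) (hb : ∀ σ ∈ D', (unitsE E).ρ σ b = b) :
    locS I E D' (carry (unitsE E) χ b) =
      frac ((c : ℤ) * vK (fixK E D') (inclInv E D' b hb)) n := by
  have hf : IsCocOn (unitsE E) D' (carry (unitsE E) χ b) := isCocOn_carry _ χ D' b hb
  rw [locS_of_isCocOn I E hf]
  have hmem : carry (AK (fixK E D')) (χ.comp ((resE E).comp (fixK E D').fixingSubgroup.subtype))
      ((inclInv E D' b hb : invts (AK (fixK E D'))) : AK (fixK E D')) ∈
      (I.lev (fixK E D')).Z₂ (AK (fixK E D')) := by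
    rw [coe_inclInv, ← infl₂_carry]
    exact infl₂_mem_Z₂ (I.good (fixK E D')) (resE_mem D') hf
  have key := (I.isInv (fixK E D')).inv_carry_of_char n
    (χ.comp ((resE E).comp (fixK E D').fixingSubgroup.subtype)) c (fun g => hχ g)
    (inclInv E D' b hb) hmem
  rw [padicDatum_v] at key
  rw [← key]
  unfold inflClass
  congr 2

/-- (L1), with `E^{D'}` replaced by any field `K` equal to it. -/
theorem locS_carry_of_eq (D' : Subgroup (E ≃ₐ[ℚ_[q]] E)) (K : LF q) [FiniteDimensional ℚ_[q] K]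
    (hK : fixK E D' = K) (n : ℕ+) (χ : (E ≃ₐ[ℚ_[q]] E) →* Multiplicative (ZMod n)) (c : ℕ)
    (hχ : ∀ g : GK K, chiVal χ (resE E (g : Gq q)) = (c : ZMod n) * chiVal (chi K n) g)
    (b : unitsE E) (hb : ∀ σ ∈ D', (unitsE E).ρ σ b = b)
    (hbK : (((Additive.toMul (b : Additive (↥E)ˣ) : (↥E)ˣ) : E) : PadicAlgCl q) ∈ K) :
    locS I E D' (carry (unitsE E) χ b) = frac ((c : ℤ) * ord K ⟨_, hbK⟩) n := by
  subst hK
  rw [locS_carry I E D' n χ c hχ b hb, vK_apply]
  rfl

/-- (L4) the local functional is injective on inflated classes. -/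
theorem inflClass_eq_zero_of_locS_eq_zero {D' : Subgroup (E ≃ₐ[ℚ_[q]] E)}
    {f : (E ≃ₐ[ℚ_[q]] E) × (E ≃ₐ[ℚ_[q]] E) → unitsE E} (hf : IsCocOn (unitsE E) D' f)
    (h0 : locS I E D' f = 0) : inflClass I E D' f hf = 0 := by
  rw [locS_of_isCocOn I E hf] at h0
  exact (I.isInv (fixK E D')).inv_injective (by rw [h0, map_zero])

/-- the fixed field of the whole Galois group is `ℚ_q`. -/
theorem fixK_top : fixK E (⊤ : Subgroup (E ≃ₐ[ℚ_[q]] E)) = ⊥ := by
  haveI : IsGalois ℚ_[q] E := ⟨⟩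
  apply le_antisymm
  · intro x hx
    obtain ⟨y, hy, rfl⟩ := mem_fixK.1 hx
    have h1 : y ∈ (⊥ : IntermediateField ℚ_[q] E) := by
      rw [← IsGalois.fixedField_top (F := ℚ_[q]) (E := E), IntermediateField.mem_fixedField_iff]
      exact fun σ _ => hy σ (Subgroup.mem_top σ)
    obtain ⟨r, rfl⟩ := IntermediateField.mem_bot.1 h1
    exact IntermediateField.mem_bot.2 ⟨r, rfl⟩
  · exact bot_le

end Eval

end Fermat.Agent.S55.UnrExt93
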