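import Fermat.Agent.S55.LocInv28.Abstract

/-!
# S55 / 22b (helper93): (L5) transport of the local invariant

`f : H →* G` level-continuous, `φ : A →+ B` with `φ (g • a) = t • φ a` for `g = f t`.  Cochains of
`G` with values in `A` are pulled back to cochains of `H` with values in `B`
(`pull₂ f φ c (s, t) = φ (c (f s, f t))`).  If the invariant data of `(G, A)` and `(H, B)` match
under `(f, φ)` then the invariants agree: `inv' [pull₂ c] = inv [c]`.

With `f` = conjugation by `τ` and `φ` = the action of `τ` this is the conjugation invariance of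
the local invariant.  Pure algebra over `LocInv28.Abstract`.
-/

set_option autoImplicit false
set_option linter.unusedSectionVars false

namespace Fermat.Agent.S55.UnrExt93.Transport

open groupCohomology
open Fermat.Agent.S55.Profin15 Fermat.Agent.S55.GlobalInv91 Fermat.Agent.S55.LocInv28.Abstract

variable {G H : Type} [Group G] [Group H] {𝒰 : LevelStr G} {𝒱 : LevelStr H}
  {A : Rep.{0, 0, 0} ℤ G} {B : Rep.{0, 0, 0} ℤ H} (f : H →* G) (φ : A →+ B)

/-- pull-back of `1`-cochains. -/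
def pull₁ (y : G → A) : H → B := fun t => φ (y (f t))

/-- pull-back of `2`-cochains. -/
def pull₂ (c : G × G → A) : H × H → B := fun p => φ (c (f p.1, f p.2))

@[simp] lemma pull₁_apply (y : G → A) (t : H) : pull₁ f φ y t = φ (y (f t)) := rfl

@[simp] lemma pull₂_apply (c : G × G → A) (s t : H) :
    pull₂ f φ c (s, t) = φ (c (f s, f t)) := rfl

lemma pull₂_add (c c' : G × G → A) : pull₂ f φ (c + c') = pull₂ f φ c + pull₂ f φ c' := by
  funext p
  simp [pull₂]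

lemma pull₂_sub (c c' : G × G → A) : pull₂ f φ (c - c') = pull₂ f φ c - pull₂ f φ c' := by
  funext p
  simp [pull₂]

/-- `(f, φ)` is equivariant. -/
def IsEquivar : Prop := ∀ (t : H) (a : A), φ (A.ρ (f t) a) = B.ρ t (φ a)

variable {f φ}

lemma d_pull₁ (hφ : IsEquivar f φ) (y : G → A) :
    (d₁₂ B).hom (pull₁ f φ y) = pull₂ f φ ((d₁₂ A).hom y) := by
  funext p
  rw [d₁₂_hom_apply, pull₂, d₁₂_hom_apply]
  simp only [pull₁_apply, map_add, map_sub, map_mul]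
  rw [hφ]

lemma pull₂_mem_cocycles₂ (hφ : IsEquivar f φ) {c : G × G → A} (hc : c ∈ cocycles₂ A) :
    pull₂ f φ c ∈ cocycles₂ B := by
  rw [mem_cocycles₂_iff] at hc ⊢
  intro g h j
  simp only [pull₂_apply, map_mul]
  rw [← hφ, ← map_add, ← map_add, hc]

lemma pull₂_carry {n : ℕ} [NeZero n] (χ : G →* Multiplicative (ZMod n)) (a : A) :
    pull₂ f φ (carry A χ a) = carry B (χ.comp f) (φ a) := by
  funext p
  simp only [pull₂, carry_apply, map_nsmul]
  rfl

lemma isConst₁_pull₁ (hf : LevelStr.IsContinuous 𝒱 𝒰 f) {y : G → A} (hy : 𝒰.IsConst₁ y) :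
    𝒱.IsConst₁ (pull₁ f φ y) := by
  obtain ⟨V, hV, h⟩ := hf.isConst₁ hy
  exact ⟨V, hV, fun g s hs => congrArg φ (h g s hs)⟩

lemma isConst₂_pull₂ (hf : LevelStr.IsContinuous 𝒱 𝒰 f) {c : G × G → A} (hc : 𝒰.IsConst₂ c) :
    𝒱.IsConst₂ (pull₂ f φ c) := by
  obtain ⟨V, hV, h⟩ := hf.isConst₂ hc
  exact ⟨V, hV, fun g g' s s' hs hs' => congrArg φ (h g g' s s' hs hs')⟩

lemma pull₂_mem_Z₂ (hf : LevelStr.IsContinuous 𝒱 𝒰 f) (hφ : IsEquivar f φ) {c : G × G → A}
    (hc : c ∈ 𝒰.Z₂ A) : pull₂ f φ c ∈ 𝒱.Z₂ B :=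
  ⟨pull₂_mem_cocycles₂ hφ hc.1, isConst₂_pull₂ hf hc.2⟩

lemma pull₂_mem_B₂ (hf : LevelStr.IsContinuous 𝒱 𝒰 f) (hφ : IsEquivar f φ) {c : G × G → A}
    (hc : c ∈ 𝒰.B₂ A) : pull₂ f φ c ∈ 𝒱.B₂ B := by
  obtain ⟨y, hy, rfl⟩ := (𝒰.mem_B₂_iff A c).1 hc
  exact (𝒱.mem_B₂_iff _ _).2 ⟨pull₁ f φ y, isConst₁_pull₁ hf hy, d_pull₁ hφ y⟩

/-- invariants are mapped to invariants. -/
def mapInvts (hφ : IsEquivar f φ) : invts A →+ invts B where
  toFun a := ⟨φ (a : A), fun t => by rw [← hφ, a.2 (f t)]⟩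
  map_zero' := Subtype.ext (map_zero φ)
  map_add' a b := Subtype.ext (map_add φ (a : A) (b : A))

@[simp] lemma coe_mapInvts (hφ : IsEquivar f φ) (a : invts A) :
    ((mapInvts hφ a : invts B) : B) = φ (a : A) := rfl

/-- (L5) **transport of the invariant**: if the Frobenius characters and the valuations match
under `(f, φ)`, then `inv' [pull₂ c] = inv [c]`. -/
theorem inv_pull₂ (hf : LevelStr.IsContinuous 𝒱 𝒰 f) (hφ : IsEquivar f φ)
    {D : InvDatum 𝒰 A} {D' : InvDatum 𝒱 B}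
    (h : IsLocalInv 𝒰 A D) (h' : IsLocalInv 𝒱 B D')
    (hχ : ∀ (n : ℕ+) (t : H), chiVal (D.chi n) (f t) = chiVal (D'.chi n) t)
    (hv : ∀ a : invts A, D'.v (mapInvts hφ a) = D.v a)
    (c : ↥(𝒰.Z₂ A)) :
    h'.inv (𝒱.H2π B ⟨pull₂ f φ (c : G × G → A), pull₂_mem_Z₂ hf hφ c.2⟩) =
      h.inv (𝒰.H2π A c) := by
  obtain ⟨n, a, hna⟩ := h.pres (𝒰.H2π A c)
  rw [hna, h.inv_cls]
  -- `c - carry χ_n a` is a level coboundary
  have h0 : 𝒰.H2π A (c - D.carryZ n a) = 0 := by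
    rw [map_sub, hna, InvDatum.cls_apply, sub_self]
  rw [LevelStr.H2π_eq_zero_iff] at h0
  have h1 := pull₂_mem_B₂ (φ := φ) hf hφ h0
  have e1 : pull₂ f φ ((c - D.carryZ n a : ↥(𝒰.Z₂ A)) : G × G → A) =
      pull₂ f φ (c : G × G → A) - carry B (D'.chi n) ((mapInvts hφ a : invts B) : B) := by
    have : ((c - D.carryZ n a : ↥(𝒰.Z₂ A)) : G × G → A) =
        (c : G × G → A) - carry A (D.chi n) (a : A) := rfl
    rw [this, pull₂_sub, pull₂_carry]
    congr 1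
    funext p
    simp only [carry_apply, MonoidHom.coe_comp, Function.comp_apply, coe_mapInvts]
    show carryNat n (chiVal (D.chi n) (f p.1)) (chiVal (D.chi n) (f p.2)) • _ = _
    rw [hχ, hχ]
    rfl
  rw [e1] at h1
  have h2 : 𝒱.H2π B ⟨pull₂ f φ (c : G × G → A), pull₂_mem_Z₂ hf hφ c.2⟩ =
      D'.cls n (mapInvts hφ a) := by
    rw [InvDatum.cls_apply, ← sub_eq_zero, ← map_sub, LevelStr.H2π_eq_zero_iff]
    exact h1
  rw [h2, h'.inv_cls, hv]

end Fermat.Agent.S55.UnrExt93.Transport
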