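import Fermat.Agent.S55.UnrExt93.FrobChar
import Fermat.Agent.S55.UnrExt93.Transport
import Fermat.Agent.S55.LocInv28.Padic

/-!
# S55 / 22b-SYS (helper93): preparations for the local system of invariants

* `chi_eq_frobChar`: helper28's `LocInv28.FrobChar.chi K n` is `UnrExt93.frobChar K n`.
* `conjHom τ hτ : G_{K'} →* G_K`, `t ↦ τ⁻¹ t τ` (for `τ K ⊆ K'`), `tauAct τ : Ωˣ →+ Ωˣ`,
  equivariance, and the compatibility of `chi` / `vK` with conjugation.
* For `E / ℚ_q` finite normal, `D = Gal(E/ℚ_q)`: `resE`, `fixK E D'` (the fixed field of `D' ≤ D`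
  inside `Ω`), `mem_fixingSubgroup_fixK_iff`, `fixK_mono`, `ramIdx_mul_resDeg_fixK`
  (`e f = [D' : D'']`).
-/

set_option autoImplicit false
set_option linter.unusedSectionVars false

namespace Fermat.Agent.S55.UnrExt93

open Module IntermediateField Finset groupCohomology
open Fermat.Agent.S55.LocField17 Fermat.Agent.S55.GlobalInv91 Fermat.Agent.S55.Profin15
open Fermat.Agent.S55.LocInv28.Abstract Fermat.Agent.S55.LocInv28.Padic
open Fermat.Agent.S55.LocInv28.FrobChar (chi chi_spec)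

variable {q : ℕ} [Fact q.Prime]

/-! ## The two Frobenius characters agree -/

theorem chi_eq_frobChar (K : LF q) [FiniteDimensional ℚ_[q] K] (n : ℕ+) :
    chi K n = frobChar K (n : ℕ) := by
  ext s
  apply Multiplicative.toAdd.injective
  show chiVal (chi K n) s = chiVal (frobChar K (n : ℕ)) s
  have h : ActsAs K (n : ℕ) (s : Gq q) (chiVal (chi K n) s).val := fun z hz => chi_spec K n s hz
  rw [(frobChar_apply_iff s _).2 h, ZMod.natCast_zmod_val]

/-! ## Conjugation -/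

section Conj

variable {K K' : LF q}

/-- conjugation `G_{K'} → G_K`, `t ↦ τ⁻¹ t τ`, for `τ K ⊆ K'`. -/
noncomputable def conjHom (τ : Gq q) (hτ : ∀ x ∈ K, τ x ∈ K') : GK K' →* GK K where
  toFun t := ⟨τ⁻¹ * (t : Gq q) * τ, by
    rw [IntermediateField.mem_fixingSubgroup_iff]
    intro x hx
    rw [AlgEquiv.mul_apply, AlgEquiv.mul_apply,
      (IntermediateField.mem_fixingSubgroup_iff _ _).1 t.2 _ (hτ x hx)]
    exact τ.symm_apply_apply x⟩
  map_one' := Subtype.ext (by simp)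
  map_mul' s t := Subtype.ext (by
    show τ⁻¹ * ((s : Gq q) * (t : Gq q)) * τ = (τ⁻¹ * (s : Gq q) * τ) * (τ⁻¹ * (t : Gq q) * τ)
    group)

@[simp] theorem coe_conjHom (τ : Gq q) (hτ : ∀ x ∈ K, τ x ∈ K') (t : GK K') :
    ((conjHom τ hτ t : GK K) : Gq q) = τ⁻¹ * (t : Gq q) * τ := rfl

/-- the action of `τ` on `Ωˣ`, as a map `A_K → A_{K'}`. -/
noncomputable def tauAct (K K' : LF q) (τ : Gq q) : AK K →+ AK K' :=
  ((Rep.ofAlgebraAutOnUnits ℚ_[q] (PadicAlgCl q)).ρ τ).toAddMonoidHom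

theorem valΩ_tauAct (τ : Gq q) (a : AK K) : valΩ K' (tauAct K K' τ a) = τ (valΩ K a) := rfl

theorem isEquivar_conj (τ : Gq q) (hτ : ∀ x ∈ K, τ x ∈ K') :
    Transport.IsEquivar (conjHom τ hτ) (tauAct K K' τ) := by
  intro t a
  apply valΩ_injective K'
  rw [valΩ_tauAct, valΩ_ρ, valΩ_ρ, valΩ_tauAct, coe_conjHom, AlgEquiv.mul_apply,
    AlgEquiv.mul_apply]
  exact τ.apply_symm_apply _

variable [FiniteDimensional ℚ_[q] K] [FiniteDimensional ℚ_[q] K']

/-- the Frobenius characters are conjugation invariant. -/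
theorem chi_conjHom (τ : Gq q) (hK' : K' = conjField K τ) (hτ : ∀ x ∈ K, τ x ∈ K') (n : ℕ+)
    (t : GK K') : chiVal (chi K n) (conjHom τ hτ t) = chiVal (chi K' n) t := by
  subst hK'
  rw [chi_eq_frobChar, chi_eq_frobChar, ← frobChar_conj τ (conjHom τ hτ t)]
  congr 1
  apply Subtype.ext
  show τ * (τ⁻¹ * (t : Gq q) * τ) * τ⁻¹ = (t : Gq q)
  group

/-- the valuations are conjugation invariant. -/
theorem vK_mapInvts_conj (τ : Gq q) (hK' : K' = conjField K τ) (hτ : ∀ x ∈ K, τ x ∈ K')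
    (a : invts (AK K)) :
    vK K' (Transport.mapInvts (isEquivar_conj τ hτ) a) = vK K a := by
  subst hK'
  rw [vK_apply, vK_apply, ← ord_conjField τ (toK K a)]
  congr 1

end Conj

/-! ## Fixed fields of a finite normal extension -/

section Fixed

variable (E : LF q) [FiniteDimensional ℚ_[q] E] [Normal ℚ_[q] E]

/-- restriction `Gal(Ω/ℚ_q) → Gal(E/ℚ_q)`. -/
noncomputable def resE : Gq q →* (E ≃ₐ[ℚ_[q]] E) := AlgEquiv.restrictNormalHom E

theorem resE_apply (τ : Gq q) (y : E) : ((resE E τ y : E) : PadicAlgCl q) = τ (y : PadicAlgCl q) :=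
  AlgEquiv.restrictNormal_commutes τ E y

theorem resE_surjective : Function.Surjective (resE E) :=
  AlgEquiv.restrictNormalHom_surjective _

/-- the fixed field of `D' ≤ Gal(E/ℚ_q)`, inside `Ω`. -/
noncomputable def fixK (D' : Subgroup (E ≃ₐ[ℚ_[q]] E)) : LF q :=
  IntermediateField.lift (IntermediateField.fixedField D')

variable {E}

theorem mem_fixK {D' : Subgroup (E ≃ₐ[ℚ_[q]] E)} {x : PadicAlgCl q} :
    x ∈ fixK E D' ↔ ∃ y : E, (∀ σ ∈ D', σ y = y) ∧ (y : PadicAlgCl q) = x := by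
  constructor
  · rintro ⟨y, hy, rfl⟩
    exact ⟨y, fun σ hσ => hy ⟨σ, hσ⟩, rfl⟩
  · rintro ⟨y, hy, rfl⟩
    exact ⟨y, fun σ => hy σ.1 σ.2, rfl⟩

theorem fixK_le (D' : Subgroup (E ≃ₐ[ℚ_[q]] E)) : fixK E D' ≤ E := by
  intro x hx
  obtain ⟨y, -, rfl⟩ := mem_fixK.1 hx
  exact y.2

instance finiteDimensional_fixK (D' : Subgroup (E ≃ₐ[ℚ_[q]] E)) :
    FiniteDimensional ℚ_[q] (fixK E D') :=
  (IntermediateField.liftAlgEquiv (IntermediateField.fixedField D')).toLinearEquiv.finiteDimensional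

theorem fixK_mono {D' D'' : Subgroup (E ≃ₐ[ℚ_[q]] E)} (h : D'' ≤ D') : fixK E D' ≤ fixK E D'' := by
  intro x hx
  obtain ⟨y, hy, rfl⟩ := mem_fixK.1 hx
  exact mem_fixK.2 ⟨y, fun σ hσ => hy σ (h hσ), rfl⟩

/-- **Galois correspondence**: `g` fixes `E^{D'}` iff `g|_E ∈ D'`. -/
theorem mem_fixingSubgroup_fixK_iff {D' : Subgroup (E ≃ₐ[ℚ_[q]] E)} {g : Gq q} :
    g ∈ (fixK E D').fixingSubgroup ↔ resE E g ∈ D' := by
  rw [IntermediateField.mem_fixingSubgroup_iff]
  constructor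
  · intro h
    rw [← IntermediateField.fixingSubgroup_fixedField D', IntermediateField.mem_fixingSubgroup_iff]
    intro y hy
    apply Subtype.ext
    rw [resE_apply]
    exact h _ (mem_fixK.2 ⟨y, fun σ hσ => hy ⟨σ, hσ⟩, rfl⟩)
  · intro h x hx
    obtain ⟨y, hy, rfl⟩ := mem_fixK.1 hx
    rw [← resE_apply, hy _ h]

theorem resE_mem (D' : Subgroup (E ≃ₐ[ℚ_[q]] E)) (g : GK (fixK E D')) : resE E (g : Gq q) ∈ D' :=
  mem_fixingSubgroup_fixK_iff.1 g.2

theorem finrank_fixK_mul_card (D' : Subgroup (E ≃ₐ[ℚ_[q]] E)) :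
    finrank ℚ_[q] (fixK E D') * Nat.card D' = finrank ℚ_[q] E := by
  have h1 : finrank ℚ_[q] (fixK E D') = finrank ℚ_[q] (IntermediateField.fixedField D') :=
    (LinearEquiv.finrank_eq
      (IntermediateField.liftAlgEquiv (IntermediateField.fixedField D')).toLinearEquiv).symm
  rw [h1, ← IntermediateField.finrank_fixedField_eq_card D']
  exact Module.finrank_mul_finrank ℚ_[q] (IntermediateField.fixedField D') E

theorem relIndex_mul_card' {Γ : Type*} [Group Γ] {H K : Subgroup Γ} (h : H ≤ K) :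
    H.relIndex K * Nat.card H = Nat.card K := by
  rw [Subgroup.relIndex, mul_comm, ← Nat.card_congr (Subgroup.subgroupOfEquivOfLe h).toEquiv]
  exact Subgroup.card_mul_index (H.subgroupOf K)

/-- `e f = [D' : D'']` for `E^{D'} ≤ E^{D''}`. -/
theorem ramIdx_mul_resDeg_fixK {D' D'' : Subgroup (E ≃ₐ[ℚ_[q]] E)} (h : D'' ≤ D') :
    ramIdx (fixK_mono h) * resDeg (fixK_mono h) = D''.relIndex D' := by
  have h1 := ramIdx_mul_resDeg_mul (fixK_mono h)
  have h2 := finrank_fixK_mul_card D'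
  have h3 := finrank_fixK_mul_card D''
  have h4 := relIndex_mul_card' h
  have hpos : 0 < finrank ℚ_[q] (fixK E D') * Nat.card D'' :=
    Nat.mul_pos finrank_pos Nat.card_pos
  apply Nat.eq_of_mul_eq_mul_right hpos
  calc ramIdx (fixK_mono h) * resDeg (fixK_mono h) * (finrank ℚ_[q] (fixK E D') * Nat.card D'')
      = (ramIdx (fixK_mono h) * resDeg (fixK_mono h) * finrank ℚ_[q] (fixK E D')) *
          Nat.card D'' := by ring
    _ = finrank ℚ_[q] (fixK E D'') * Nat.card D'' := by rw [h1]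
    _ = finrank ℚ_[q] (fixK E D') * Nat.card D' := by rw [h3, h2]
    _ = finrank ℚ_[q] (fixK E D') * (D''.relIndex D' * Nat.card D'') := by rw [h4]
    _ = D''.relIndex D' * (finrank ℚ_[q] (fixK E D') * Nat.card D'') := by ring

/-- conjugate subgroups have conjugate fixed fields. -/
theorem fixK_conj {D' D'' : Subgroup (E ≃ₐ[ℚ_[q]] E)} (τ : Gq q)
    (hD : ∀ g, g ∈ D'' ↔ (resE E τ)⁻¹ * g * resE E τ ∈ D') :
    fixK E D'' = conjField (fixK E D') τ := by
  ext x
  rw [mem_conjField]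
  constructor
  · intro hx
    obtain ⟨y, hy, rfl⟩ := mem_fixK.1 hx
    refine mem_fixK.2 ⟨(resE E τ)⁻¹ y, fun σ hσ => ?_, ?_⟩
    · -- `σ ∈ D'`, so `τ σ τ⁻¹ ∈ D''`
      have h1 : resE E τ * σ * (resE E τ)⁻¹ ∈ D'' := by
        rw [hD]
        have : (resE E τ)⁻¹ * (resE E τ * σ * (resE E τ)⁻¹) * resE E τ = σ := by group
        rw [this]
        exact hσ
      have h2 := hy _ h1
      have h3 : (resE E τ * σ * (resE E τ)⁻¹) y = resE E τ (σ ((resE E τ)⁻¹ y)) := rfl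
      rw [h3] at h2
      have h4 : (resE E τ)⁻¹ (resE E τ (σ ((resE E τ)⁻¹ y))) = (resE E τ)⁻¹ y :=
        congrArg (fun z => (resE E τ)⁻¹ z) h2
      rw [show (resE E τ)⁻¹ (resE E τ (σ ((resE E τ)⁻¹ y))) = σ ((resE E τ)⁻¹ y) from
        (resE E τ).symm_apply_apply _] at h4
      exact h4
    · rw [← map_inv, resE_apply]
  · intro hx
    obtain ⟨y, hy, hyx⟩ := mem_fixK.1 hx
    refine mem_fixK.2 ⟨resE E τ y, fun σ hσ => ?_, ?_⟩
    · have h1 := hy _ ((hD σ).1 hσ)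
      have h3 : ((resE E τ)⁻¹ * σ * resE E τ) y = (resE E τ)⁻¹ (σ (resE E τ y)) := rfl
      rw [h3] at h1
      have h4 : resE E τ ((resE E τ)⁻¹ (σ (resE E τ y))) = resE E τ y :=
        congrArg (fun z => resE E τ z) h1
      rw [show resE E τ ((resE E τ)⁻¹ (σ (resE E τ y))) = σ (resE E τ y) from
        (resE E τ).apply_symm_apply _] at h4
      exact h4
    · rw [resE_apply, hyx]
      exact τ.apply_symm_apply x

end Fixed

end Fermat.Agent.S55.UnrExt93
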