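import Fermat.Agent.S55.UnrExt93.FrobChar
import Fermat.Agent.S55.LocField17.UnrAdapt

/-!
# S55 moonshot (helper93): the relative Galois group `Gal(M/K)` at type level in the LF model,
and the cyclic unramified top layer

For `K ≤ M` finite over `ℚ_[q]` in `Ω = PadicAlgCl q`, `M` stable under `Gal(Ω/K)`:
`restrictM : Gal(Ω/K) →* (↥M ≃ₐ[↥K] ↥M)` (the `K`-algebra structure on `↥M` is
`LocField17.relAlgebra`), surjective.  For `K ≤ L ≤ M` with `M = unr q L e` the subgroup
`fixL` of `Gal(M/K)` fixing `L` is cyclic of order `e`, generated by the restriction of the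
Frobenius of `L`, and units of `L` are `fixL`-norms of units of `M`.
-/

set_option autoImplicit false
set_option linter.style.haveILetI false
set_option linter.unusedSectionVars false

noncomputable section

namespace Fermat.Agent.S55.UnrExt93

open Module IntermediateField Finset
open Fermat.Agent.S55.LocField17

variable {q : ℕ} [Fact q.Prime]

/-- `M` is stable under `Gal(Ω/K)` (i.e. `M/K` is normal). -/
def StableUnder (K M : LF q) : Prop := ∀ σ ∈ K.fixingSubgroup, ∀ x ∈ M, σ x ∈ M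

theorem stableUnder_unr (K : LF q) (n : ℕ) : StableUnder K (unr q K n) :=
  fun σ hσ _ hx => stable n σ hσ hx

theorem StableUnder.mono_left {K L M : LF q} (h : K ≤ L) (hst : StableUnder K M) :
    StableUnder L M :=
  fun σ hσ x hx => hst σ (IntermediateField.fixingSubgroup_antitone h hσ) x hx

section restrict

variable {K M : LF q} (hKM : K ≤ M) (hst : StableUnder K M)

/-- restriction of `σ ∈ Gal(Ω/K)` to `M`, as a `K`-algebra automorphism of `↥M`. -/
def restrictM (σ : ↥K.fixingSubgroup) :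
    letI := relAlgebra hKM
    ↥M ≃ₐ[↥K] ↥M :=
  letI := relAlgebra hKM
  { toFun := fun x => ⟨(σ : Gq q) (x : PadicAlgCl q), hst σ σ.2 x x.2⟩
    invFun := fun x => ⟨(σ : Gq q)⁻¹ (x : PadicAlgCl q), hst _ (inv_mem σ.2) x x.2⟩
    left_inv := fun x => Subtype.ext ((σ : Gq q).symm_apply_apply (x : PadicAlgCl q))
    right_inv := fun x => Subtype.ext ((σ : Gq q).apply_symm_apply (x : PadicAlgCl q))
    map_mul' := fun x y => Subtype.ext (map_mul (σ : Gq q) (x : PadicAlgCl q) y)
    map_add' := fun x y => Subtype.ext (map_add (σ : Gq q) (x : PadicAlgCl q) y)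
    commutes' := fun k => Subtype.ext
      ((IntermediateField.mem_fixingSubgroup_iff _ _).1 σ.2 k k.2) }

theorem restrictM_apply (σ : ↥K.fixingSubgroup) (x : M) :
    letI := relAlgebra hKM
    ((restrictM hKM hst σ x : M) : PadicAlgCl q) = (σ : Gq q) (x : PadicAlgCl q) := rfl

/-- the restriction homomorphism `Gal(Ω/K) →* Gal(M/K)`. -/
def restrictHom :
    letI := relAlgebra hKM
    ↥K.fixingSubgroup →* (↥M ≃ₐ[↥K] ↥M) :=
  letI := relAlgebra hKM
  { toFun := restrictM hKM hst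
    map_one' := by
      apply AlgEquiv.ext
      intro x
      rfl
    map_mul' := fun σ τ => by
      apply AlgEquiv.ext
      intro x
      rfl }

theorem restrictHom_apply (σ : ↥K.fixingSubgroup) (x : M) :
    letI := relAlgebra hKM
    ((restrictHom hKM hst σ x : M) : PadicAlgCl q) = (σ : Gq q) (x : PadicAlgCl q) := rfl

theorem restrictHom_surjective :
    letI := relAlgebra hKM
    Function.Surjective (restrictHom hKM hst) := by
  letI := relAlgebra hKM
  haveI : IsScalarTower K M (PadicAlgCl q) := IsScalarTower.of_algebraMap_eq (fun _ => rfl)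
  intro τ
  let σ' : PadicAlgCl q ≃ₐ[K] PadicAlgCl q := τ.liftNormal (PadicAlgCl q)
  refine ⟨⟨σ'.restrictScalars ℚ_[q], restrictScalars_mem_fixingSubgroup σ'⟩, ?_⟩
  apply AlgEquiv.ext
  intro x
  apply Subtype.ext
  exact τ.liftNormal_commutes (PadicAlgCl q) x

end restrict

section fix

variable {K M : LF q} (hKM : K ≤ M)

/-- the subgroup of `Gal(M/K)` fixing `L` pointwise (`L ≤ M` intended). -/
def fixSub (L : LF q) :
    letI := relAlgebra hKM
    Subgroup (↥M ≃ₐ[↥K] ↥M) :=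
  letI := relAlgebra hKM
  { carrier := {τ | ∀ x : M, (x : PadicAlgCl q) ∈ L → τ x = x}
    mul_mem' := fun {a b} ha hb x hx => by
      show a (b x) = x
      rw [hb x hx, ha x hx]
    one_mem' := fun _ _ => rfl
    inv_mem' := fun {a} ha x hx => by
      have h1 : a x = x := ha x hx
      calc a⁻¹ x = a⁻¹ (a x) := by rw [h1]
        _ = x := a.symm_apply_apply x }

theorem mem_fixSub {L : LF q} :
    letI := relAlgebra hKM
    ∀ τ : ↥M ≃ₐ[↥K] ↥M, τ ∈ fixSub hKM L ↔ ∀ x : M, (x : PadicAlgCl q) ∈ L → τ x = x := by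
  letI := relAlgebra hKM
  exact fun τ => Iff.rfl

variable (hst : StableUnder K M)

theorem restrictHom_mem_fixSub_iff {L : LF q} (hLM : L ≤ M) (σ : ↥K.fixingSubgroup) :
    restrictHom hKM hst σ ∈ fixSub hKM L ↔ (σ : Gq q) ∈ L.fixingSubgroup := by
  letI := relAlgebra hKM
  rw [mem_fixSub, IntermediateField.mem_fixingSubgroup_iff]
  constructor
  · intro h x hx
    have := h ⟨x, hLM hx⟩ hx
    exact congrArg Subtype.val this
  · intro h x hx
    apply Subtype.ext
    exact h x hx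

include hst in
/-- `fixSub` is normal when `L` is stable under `Gal(Ω/K)`. -/
theorem fixSub_normal {L : LF q} (hLM : L ≤ M) (hstL : StableUnder K L) :
    (fixSub hKM L).Normal := by
  letI := relAlgebra hKM
  constructor
  intro n hn g
  obtain ⟨σ, rfl⟩ := restrictHom_surjective hKM hst n
  obtain ⟨γ, rfl⟩ := restrictHom_surjective hKM hst g
  rw [← map_inv, ← map_mul, ← map_mul, restrictHom_mem_fixSub_iff hKM hst hLM]
  rw [restrictHom_mem_fixSub_iff hKM hst hLM] at hn
  rw [IntermediateField.mem_fixingSubgroup_iff] at hn ⊢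
  intro x hx
  have h1 : ((γ : Gq q)⁻¹) x ∈ L := hstL _ (inv_mem γ.2) x hx
  show (γ : Gq q) ((σ : Gq q) ((γ : Gq q)⁻¹ x)) = x
  rw [hn _ h1]
  exact (γ : Gq q).apply_symm_apply x

end fix

section top

variable {K L M : LF q} [FiniteDimensional ℚ_[q] L] (hKL : K ≤ L) (hLM : L ≤ M)
  (hst : StableUnder K M) {e : ℕ} (he : 0 < e) (hM : M = unr q L e)
  {φ : Gq q} (hφL : φ ∈ L.fixingSubgroup)
  (hφ : ∀ z : PadicAlgCl q, z ^ (resCard q L ^ e - 1) = 1 → φ z = z ^ resCard q L)

/-- the Frobenius of `L` as an element of `Gal(M/K)`. -/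
def frobTop :
    letI := relAlgebra (hKL.trans hLM)
    ↥M ≃ₐ[↥K] ↥M :=
  restrictHom (hKL.trans hLM) hst ⟨φ, IntermediateField.fixingSubgroup_antitone hKL hφL⟩

theorem frobTop_pow_apply (i : ℕ) (x : M) :
    letI := relAlgebra (hKL.trans hLM)
    (((frobTop hKL hLM hst hφL ^ i) x : M) : PadicAlgCl q) = (φ ^ i) (x : PadicAlgCl q) := by
  letI := relAlgebra (hKL.trans hLM)
  unfold frobTop
  rw [← map_pow]
  rfl

include he hM hφ in
/-- (T1) the subgroup of `Gal(M/K)` fixing `L` is generated by the Frobenius of `L`. -/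
theorem fixSub_eq_zpowers :
    fixSub (hKL.trans hLM) L = Subgroup.zpowers (frobTop hKL hLM hst hφL) := by
  letI := relAlgebra (hKL.trans hLM)
  apply le_antisymm
  · intro τ hτ
    obtain ⟨σ, rfl⟩ := restrictHom_surjective (hKL.trans hLM) hst τ
    rw [restrictHom_mem_fixSub_iff _ hst hLM] at hτ
    obtain ⟨i, -, hi⟩ := (cyclic he hφL hφ).1 σ hτ
    rw [Subgroup.mem_zpowers_iff]
    refine ⟨(i : ℤ), ?_⟩
    rw [zpow_natCast]
    apply AlgEquiv.ext
    intro x
    apply Subtype.ext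
    rw [frobTop_pow_apply]
    have hx : (x : PadicAlgCl q) ∈ unr q L e := hM ▸ x.2
    exact (hi _ hx).symm
  · rw [Subgroup.zpowers_le]
    unfold frobTop
    rw [restrictHom_mem_fixSub_iff _ hst hLM]
    exact hφL

include he hM hφ in
theorem frobTop_pow_eq_one_iff (i : ℕ) :
    frobTop hKL hLM hst hφL ^ i = 1 ↔ e ∣ i := by
  letI := relAlgebra (hKL.trans hLM)
  rw [← (cyclic he hφL hφ).2 i]
  constructor
  · intro h x hx
    have hx' : x ∈ M := hM ▸ hx
    have := frobTop_pow_apply hKL hLM hst hφL i ⟨x, hx'⟩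
    rw [h] at this
    exact this.symm
  · intro h
    apply AlgEquiv.ext
    intro x
    apply Subtype.ext
    rw [frobTop_pow_apply]
    exact h _ (hM ▸ x.2)

include he hM hφ in
theorem orderOf_frobTop : orderOf (frobTop hKL hLM hst hφL) = e := by
  letI := relAlgebra (hKL.trans hLM)
  apply Nat.dvd_antisymm
  · apply orderOf_dvd_of_pow_eq_one
    exact (frobTop_pow_eq_one_iff hKL hLM hst he hM hφL hφ e).2 dvd_rfl
  · exact (frobTop_pow_eq_one_iff hKL hLM hst he hM hφL hφ _).1 (pow_orderOf_eq_one _)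

include hst he hM hφL hφ in
/-- (T2) `|Gal(M/L)| = e`. -/
theorem card_fixSub : Nat.card (fixSub (hKL.trans hLM) L) = e := by
  letI := relAlgebra (hKL.trans hLM)
  rw [fixSub_eq_zpowers hKL hLM hst he hM hφL hφ, Nat.card_zpowers,
    orderOf_frobTop hKL hLM hst he hM hφL hφ]

attribute [local instance] Units.mulDistribMulActionRight

include he hM hφ in
/-- the bijection `Fin e ≃ Gal(M/L)`, `i ↦ Frob_L^i`. -/
theorem exists_finEquiv_fixSub :
    letI := relAlgebra (hKL.trans hLM)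
    ∃ ε : Fin e ≃ fixSub (hKL.trans hLM) L,
      ∀ i : Fin e, ((ε i : fixSub (hKL.trans hLM) L) : ↥M ≃ₐ[↥K] ↥M) =
        frobTop hKL hLM hst hφL ^ (i : ℕ) := by
  letI := relAlgebra (hKL.trans hLM)
  have hfix := fixSub_eq_zpowers hKL hLM hst he hM hφL hφ
  have hord := orderOf_frobTop hKL hLM hst he hM hφL hφ
  have hmem : ∀ i : ℕ, frobTop hKL hLM hst hφL ^ i ∈ fixSub (hKL.trans hLM) L := by
    intro i
    rw [hfix]
    exact Subgroup.npow_mem_zpowers _ _
  refine ⟨Equiv.ofBijective (fun i : Fin e => ⟨frobTop hKL hLM hst hφL ^ (i : ℕ), hmem i⟩)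
    ⟨?_, ?_⟩, fun i => rfl⟩
  · intro i j hij
    have h1 : frobTop hKL hLM hst hφL ^ (i : ℕ) = frobTop hKL hLM hst hφL ^ (j : ℕ) :=
      congrArg Subtype.val hij
    rw [pow_eq_pow_iff_modEq, hord] at h1
    exact Fin.ext (Nat.ModEq.eq_of_lt_of_lt h1 i.2 j.2)
  · rintro ⟨τ, hτ⟩
    rw [hfix, Subgroup.mem_zpowers_iff] at hτ
    obtain ⟨k, hk⟩ := hτ
    have he0 : (e : ℤ) ≠ 0 := by exact_mod_cast he.ne'
    have h0 : 0 ≤ k % (e : ℤ) := Int.emod_nonneg k he0
    have h1 : k % (e : ℤ) < e := Int.emod_lt_of_pos k (by exact_mod_cast he)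
    refine ⟨⟨(k % (e : ℤ)).toNat, by omega⟩, ?_⟩
    apply Subtype.ext
    show frobTop hKL hLM hst hφL ^ (k % (e : ℤ)).toNat = τ
    rw [← hk, ← zpow_natCast, Int.toNat_of_nonneg h0, ← hord, zpow_mod_orderOf]

include hst he hM hφL hφ in
/-- (T3) the `Gal(M/L)`-norm written with the Frobenius. -/
theorem coe_prod_fixSub_smul [Fintype (fixSub (hKL.trans hLM) L)] (w : (↥M)ˣ) :
    letI := relAlgebra (hKL.trans hLM)
    (((∏ σ : fixSub (hKL.trans hLM) L, ((σ : ↥M ≃ₐ[↥K] ↥M) • w) : (↥M)ˣ) : ↥M) :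
      PadicAlgCl q) = ∏ i ∈ range e, (φ ^ i) ((w : ↥M) : PadicAlgCl q) := by
  letI := relAlgebra (hKL.trans hLM)
  obtain ⟨ε, hε⟩ := exists_finEquiv_fixSub hKL hLM hst he hM hφL hφ
  rw [← Fintype.prod_equiv ε (fun i : Fin e => (frobTop hKL hLM hst hφL ^ (i : ℕ)) • w)
    (fun σ : fixSub (hKL.trans hLM) L => ((σ : ↥M ≃ₐ[↥K] ↥M) • w)) (fun i => by rw [hε i])]
  rw [Units.coe_prod, IntermediateField.coe_prod, ← Fin.prod_univ_eq_prod_range
    (fun i => (φ ^ i) ((w : ↥M) : PadicAlgCl q)) e]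
  refine Finset.prod_congr rfl fun i _ => ?_
  exact frobTop_pow_apply hKL hLM hst hφL i (w : ↥M)

include hst he hM hφL hφ in
/-- (T3) **`hnorm` of `LocInv80.GField.step`, literally**: every unit of `M` fixed by `Gal(M/L)`
is the `Gal(M/L)`-norm of a unit of `M` (`M = L_e` unramified over `L`). -/
theorem hnorm_top [FiniteDimensional ℚ_[q] M] [Fintype (fixSub (hKL.trans hLM) L)] :
    letI := relAlgebra (hKL.trans hLM)
    ∀ u : (↥M)ˣ, (∀ σ ∈ fixSub (hKL.trans hLM) L, σ • u = u) →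
      ordHom M (Additive.ofMul u) = 0 →
      ∃ w : (↥M)ˣ, ordHom M (Additive.ofMul w) = 0 ∧
        ∏ σ : fixSub (hKL.trans hLM) L, ((σ : ↥M ≃ₐ[↥K] ↥M) • w) = u := by
  letI := relAlgebra (hKL.trans hLM)
  intro u hfix hu
  rw [ordHom_eq_zero_iff] at hu
  -- `u ∈ L`
  have huL : ((u : ↥M) : PadicAlgCl q) ∈ L := by
    apply mem_of_fixed
    intro s hs
    have hsK : s ∈ K.fixingSubgroup := IntermediateField.fixingSubgroup_antitone hKL hs
    have h1 := hfix (restrictHom (hKL.trans hLM) hst ⟨s, hsK⟩)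
      ((restrictHom_mem_fixSub_iff _ hst hLM _).2 hs)
    have h2 := congrArg (fun v : (↥M)ˣ => (((v : ↥M)) : PadicAlgCl q)) h1
    exact h2
  obtain ⟨b, hbM, hb1, hb⟩ :=
    unr_norm_units_surjective he hφL hφ (isUnif_unif L) huL hu
  have hbM' : b ∈ M := hM ▸ hbM
  have hb0 : (⟨b, hbM'⟩ : ↥M) ≠ 0 := by
    intro h0
    have : b = 0 := congrArg Subtype.val h0
    rw [this, norm_zero] at hb1
    exact zero_ne_one hb1
  refine ⟨Units.mk0 ⟨b, hbM'⟩ hb0, ?_, ?_⟩
  · rw [ordHom_eq_zero_iff]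
    exact hb1
  · apply Units.ext
    apply Subtype.ext
    rw [coe_prod_fixSub_smul hKL hLM hst he hM hφL hφ]
    exact hb

end top

end Fermat.Agent.S55.UnrExt93
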