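import Fermat.Agent.S55.UnrExt93.Unr

/-!
# S55 moonshot, leaf 21 (helper93): residue representatives of `K_n`

`T = {0} ∪ μ_{Q^n-1}`: `Q^n` pairwise incongruent integral elements of `K_n = unr q K n`
(the `reps` field of `LocUnr89.PadicUnrHyp`).  Mathlib only.
-/

namespace Fermat.Agent.S55.UnrExt93

variable {q : ℕ} [Fact q.Prime]
variable {K : IntermediateField ℚ_[q] (PadicAlgCl q)} [FiniteDimensional ℚ_[q] K] {n : ℕ}

/-- Distinct `(Q^n-1)`-th roots of unity are incongruent: `‖z - z'‖ = 1`. -/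
theorem norm_sub_eq_one_of_ne (hn : 0 < n) {z z' : PadicAlgCl q}
    (hz : z ^ (resCard q K ^ n - 1) = 1) (hz' : z' ^ (resCard q K ^ n - 1) = 1) (hne : z ≠ z') :
    ‖z - z'‖ = 1 := by
  have hm0 : resCard q K ^ n - 1 ≠ 0 := resCard_pow_sub_one_ne_zero K hn
  have h1 : ‖z‖ = 1 := norm_eq_one_of_pow_eq_one hm0 hz
  have h2 : ‖z'‖ = 1 := norm_eq_one_of_pow_eq_one hm0 hz'
  have hle : ‖z - z'‖ ≤ 1 := by
    rw [sub_eq_add_neg]
    exact (IsUltrametricDist.norm_add_le_max z (-z')).trans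
      (max_le h1.le (by rw [norm_neg]; exact h2.le))
  rcases lt_or_eq_of_le hle with hlt | heq
  · exact absurd (eq_of_pow_eq_one_of_norm_sub_lt (not_dvd_resCard_pow_sub_one K n hn) hz hz' hlt)
      hne
  · exact heq

/-- `Q^n` pairwise incongruent integral elements of `K_n` (`0` and the `(Q^n-1)`-th roots of
unity). -/
theorem exists_reps (hn : 0 < n) :
    ∃ T : Finset (PadicAlgCl q), resCard q K ^ n ≤ T.card ∧
      (∀ t ∈ T, t ∈ unr q K n ∧ ‖t‖ ≤ 1) ∧
      ∀ t ∈ T, ∀ t' ∈ T, ‖t - t'‖ < 1 → t = t' := by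
  classical
  obtain ⟨ζ, hζ⟩ := exists_zeta K hn
  have hm0 : resCard q K ^ n - 1 ≠ 0 := resCard_pow_sub_one_ne_zero K hn
  have hpow : ∀ i : ℕ, (ζ ^ i) ^ (resCard q K ^ n - 1) = 1 := fun i => by
    rw [← pow_mul, mul_comm, pow_mul, hζ.pow_eq_one, one_pow]
  have hnorm : ∀ i : ℕ, ‖ζ ^ i‖ = 1 := fun i => norm_eq_one_of_pow_eq_one hm0 (hpow i)
  set R : Finset (PadicAlgCl q) := (Finset.range (resCard q K ^ n - 1)).image (fun i => ζ ^ i)
    with hR
  have hRcard : R.card = resCard q K ^ n - 1 := by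
    rw [hR, Finset.card_image_of_injOn, Finset.card_range]
    intro i hi j hj hij
    exact hζ.pow_inj (Finset.mem_range.1 (Finset.mem_coe.1 hi))
      (Finset.mem_range.1 (Finset.mem_coe.1 hj)) hij
  have hRmem : ∀ t ∈ R, t ^ (resCard q K ^ n - 1) = 1 := by
    intro t ht
    obtain ⟨i, -, rfl⟩ := Finset.mem_image.1 ht
    exact hpow i
  have h0R : (0 : PadicAlgCl q) ∉ R := by
    intro h0
    have := hRmem 0 h0
    rw [zero_pow hm0] at this
    exact zero_ne_one this
  refine ⟨insert 0 R, ?_, ?_, ?_⟩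
  · rw [Finset.card_insert_of_notMem h0R, hRcard]
    have : 1 ≤ resCard q K ^ n := Nat.one_le_pow _ _ (by have := one_lt_resCard K; omega)
    omega
  · intro t ht
    rcases Finset.mem_insert.1 ht with rfl | ht
    · exact ⟨(unr q K n).zero_mem, by simp⟩
    · exact ⟨mem_unr_of_pow_eq_one K n (hRmem t ht),
        (norm_eq_one_of_pow_eq_one hm0 (hRmem t ht)).le⟩
  · intro t ht t' ht' hlt
    rcases Finset.mem_insert.1 ht with rfl | ht
    · rcases Finset.mem_insert.1 ht' with rfl | ht'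
      · rfl
      · exfalso
        rw [zero_sub, norm_neg, norm_eq_one_of_pow_eq_one hm0 (hRmem t' ht')] at hlt
        exact lt_irrefl _ hlt
    · rcases Finset.mem_insert.1 ht' with rfl | ht'
      · exfalso
        rw [sub_zero, norm_eq_one_of_pow_eq_one hm0 (hRmem t ht)] at hlt
        exact lt_irrefl _ hlt
      · by_contra hne
        rw [norm_sub_eq_one_of_ne hn (hRmem t ht) (hRmem t' ht') hne] at hlt
        exact lt_irrefl _ hlt

end Fermat.Agent.S55.UnrExt93
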