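import Fermat.Agent.S55.UnrExt93.Residue

/-!
# S55 moonshot, sub-leaf 13b (helper93): the power basis `1, ζ, …, ζ^(n-1)` of `K(μ_{Q^n-1})`

Mathlib only.  `K` a finite extension of `ℚ_[q]` inside `Ω := PadicAlgCl q`, `Q := resCard q K`,
`ζ` a primitive `(Q^n-1)`-th root of unity.  We prove:
* `indep`: residual independence of `1, ζ, …, ζ^(n-1)` over the residue field of `K`;
* `ortho`: `‖∑_{i<n} c_i ζ^i‖ = max ‖c_i‖` for `c_i ∈ K`;
* `galois_action`: every `σ ∈ Gal(Ω/K)` maps `ζ` to `ζ^(Q^i)` for some `i < n`.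
-/

namespace Fermat.Agent.S55.UnrExt93

open Polynomial

variable {q : ℕ} [Fact q.Prime]

/-- Frobenius trick: a polynomial over a ring of characteristic `q` whose coefficients are fixed by
`x ↦ x^(q^a)` commutes with `x ↦ x^(q^a)`. -/
lemma eval_pow_of_coeff_fixed {k : Type*} [CommRing k] [CharP k q] (a : ℕ) (T : k[X])
    (hT : ∀ i, T.coeff i ^ q ^ a = T.coeff i) (x : k) :
    T.eval (x ^ q ^ a) = T.eval x ^ q ^ a := by
  have h1 : T.map (iterateFrobenius k q a) = T := by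
    ext i
    rw [coeff_map, iterateFrobenius_def, hT]
  have h2 := Polynomial.hom_eval₂ T (RingHom.id k) (iterateFrobenius k q a) x
  rw [iterateFrobenius_def, iterateFrobenius_def, RingHom.comp_id, eval₂_id] at h2
  rw [h2, ← eval_map, h1]

lemma eval_pow_pow_of_coeff_fixed {k : Type*} [CommRing k] [CharP k q] (a : ℕ) (T : k[X])
    (hT : ∀ i, T.coeff i ^ q ^ a = T.coeff i) (x : k) (j : ℕ) :
    T.eval (x ^ (q ^ a) ^ j) = T.eval x ^ (q ^ a) ^ j := by
  induction j with
  | zero => simp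
  | succ j ih =>
    rw [pow_succ, pow_mul, eval_pow_of_coeff_fixed a T hT, ih, ← pow_mul]

section powerBasis

variable {K : IntermediateField ℚ_[q] (PadicAlgCl q)} [FiniteDimensional ℚ_[q] K] {n : ℕ}
  {ζ : PadicAlgCl q}

lemma resCard_pow_lt (K : IntermediateField ℚ_[q] (PadicAlgCl q)) [FiniteDimensional ℚ_[q] K]
    {n i : ℕ} (hn : 2 ≤ n) (hi : i < n) : resCard q K ^ i < resCard q K ^ n - 1 := by
  have hQ : 2 ≤ resCard q K := one_lt_resCard K
  have h1 : resCard q K ^ i ≤ resCard q K ^ (n - 1) :=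
    Nat.pow_le_pow_right (by omega) (by omega)
  have h2 : resCard q K ^ n = resCard q K ^ (n - 1) * resCard q K := by
    rw [← pow_succ]; congr 1; omega
  have h3 : 2 ≤ resCard q K ^ (n - 1) := by
    calc 2 ≤ resCard q K := hQ
      _ = resCard q K ^ 1 := (pow_one _).symm
      _ ≤ resCard q K ^ (n - 1) := Nat.pow_le_pow_right (by omega) (by omega)
  have h4 : resCard q K ^ (n - 1) + 2 ≤ resCard q K ^ n := by
    rw [h2]; nlinarith
  omega

lemma norm_zeta (hn : 0 < n) (hζ : IsPrimitiveRoot ζ (resCard q K ^ n - 1)) : ‖ζ‖ = 1 := by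
  have hm0 : resCard q K ^ n - 1 ≠ 0 := by
    intro h0
    exact not_dvd_resCard_pow_sub_one K n hn (by rw [h0]; exact dvd_zero q)
  exact norm_eq_one_of_pow_eq_one hm0 hζ.pow_eq_one

lemma zeta_pow_inj (hζ : IsPrimitiveRoot ζ (resCard q K ^ n - 1)) {i j : ℕ} (hi : i < n)
    (hj : j < n) (h : ζ ^ resCard q K ^ i = ζ ^ resCard q K ^ j) : i = j := by
  rcases Nat.lt_or_ge n 2 with h2 | h2
  · omega
  · have := hζ.pow_inj (resCard_pow_lt K h2 hi) (resCard_pow_lt K h2 hj) h
    exact Nat.pow_right_injective (one_lt_resCard K) this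

lemma red_zeta_pow_inj (hn : 0 < n) (hζ : IsPrimitiveRoot ζ (resCard q K ^ n - 1)) {i j : ℕ}
    (hi : i < n) (hj : j < n) (h : red q ζ ^ resCard q K ^ i = red q ζ ^ resCard q K ^ j) :
    i = j := by
  have h1 : ‖ζ‖ = 1 := norm_zeta hn hζ
  have hp : ∀ e : ℕ, ‖ζ ^ e‖ ≤ 1 := fun e => by rw [norm_pow, h1, one_pow]
  rw [← red_pow h1.le, ← red_pow h1.le, red_eq_iff (hp _) (hp _)] at h
  apply zeta_pow_inj hζ hi hj
  apply eq_of_pow_eq_one_of_norm_sub_lt (not_dvd_resCard_pow_sub_one K n hn) _ _ h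
  · rw [← pow_mul, mul_comm, pow_mul, hζ.pow_eq_one, one_pow]
  · rw [← pow_mul, mul_comm, pow_mul, hζ.pow_eq_one, one_pow]

/-- Residual independence of `1, ζ, …, ζ^(n-1)` over the residue field of `K`. -/
theorem indep (hn : 0 < n) (hζ : IsPrimitiveRoot ζ (resCard q K ^ n - 1))
    (c : ℕ → PadicAlgCl q) (hcK : ∀ i, c i ∈ K) (hc : ∀ i, ‖c i‖ ≤ 1)
    (h : ‖∑ i ∈ Finset.range n, c i * ζ ^ i‖ < 1) : ∀ i < n, ‖c i‖ < 1 := by
  obtain ⟨a, ha, hQ⟩ := resCard_pos_pow K
  have h1 : ‖ζ‖ = 1 := norm_zeta hn hζ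
  set T : (kΩ q)[X] := ∑ i ∈ Finset.range n, C (red q (c i)) * X ^ i with hT
  have hcoeff : ∀ i, T.coeff i = if i < n then red q (c i) else 0 := by
    intro i
    rw [hT, finsetSum_coeff]
    simp only [coeff_C_mul, coeff_X_pow]
    by_cases hi : i < n
    · rw [if_pos hi, Finset.sum_eq_single_of_mem i (Finset.mem_range.2 hi)]
      · simp
      · intro b _ hb; simp [hb.symm]
    · rw [if_neg hi]
      refine Finset.sum_eq_zero (fun b hb => ?_)
      have : i ≠ b := by rintro rfl; exact hi (Finset.mem_range.1 hb)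
      simp [this]
  have hfix : ∀ i, T.coeff i ^ q ^ a = T.coeff i := by
    intro i
    rw [hcoeff]
    split_ifs
    · rw [← hQ]; exact pow_resCard_of_mem_resField (red_mem_resField (hcK i) (hc i))
    · exact zero_pow (pow_pos (Fact.out : q.Prime).pos a).ne'
  have heval0 : T.eval (red q ζ) = 0 := by
    have hterm : ∀ i ∈ Finset.range n, ‖c i * ζ ^ i‖ ≤ 1 := fun i _ => by
      rw [norm_mul, norm_pow, h1, one_pow, mul_one]; exact hc i
    have h2 := red_sum (Finset.range n) (fun i => c i * ζ ^ i) hterm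
    have h3 : red q (∑ i ∈ Finset.range n, c i * ζ ^ i) = 0 := (red_eq_zero_iff h2.1).2 h
    rw [h2.2] at h3
    rw [hT, eval_finsetSum, ← h3]
    refine Finset.sum_congr rfl (fun i _ => ?_)
    rw [eval_mul, eval_C, eval_pow, eval_X,
      red_mul (hc i) (by rw [norm_pow, h1, one_pow]), red_pow h1.le]
  have hroots : ∀ j : Fin n, T.eval (red q ζ ^ resCard q K ^ (j : ℕ)) = 0 := by
    intro j
    rw [hQ, eval_pow_pow_of_coeff_fixed a T hfix, heval0, zero_pow]
    exact (pow_pos (pow_pos (Fact.out : q.Prime).pos a) _).ne'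
  have hinj : Function.Injective (fun j : Fin n => red q ζ ^ resCard q K ^ (j : ℕ)) := by
    intro i j hij
    exact Fin.ext (red_zeta_pow_inj hn hζ i.2 j.2 hij)
  have hT0 : T = 0 := by
    by_contra hne
    have hdeg : T.natDegree < n := by
      rw [natDegree_lt_iff_degree_lt hne, degree_lt_iff_coeff_zero]
      intro m hm
      rw [hcoeff, if_neg (by omega)]
    exact hne (eq_zero_of_natDegree_lt_card_of_eval_eq_zero T hinj hroots (by simpa using hdeg))
  intro i hi
  have h4 : T.coeff i = 0 := by rw [hT0, coeff_zero]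
  rw [hcoeff, if_pos hi] at h4
  exact (red_eq_zero_iff (hc i)).1 h4

/-- Orthogonality of the power basis: `‖∑_{i<n} c_i ζ^i‖ = max_i ‖c_i‖` for `c_i ∈ K`. -/
theorem ortho (hn : 0 < n) (hζ : IsPrimitiveRoot ζ (resCard q K ^ n - 1))
    (c : ℕ → PadicAlgCl q) (hcK : ∀ i, c i ∈ K) :
    ∃ j < n, ‖∑ i ∈ Finset.range n, c i * ζ ^ i‖ = ‖c j‖ ∧ ∀ i < n, ‖c i‖ ≤ ‖c j‖ := by
  have h1 : ‖ζ‖ = 1 := norm_zeta hn hζ
  obtain ⟨j, hj, hmax⟩ := Finset.exists_max_image (Finset.range n) (fun i => ‖c i‖)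
    ⟨0, Finset.mem_range.2 hn⟩
  rw [Finset.mem_range] at hj
  have hmax' : ∀ i < n, ‖c i‖ ≤ ‖c j‖ := fun i hi => hmax i (Finset.mem_range.2 hi)
  refine ⟨j, hj, ?_, hmax'⟩
  by_cases hcj : c j = 0
  · have hall : ∀ i ∈ Finset.range n, c i * ζ ^ i = 0 := by
      intro i hi
      have : ‖c i‖ ≤ 0 := by
        have := hmax' i (Finset.mem_range.1 hi)
        rwa [hcj, norm_zero] at this
      rw [norm_le_zero_iff.1 this, zero_mul]
    rw [Finset.sum_eq_zero hall, hcj]
  · have hcj0 : 0 < ‖c j‖ := norm_pos_iff.2 hcj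
    set d : ℕ → PadicAlgCl q := fun i => if i < n then c i / c j else 0 with hd
    have hdK : ∀ i, d i ∈ K := by
      intro i
      simp only [hd]
      split_ifs
      · exact K.div_mem (hcK i) (hcK j)
      · exact K.zero_mem
    have hd1 : ∀ i, ‖d i‖ ≤ 1 := by
      intro i
      simp only [hd]
      split_ifs with hi
      · rw [norm_div, div_le_one hcj0]; exact hmax' i hi
      · simp
    have hsum : ∑ i ∈ Finset.range n, d i * ζ ^ i
        = (∑ i ∈ Finset.range n, c i * ζ ^ i) / c j := by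
      rw [Finset.sum_div]
      refine Finset.sum_congr rfl (fun i hi => ?_)
      simp only [hd, if_pos (Finset.mem_range.1 hi)]
      ring
    have hle : ‖∑ i ∈ Finset.range n, d i * ζ ^ i‖ ≤ 1 :=
      IsUltrametricDist.norm_sum_le_of_forall_le_of_nonneg zero_le_one (fun i _ => by
        rw [norm_mul, norm_pow, h1, one_pow, mul_one]; exact hd1 i)
    have heq : ‖∑ i ∈ Finset.range n, d i * ζ ^ i‖ = 1 := by
      rcases lt_or_eq_of_le hle with hlt | heq
      · exfalso
        have := indep hn hζ d hdK hd1 hlt j hj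
        simp only [hd, if_pos hj, div_self hcj, norm_one] at this
        exact lt_irrefl _ this
      · exact heq
    rw [hsum, norm_div, div_eq_one_iff_eq hcj0.ne'] at heq
    exact heq

/-- `1, ζ, …, ζ^(n-1)` are linearly independent over `K`. -/
theorem eq_zero_of_sum_eq_zero (hn : 0 < n) (hζ : IsPrimitiveRoot ζ (resCard q K ^ n - 1))
    (c : ℕ → PadicAlgCl q) (hcK : ∀ i, c i ∈ K)
    (h : ∑ i ∈ Finset.range n, c i * ζ ^ i = 0) : ∀ i < n, c i = 0 := by
  obtain ⟨j, _, hj, hmax⟩ := ortho hn hζ c hcK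
  rw [h, norm_zero] at hj
  intro i hi
  have := hmax i hi
  rw [← hj] at this
  exact norm_le_zero_iff.1 this

lemma zeta_pow_resCard_pow (hζ : IsPrimitiveRoot ζ (resCard q K ^ n - 1)) :
    ζ ^ resCard q K ^ n = ζ := by
  have h0 : 0 < resCard q K ^ n := pow_pos (by have := one_lt_resCard K; omega) n
  have : resCard q K ^ n = (resCard q K ^ n - 1) + 1 := by omega
  rw [this, pow_succ, hζ.pow_eq_one, one_mul]

/-- Every `σ ∈ Gal(Ω/K)` maps `ζ` to `ζ^(Q^i)` for some `i < n`. -/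
theorem galois_action (hn : 0 < n) (hζ : IsPrimitiveRoot ζ (resCard q K ^ n - 1))
    (σ : PadicAlgCl q ≃ₐ[ℚ_[q]] PadicAlgCl q) (hσ : σ ∈ K.fixingSubgroup) :
    ∃ i < n, σ ζ = ζ ^ resCard q K ^ i := by
  obtain ⟨a, ha, hQ⟩ := resCard_pos_pow K
  have h1 : ‖ζ‖ = 1 := norm_zeta hn hζ
  have hp : ∀ e : ℕ, ‖ζ ^ e‖ ≤ 1 := fun e => by rw [norm_pow, h1, one_pow]
  set z : kΩ q := red q ζ with hz
  set g : ℕ → (kΩ q)[X] := fun i => X - C (z ^ resCard q K ^ i) with hg
  set R : (kΩ q)[X] := ∏ i ∈ Finset.range n, g i with hR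
  have hzn : z ^ resCard q K ^ n = z := by
    rw [hz, ← red_pow h1.le, zeta_pow_resCard_pow hζ]
  -- `R` is fixed by Frobenius
  have hmap : R.map (iterateFrobenius (kΩ q) q a) = R := by
    have hg1 : ∀ i, (g i).map (iterateFrobenius (kΩ q) q a) = g (i + 1) := by
      intro i
      simp only [hg, Polynomial.map_sub, map_X, map_C, iterateFrobenius_def]
      rw [← hQ, ← pow_mul, ← pow_succ]
    rw [hR, Polynomial.map_prod]
    simp only [hg1]
    have h2 : (∏ i ∈ Finset.range n, g (i + 1)) * g 0 = (∏ i ∈ Finset.range n, g i) * g 0 := by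
      rw [← Finset.prod_range_succ', Finset.prod_range_succ]
      congr 1
      simp only [hg, hzn, pow_zero, pow_one]
    exact mul_right_cancel₀ (X_sub_C_ne_zero _) h2
  have hfix : ∀ i, R.coeff i ^ resCard q K = R.coeff i := by
    intro i
    have := congrArg (fun P => P.coeff i) hmap
    simp only [coeff_map, iterateFrobenius_def] at this
    rw [hQ]; exact this
  have hdeg : R.natDegree = n := by
    rw [hR]
    simp only [hg]
    rw [natDegree_finsetProd_X_sub_C_eq_card, Finset.card_range]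
  -- lift the coefficients to `K`
  have hlift : ∀ i, ∃ x ∈ K, ‖x‖ ≤ 1 ∧ red q x = R.coeff i := fun i =>
    mem_resField.1 (mem_resField_of_pow_resCard (hfix i))
  choose c hcK hc hcred using hlift
  -- evaluation of the lifted polynomial reduces to evaluation of `R`
  have hevalred : ∀ w : PadicAlgCl q, ‖w‖ ≤ 1 →
      ‖∑ i ∈ Finset.range (n + 1), c i * w ^ i‖ ≤ 1 ∧
      red q (∑ i ∈ Finset.range (n + 1), c i * w ^ i) = R.eval (red q w) := by
    intro w hw
    have hterm : ∀ i ∈ Finset.range (n + 1), ‖c i * w ^ i‖ ≤ 1 := fun i _ => by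
      rw [norm_mul, norm_pow]
      exact mul_le_one₀ (hc i) (pow_nonneg (norm_nonneg _) _) (pow_le_one₀ (norm_nonneg _) hw)
    have h2 := red_sum (Finset.range (n + 1)) (fun i => c i * w ^ i) hterm
    refine ⟨h2.1, ?_⟩
    rw [h2.2, eval_eq_sum_range' (n := n + 1) (by omega)]
    refine Finset.sum_congr rfl (fun i _ => ?_)
    rw [red_mul (hc i) (by rw [norm_pow]; exact pow_le_one₀ (norm_nonneg _) hw), red_pow hw,
      hcred]
  have hRz : R.eval z = 0 := by
    rw [hR, eval_prod, Finset.prod_eq_zero_iff]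
    exact ⟨0, Finset.mem_range.2 hn, by simp [hg]⟩
  set y := ∑ i ∈ Finset.range (n + 1), c i * ζ ^ i with hy
  have hy1 : ‖y‖ < 1 := by
    have h3 := hevalred ζ h1.le
    rw [← red_eq_zero_iff h3.1, h3.2]; exact hRz
  have hσy : σ y = ∑ i ∈ Finset.range (n + 1), c i * (σ ζ) ^ i := by
    rw [hy, map_sum]
    refine Finset.sum_congr rfl (fun i _ => ?_)
    rw [map_mul, map_pow, (IntermediateField.mem_fixingSubgroup_iff _ _).1 hσ _ (hcK i)]
  have hσζ : ‖σ ζ‖ ≤ 1 := by rw [norm_map, h1]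
  have h4 := hevalred (σ ζ) hσζ
  have h5 : R.eval (red q (σ ζ)) = 0 := by
    rw [← h4.2, red_eq_zero_iff h4.1, ← hσy, norm_map]; exact hy1
  rw [hR, eval_prod, Finset.prod_eq_zero_iff] at h5
  obtain ⟨i, hi, h6⟩ := h5
  rw [Finset.mem_range] at hi
  refine ⟨i, hi, ?_⟩
  simp only [hg, eval_sub, eval_X, eval_C, sub_eq_zero] at h6
  rw [hz, ← red_pow h1.le, red_eq_iff hσζ (hp _)] at h6
  apply eq_of_pow_eq_one_of_norm_sub_lt (not_dvd_resCard_pow_sub_one K n hn) _ _ h6
  · rw [← map_pow, hζ.pow_eq_one, map_one]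
  · rw [← pow_mul, mul_comm, pow_mul, hζ.pow_eq_one, one_pow]

end powerBasis

end Fermat.Agent.S55.UnrExt93
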